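import Fermat.Agent.H11N.MZCurve

/-!
# A curve which is residually modular of level `N` is unramified outside `N p`
-/

set_option autoImplicit false
set_option linter.style.haveILetI false
set_option linter.unusedSectionVars false
set_option maxSynthPendingDepth 3

noncomputable section

namespace Fermat.Agent.H11N

open ModularCurve AlgebraicCurve Fermat.Agent.Ell Fermat.Agent.H12.LL Matrix

local notation "Qb" => AlgebraicClosure ℚ
local notation "Γq" => AlgebraicClosure ℚ ≃ₐ[ℚ] AlgebraicClosure ℚ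

theorem eq_one_of_blr {F V G : Type*} [Field F] [AddCommGroup V] [Module F V] [Nontrivial V]
    [Group G] (ρ : G →* Matrix (Fin 2) (Fin 2) F) (r : G →* Module.End F V)
    (hrel : ∀ g, r g * r g - (ρ g).trace • r g + (ρ g).det • (1 : Module.End F V) = 0)
    (hspan : Submodule.span F (Set.range ρ) = ⊤) {g : G} (hg : r g = 1) : ρ g = 1 := by
  obtain ⟨Φ, hΦ⟩ := blr ρ r hrel hspan
  have hinj : Function.Injective Φ := RingHom.injective Φ.toRingHom
  apply hinj
  rw [hΦ, hg, map_one]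

theorem MRep.eq_one {p D : ℕ} {a : ℕ → ℤ} [hp : Fact p.Prime] {N : ℕ} [NeZero N]
    (P : MRep p D a) (hD : D ≠ 0) (hND : N ∣ D) (hpD : p ∣ D)
    (hne : ∃ x ∈ EigSub N p D a, x ≠ 0) {σ : Γq} (hσ : ∀ x ∈ EigSub N p D a, σ • x = x) :
    P.ρ σ = 1 := by
  haveI : Nontrivial (EigSub N p D a) := by
    obtain ⟨x, hx, hx0⟩ := hne
    exact ⟨⟨x, hx⟩, 0, fun h => hx0 (congrArg Subtype.val h)⟩
  exact eq_one_of_blr P.ρ (galEig N p D a) (P.rel hp.out.ne_zero hD hND hpD) P.span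
    (LinearMap.ext fun x => Subtype.ext (hσ x x.2))

variable {W : WeierstrassCurve ℤ} {p : ℕ} [hp : Fact p.Prime]

/-- **`E[p]` is unramified outside `N p` if it is modular of level `N`.** -/
theorem unrAt_of_residual (hΔ : W.Δ ≠ 0) (hirr : W.ModRepIsIrreducible p) (hp2 : p ≠ 2)
    {N : ℕ} (hN : N ≠ 0) (hmod : W.IsResiduallyModularOfLevel p N) {q : ℕ} (hq : q.Prime)
    (hqN : ¬ q ∣ N) (hqp : q ≠ p) : UnrAt W p q := by
  haveI : NeZero N := ⟨hN⟩
  haveI := isElliptic_WQ hΔ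
  have hD : N * p * W.Δ.natAbs ≠ 0 :=
    mul_ne_zero (mul_ne_zero hN hp.out.ne_zero) (Int.natAbs_ne_zero.2 hΔ)
  have hND : N ∣ N * p * W.Δ.natAbs := Dvd.intro _ (mul_assoc _ _ _).symm
  have hpD : p ∣ N * p * W.Δ.natAbs := ⟨N * W.Δ.natAbs, by ring⟩
  have hΔD : W.Δ.natAbs ∣ N * p * W.Δ.natAbs := dvd_mul_left _ _
  intro A hA σ hσ
  rw [← MR_toZMod_eq_one_iff (tB (p := p) hΔ)]
  refine (mrepCurve hΔ hirr hp2 hpD hΔD).eq_one hD hND hpD
    (exists_eigen_of_residual hmod hND hpD hΔD) fun x hx => ?_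
  exact H28.inertia_torsion N hq hqN A hA
    (fun h => hqp ((Nat.prime_dvd_prime_iff_eq hq hp.out).1 h)) hσ x hx.1

end Fermat.Agent.H11N
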