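import Fermat.Agent.H11N.N3Curve
import Fermat.Agent.H11N.Unr
import Fermat.Agent.H18R.Top
import Fermat.Prelude.Def_FreyPackage_IsConductorLevel

/-!
# Level lowering at `q ≢ 1` and at `p`: final forms
-/

set_option autoImplicit false
set_option linter.style.haveILetI false
set_option linter.unusedSectionVars false

noncomputable section

namespace Fermat.Agent.H11N

open WeierstrassCurve WeierstrassCurve.Affine WeierstrassCurve.Affine.Point

local notation "Qb" => AlgebraicClosure ℚ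

variable {W : WeierstrassCurve ℤ} {p : ℕ} [hp : Fact p.Prime]

/-- **Mazur's principle** at a prime `q ≢ 1` modulo `p`, `q ≠ p` odd, for an even level. -/
theorem lower_q (hΔ : W.Δ ≠ 0) (hirr : W.ModRepIsIrreducible p) (hp2 : p ≠ 2)
    {M q : ℕ} (hM : M ≠ 0) (h2M : 2 ∣ M) (hq : q.Prime) (hq2 : q ≠ 2) (hqp : q ≠ p)
    (hqM : ¬ q ∣ M) (hq1 : ¬ q ≡ 1 [MOD p]) (hunr : H12.LL.UnrAt W p q)
    (hmod : W.IsResiduallyModularOfLevel p (M * q)) : W.IsResiduallyModularOfLevel p M :=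
  H18R.isResiduallyModular_of_RMs hΔ hirr hM
    (mazur_principle hΔ hirr hp2 hM h2M hq hq2 hqp hqM hq1 hunr hmod)

/-- The geometric input at `p` for all even levels. -/
def N3All (p : ℕ) [Fact p.Prime] : Prop :=
  ∀ (M : ℕ) [NeZero M], 2 ∣ M → ∀ A : ValuationSubring Qb, A.LiesOverPrime p → N3Core p M A

/-- **Mazur's principle at `p`** (multiplicative reduction, peu ramifiée, even level). -/
theorem lower_p (hN3 : N3All p) (hΔ : W.Δ ≠ 0) (hirr : W.ModRepIsIrreducible p) (hp5 : 5 ≤ p)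
    (hpΔ : (p : ℤ) ∣ W.Δ) (hc₄ : ¬ (p : ℤ) ∣ W.c₄) (hdiv : p ∣ padicValInt p W.Δ)
    {M : ℕ} (hM : M ≠ 0) (h2M : 2 ∣ M) (hpM : ¬ p ∣ M)
    (hmod : W.IsResiduallyModularOfLevel p (M * p)) : W.IsResiduallyModularOfLevel p M :=
  H18R.isResiduallyModular_of_RMs hΔ hirr hM
    (mazur_at_p hΔ hirr hp5 hpΔ hc₄ hdiv hM h2M hpM
      (haveI : NeZero M := ⟨hM⟩; fun A hA => hN3 M h2M A hA) hmod)

/-- **S44** from the geometric input and the ramification at `2`. -/
theorem s44_of (P : FreyPackage) (hN3 : haveI : Fact P.p.Prime := ⟨P.pp⟩; N3All P.p)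
    (hR : ¬ H12.LL.UnrAt P.freyCurveInt P.p 2) {N : ℕ} (hcond : P.IsConductorLevel N)
    (hpN : P.p ∣ N)
    (hirr : GaloisRepIsIrreducible (K := AlgebraicClosure ℚ) ℚ P.freyCurve P.p)
    (hmod : P.ModularRepOfLevel N) : ∃ M : ℕ, M ∣ N ∧ ¬ P.p ∣ M ∧ P.ModularRepOfLevel M := by
  haveI : Fact P.p.Prime := ⟨P.pp⟩
  have hΔ := H26.freyCurveInt_Δ_ne_zero P
  have hirr' : P.freyCurveInt.ModRepIsIrreducible P.p := (H18R.frey_irr_iff P P.p).2 hirr
  have hp5 : 5 ≤ P.p := P.hp5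
  have hN0 : N ≠ 0 := hcond.pos.ne'
  have hRM : P.freyCurveInt.IsResiduallyModularOfLevel P.p N := (H18R.frey_iff P hirr' hN0).1 hmod
  have h2N : 2 ∣ N := by
    by_contra h2
    exact hR (unrAt_of_residual hΔ hirr' (by omega) hN0 hRM Nat.prime_two h2 (by omega))
  obtain ⟨M, rfl⟩ := hpN
  have hM : M ≠ 0 := fun h => hN0 (by rw [h, mul_zero])
  have h2M : 2 ∣ M := by
    rcases (Nat.Prime.dvd_mul Nat.prime_two).1 h2N with h | h
    · have := (Nat.prime_dvd_prime_iff_eq Nat.prime_two P.pp).1 h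
      omega
    · exact h
  have hpM : ¬ P.p ∣ M := by
    intro h
    apply hcond.sq_not_dvd P.pp
    rw [sq]
    exact Nat.mul_dvd_mul_left _ h
  obtain ⟨h1, h2, h3⟩ := N4.frey_dvd_padicValInt P (hcond.p_dvd_abc (dvd_mul_right _ _))
  refine ⟨M, dvd_mul_left _ _, hpM, (H18R.frey_iff P hirr' hM).2 ?_⟩
  exact lower_p hN3 hΔ hirr' hp5 h1 h2 h3 hM h2M hpM (by rw [mul_comm]; exact hRM)

end Fermat.Agent.H11N
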