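import Fermat.Agent.H11N.Low
import Fermat.Agent.NN.N3

/-!
# Mazur's principle at `p`, unconditional
-/

set_option autoImplicit false
set_option linter.style.haveILetI false
set_option linter.unusedSectionVars false
set_option maxSynthPendingDepth 3

noncomputable section

attribute [-instance] HahnSeries.instModule HahnSeries.instSMul HahnSeries.instDistribMulAction
  HahnSeries.instSMulZeroClass

attribute [local instance 10000] Fermat.Agent.H29.instLS Fermat.Agent.H29.instIF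
  Fermat.Agent.H29.instIF2

namespace Fermat.Agent.H11N

open ModularCurve AlgebraicCurve Fermat.Agent.FF Fermat.Agent.H11Q Fermat.Agent.Q Fermat.Agent.P

local notation "kk" => IsLocalRing.ResidueField
local notation "Qb" => AlgebraicClosure ℚ

attribute [local instance] H12.isAlgClosed_kk

/-- the geometric input (N3), unconditional -/
theorem n3Core {p M : ℕ} [hp : Fact p.Prime] [NeZero M] (hp2 : p ≠ 2) (h2 : 2 ∣ M)
    {A : ValuationSubring Qb} (hA : A.LiesOverPrime p) : N3Core p M A := by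
  intro hpM ζ hζ x y hx hy0 hy ha0 ha1 hxI hv heis l hl hlN
  exact NN.n3_core hpM h2 hp2 hA hζ hx hy0 hy ha0 ha1 hxI hv heis hlN

theorem n3All {p : ℕ} [hp : Fact p.Prime] (hp2 : p ≠ 2) : N3All p :=
  fun _ _ h2 _ hA => n3Core hp2 h2 hA

variable {W : WeierstrassCurve ℤ} {p : ℕ} [hp : Fact p.Prime]

/-- **Mazur's principle at `p`**, residually modular form, unconditional. -/
theorem lower_p' (hΔ : W.Δ ≠ 0) (hirr : W.ModRepIsIrreducible p) (hp5 : 5 ≤ p)
    (hpΔ : (p : ℤ) ∣ W.Δ) (hc₄ : ¬ (p : ℤ) ∣ W.c₄) (hdiv : p ∣ padicValInt p W.Δ)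
    {M : ℕ} (hM : M ≠ 0) (h2M : 2 ∣ M) (hpM : ¬ p ∣ M)
    (hmod : W.IsResiduallyModularOfLevel p (M * p)) : W.IsResiduallyModularOfLevel p M :=
  lower_p (n3All (by omega)) hΔ hirr hp5 hpΔ hc₄ hdiv hM h2M hpM hmod

/-- **Mazur's principle at `p`**, `RMs` form, unconditional. -/
theorem mazur_at_p' (hΔ : W.Δ ≠ 0) (hirr : W.ModRepIsIrreducible p) (hp5 : 5 ≤ p)
    (hpΔ : (p : ℤ) ∣ W.Δ) (hc₄ : ¬ (p : ℤ) ∣ W.c₄) (hdiv : p ∣ padicValInt p W.Δ)
    {M : ℕ} (hM : M ≠ 0) (h2M : 2 ∣ M) (hpM : ¬ p ∣ M)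
    (hmod : W.IsResiduallyModularOfLevel p (M * p)) :
    H19.A8.RMs p M (M * p * W.Δ.natAbs).primeFactors
      (fun ℓ => ((W.apOfModel ℓ : ℤ) : ZMod p)) :=
  mazur_at_p hΔ hirr hp5 hpΔ hc₄ hdiv hM h2M hpM
    (haveI : NeZero M := ⟨hM⟩; fun A hA => n3All (by omega) M h2M A hA) hmod

end Fermat.Agent.H11N
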