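import Fermat.Agent.H11N.MZ
import Fermat.Agent.H12.LL.RDW2
import Fermat.Agent.H19.A8

/-!
# Mazur's principle for elliptic curves
-/

set_option autoImplicit false
set_option linter.style.haveILetI false
set_option linter.unusedSectionVars false
set_option maxSynthPendingDepth 3

noncomputable section

namespace Fermat.Agent.H11N

open ModularCurve AlgebraicCurve Fermat.Agent.Ell Fermat.Agent.H12.LL
open ModularFormClass (qCoeff)

local notation "Qb" => AlgebraicClosure ℚ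
local notation "Γq" => AlgebraicClosure ℚ ≃ₐ[ℚ] AlgebraicClosure ℚ

section Curve

variable {W : WeierstrassCurve ℤ} {p : ℕ} [hp : Fact p.Prime]

theorem span_MR (hΔ : W.Δ ≠ 0) (hirr : W.ModRepIsIrreducible p) (hp2 : p ≠ 2) :
    Submodule.span (ZMod p) (Set.range (MR (tB (p := p) hΔ) (PadicInt.toZMod (p := p)))) = ⊤ := by
  haveI := isElliptic_WQ hΔ
  have h2 : (2 : ZMod p) ≠ 0 := by
    intro h
    have h' : ((2 : ℕ) : ZMod p) = 0 := by exact_mod_cast h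
    rw [ZMod.natCast_eq_zero_iff] at h'
    exact hp2 ((Nat.prime_dvd_prime_iff_eq hp.out Nat.prime_two).1 h')
  set ρ := MR (tB (p := p) hΔ) (PadicInt.toZMod (p := p)) with hρ
  have hCC : ρ complexConjugation * ρ complexConjugation = 1 := by
    rw [← map_mul, complexConjugation_mul_self, map_one]
  have htc : (ρ complexConjugation).trace = 0 := by
    rw [hρ, trace_MR, trace_conj hΔ hirr, map_zero]
  obtain ⟨Q, Q', h, h', hQ⟩ := exists_diag h2 hCC htc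
  exact span_eq_top_of_irr h2 ρ h h' hQ (irr_MR _ hirr)

/-- the matrix representation attached to `E[p]` -/
def mrepCurve (hΔ : W.Δ ≠ 0) (hirr : W.ModRepIsIrreducible p) (hp2 : p ≠ 2) {D : ℕ}
    (hpD : p ∣ D) (hΔD : W.Δ.natAbs ∣ D) : MRep p D W.apOfModel :=
  haveI := isElliptic_WQ hΔ
  let hE := Ell.exists_level_field (WQ W) p hp.out.ne_zero
  { ρ := MR (tB (p := p) hΔ) (PadicInt.toZMod (p := p))
    F := hE.choose
    fin := hE.choose_spec.1
    triv := fun σ hσ => by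
      rw [MR_toZMod_eq_one_iff]
      intro P hP
      have h1 := hE.choose_spec.2 σ 1 (fun x hx => hσ x hx) P hP
      rwa [one_smul] at h1
    span := span_MR hΔ hirr hp2
    frob := fun l hl hlD A hA φ hφ => by
      have hlp : l ≠ p := fun h => hlD (h ▸ hpD)
      have hgood : W.IsGoodPrimeFor l := fun h => hlD ((Int.natCast_dvd.1 h).trans hΔD)
      have h1 := zRep_trace_frob hΔ hirr hl hgood hlp hA hφ
      have h2 := zRep_det_frob hΔ hirr hl hlp hA hφ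
      refine ⟨?_, ?_⟩
      · rw [trace_MR]
        exact (congrArg PadicInt.toZMod h1).trans (map_intCast _ _)
      · rw [det_MR]
        exact (congrArg PadicInt.toZMod h2).trans (map_natCast _ _) }

theorem mrepCurve_ρ (hΔ : W.Δ ≠ 0) (hirr : W.ModRepIsIrreducible p) (hp2 : p ≠ 2) {D : ℕ}
    (hpD : p ∣ D) (hΔD : W.Δ.natAbs ∣ D) : (mrepCurve hΔ hirr hp2 hpD hΔD).ρ =
      MR (tB (p := p) hΔ) (PadicInt.toZMod (p := p)) := rfl

/-- the determinant of Frobenius elements -/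
theorem det_MR_frob (hΔ : W.Δ ≠ 0) (hirr : W.ModRepIsIrreducible p) {q : ℕ} (hq : q.Prime)
    (hqp : q ≠ p) {A : ValuationSubring Qb} (hA : A.LiesOverPrime q) {φ : Γq}
    (hφ : A.IsFrobeniusAt φ q) :
    (MR (tB (p := p) hΔ) (PadicInt.toZMod (p := p)) φ).det = (q : ZMod p) := by
  rw [det_MR]
  exact (congrArg PadicInt.toZMod (zRep_det_frob hΔ hirr hq hqp hA hφ)).trans (map_natCast _ _)

/-- A residually modular curve gives an eigenvector. -/
theorem exists_eigen_of_residual {N : ℕ} [NeZero N] (h : W.IsResiduallyModularOfLevel p N) {D : ℕ}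
    (hND : N ∣ D) (hpD : p ∣ D) (hΔD : W.Δ.natAbs ∣ D) :
    ∃ x ∈ EigSub N p D W.apOfModel, x ≠ 0 := by
  obtain ⟨f, 𝔪, hf, h𝔪, hp𝔪, hf'⟩ := h
  refine exists_mem_EigSub hp.out hND W.apOfModel hf h𝔪 hp𝔪 fun ℓ hℓ hℓD => ?_
  exact hf' ℓ hℓ (fun h => hℓD ((Int.natCast_dvd.1 h).trans hΔD)) (fun h => hℓD (h.trans hND))
    (fun h => hℓD (h ▸ hpD))

/-- the system `a_ℓ(W)` outside `S` is realised by a normalized eigenform of level `M` -/
theorem rms_of_relations {M D : ℕ} [NeZero M] (hMD : M ∣ D) (hD : D ≠ 0)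
    (hrel : ∀ t ∈ heckeAway D, CuspForm.heckeEvalForms M 2 t = 0 →
      (p : ℤ) ∣ evalAt W.apOfModel t) :
    H19.A8.RMs p M D.primeFactors (fun ℓ => ((W.apOfModel ℓ : ℤ) : ZMod p)) := by
  obtain ⟨g, hg, 𝔪, h𝔪, hp𝔪, h⟩ := exists_eigenform_of_relations hp.out W.apOfModel hrel hMD
  refine ⟨g, 𝔪, hg, h𝔪, hp𝔪, fun ℓ hℓ hℓS => ?_⟩
  obtain ⟨b, hb, hb'⟩ := h ℓ hℓ fun h => hℓS (Nat.mem_primeFactors.2 ⟨hℓ, h, hD⟩)
  exact ⟨b, hb, (H19.A8.sub_val_mem_iff hp𝔪 rfl).2 hb'⟩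

/-- **Mazur's principle** at a prime `q ≢ 1` modulo `p`, `q ≠ p` odd, for an even level. -/
theorem mazur_principle (hΔ : W.Δ ≠ 0) (hirr : W.ModRepIsIrreducible p) (hp2 : p ≠ 2)
    {M q : ℕ} (hM : M ≠ 0) (h2M : 2 ∣ M) (hq : q.Prime) (hq2 : q ≠ 2) (hqp : q ≠ p)
    (hqM : ¬ q ∣ M) (hq1 : ¬ q ≡ 1 [MOD p]) (hunr : UnrAt W p q)
    (hmod : W.IsResiduallyModularOfLevel p (M * q)) :
    H19.A8.RMs p M (M * q * p * W.Δ.natAbs).primeFactors
      (fun ℓ => ((W.apOfModel ℓ : ℤ) : ZMod p)) := by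
  haveI : NeZero M := ⟨hM⟩
  haveI : Fact q.Prime := ⟨hq⟩
  haveI := isElliptic_WQ hΔ
  set D := M * q * p * W.Δ.natAbs with hDdef
  have hD : D ≠ 0 := mul_ne_zero (mul_ne_zero (mul_ne_zero hM hq.ne_zero) hp.out.ne_zero)
    (Int.natAbs_ne_zero.2 hΔ)
  have hMD : M * q ∣ D := ⟨p * W.Δ.natAbs, by rw [hDdef]; ring⟩
  have hMD' : M ∣ D := (dvd_mul_right M q).trans hMD
  have hpD : p ∣ D := ⟨M * q * W.Δ.natAbs, by rw [hDdef]; ring⟩
  have hΔD : W.Δ.natAbs ∣ D := dvd_mul_left _ _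
  have hcop : Nat.Coprime q M := (Nat.Prime.coprime_iff_not_dvd hq).2 hqM
  obtain ⟨A, hA⟩ := H05.exists_liesOverPrime Qb hq
  refine rms_of_relations hMD' hD (mazur_relations hp2 hcop h2M hq2 hA hqp hq1 hD hMD hpD
    (mrepCurve hΔ hirr hp2 hpD hΔD) (fun φ hφ => det_MR_frob hΔ hirr hq hqp hA hφ)
    (fun σ hσ => ?_) (exists_eigen_of_residual hmod hMD hpD hΔD))
  rw [mrepCurve_ρ, MR_toZMod_eq_one_iff]
  exact hunr A hA σ hσ

end Curve

end Fermat.Agent.H11N
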