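import Fermat.Agent.H11N.N3
import Fermat.Agent.H11N.MZCurve
import Fermat.Agent.N4.Final

/-!
# Mazur's principle at `p` for elliptic curves: the elliptic side
-/

set_option autoImplicit false
set_option linter.style.haveILetI false
set_option linter.unusedSectionVars false
set_option maxSynthPendingDepth 3

noncomputable section

namespace Fermat.Agent.H11N

open ModularCurve AlgebraicCurve Fermat.Agent.Ell Fermat.Agent.H12.LL Matrix
open WeierstrassCurve WeierstrassCurve.Affine WeierstrassCurve.Affine.Point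
open Fermat.Agent.EGal (VV rho)

local notation "Qb" => AlgebraicClosure ℚ
local notation "Γq" => AlgebraicClosure ℚ ≃ₐ[ℚ] AlgebraicClosure ℚ

section Curve

variable {W : WeierstrassCurve ℤ} {p : ℕ} [hp : Fact p.Prime]

/-- the determinant is the cyclotomic character -/
theorem det_MR_cyc (hΔ : W.Δ ≠ 0) (hirr : W.ModRepIsIrreducible p) {ζ : Qb}
    (hζ : IsPrimitiveRoot ζ p) {σ : Γq} {b : ℕ} (hb : σ ζ = ζ ^ b) :
    (MR (tB (p := p) hΔ) (PadicInt.toZMod (p := p)) σ).det = (b : ZMod p) := by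
  have h1 := (zRep_detIsCyclotomic hΔ hirr).2 1 σ b (by
    intro μ hμ
    rw [pow_one] at hμ
    obtain ⟨i, -, rfl⟩ := hζ.eq_pow_of_pow_eq_one hμ
    rw [map_pow, hb, ← pow_mul, ← pow_mul, mul_comm])
  rw [pow_one, Ideal.mem_span_singleton] at h1
  rw [det_MR, ← sub_eq_zero, ← map_natCast (PadicInt.toZMod (p := p)) b, ← map_sub,
    ← RingHom.mem_ker, PadicInt.ker_toZMod, PadicInt.maximalIdeal_eq_span_p,
    Ideal.mem_span_singleton]
  exact h1

/-- a unit with the Kummer character of the extension -/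
theorem normalize_unit (hA0 : p ≠ 0) {A : ValuationSubring Qb}
    {u : Qb} (hu : u ≠ 0)
    (h1 : ∀ σ ∈ A.inertiaSubgroupIn ℚ, σ (u ^ p) = u ^ p) {n : ℤ}
    (h2 : A.valuation (u ^ p) = A.valuation (p : Qb) ^ ((p : ℤ) * n)) :
    ∃ v : Qb, v ∈ A ∧ v⁻¹ ∈ A ∧ v ≠ 0 ∧ v ^ p ∈ NN.K0F A ∧
      ∀ (σ : Γq) (c : Qb), σ u = c * u → σ v = c * v := by
  have hp0 : (p : Qb) ≠ 0 := Nat.cast_ne_zero.mpr hA0
  have hval : A.valuation (u * (p : Qb) ^ (-n)) = 1 := by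
    have h3 : (A.valuation (u * (p : Qb) ^ (-n))) ^ p = 1 := by
      rw [← map_pow, mul_pow, map_mul, h2, ← zpow_natCast ((p : Qb) ^ (-n)), ← _root_.zpow_mul,
        map_zpow₀, ← zpow_add₀ ((_root_.map_ne_zero _).mpr hp0)]
      have e : (p : ℤ) * n + -n * (p : ℤ) = 0 := by ring
      rw [e, zpow_zero]
    exact (pow_eq_one_iff_of_nonneg zero_le hA0).1 h3
  have hv0 : u * (p : Qb) ^ (-n) ≠ 0 := mul_ne_zero hu (zpow_ne_zero _ hp0)
  refine ⟨u * (p : Qb) ^ (-n), ?_, ?_, hv0, ?_, fun σ c h => ?_⟩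
  · exact (A.valuation_le_one_iff _).1 hval.le
  · rw [← A.valuation_le_one_iff, map_inv₀, hval, inv_one]
  · intro σ hσ
    rw [mul_pow, map_mul, h1 σ hσ, map_pow, map_zpow₀, map_natCast]
  · rw [map_mul, h, map_zpow₀, map_natCast, mul_assoc]

/-- **peu ramifiée** -/
theorem peu_curve (hΔ : W.Δ ≠ 0) (hirr : W.ModRepIsIrreducible p) (hp2 : p ≠ 2) {D : ℕ}
    (hpD : p ∣ D) (hΔD : W.Δ.natAbs ∣ D) (hp5 : 5 ≤ p) (hpΔ : (p : ℤ) ∣ W.Δ)
    (hc₄ : ¬ (p : ℤ) ∣ W.c₄) (hdiv : p ∣ padicValInt p W.Δ) {A : ValuationSubring Qb}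
    (hA : A.LiesOverPrime p) {ζ : Qb} (hζ : IsPrimitiveRoot ζ p) :
    (mrepCurve hΔ hirr hp2 hpD hΔD).Peu A ζ := by
  haveI := isElliptic_WQ hΔ
  intro v₁ v₂ hv₁ hI
  rw [mrepCurve_ρ] at hI ⊢
  set b' := redBasis (tB (p := p) hΔ) with hb'
  -- the identification with the torsion module
  let e : (Fin 2 → ZMod p) ≃ₗ[ZMod p] VV (WQ W) p := b'.equivFun.symm
  have heσ : ∀ (σ : Γq) v, σ • e v = e (MR (tB (p := p) hΔ) (PadicInt.toZMod (p := p)) σ *ᵥ v) := by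
    intro σ v
    apply e.symm.injective
    rw [LinearEquiv.symm_apply_apply]
    have h3 := LinearMap.toMatrix_mulVec_repr b' b' (rho (WQ W) p σ) (e v)
    have h4 : (⇑(b'.repr (e v)) : Fin 2 → ZMod p) = v := e.symm_apply_apply v
    rw [h4] at h3
    rw [MR_toZMod]
    exact h3.symm
  have hev₁ : e v₁ ≠ 0 := fun h => hv₁ (e.injective (h.trans (map_zero e).symm))
  let S : AddSubgroup (VV (WQ W) p) := (Submodule.span (ZMod p) {e v₁}).toAddSubgroup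
  have hScard : Nat.card S = p := by
    have h5 := Nat.card_congr (LinearEquiv.toSpanNonzeroSingleton (ZMod p) (VV (WQ W) p) (e v₁)
      hev₁).toEquiv
    rw [Nat.card_zmod] at h5
    exact h5.symm
  have hSmem : ∀ c : ZMod p, e (c • v₁) ∈ S := fun c => by
    rw [map_smul]
    exact Submodule.smul_mem _ _ (Submodule.mem_span_singleton_self _)
  have hSI : ∀ σ ∈ A.inertiaSubgroupIn ℚ, ∀ x : VV (WQ W) p, σ • x - x ∈ S := by
    intro σ hσ x
    obtain ⟨v, rfl⟩ := e.surjective x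
    obtain ⟨c, hc⟩ := hI σ hσ v
    rw [heσ, ← map_sub, hc]
    exact hSmem c
  obtain ⟨i, hi⟩ : ∃ i, v₁ i ≠ 0 := by
    by_contra hcon
    push Not at hcon
    exact hv₁ (funext hcon)
  let f : VV (WQ W) p → ZMod p := fun x => (v₁ i)⁻¹ * e.symm x i
  have hf : ∀ x y, f (x + y) = f x + f y := fun x y => by
    simp only [f, map_add, Pi.add_apply, mul_add]
  have hf1 : ∀ c : ZMod p, f (e (c • v₁)) = c := fun c => by
    simp only [f, LinearEquiv.symm_apply_apply, Pi.smul_apply, smul_eq_mul]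
    field_simp
  have hζp : ∀ m n : ℕ, (m : ZMod p) = n → ζ ^ m = ζ ^ n := by
    intro m n h
    rw [ZMod.natCast_eq_natCast_iff] at h
    rw [pow_eq_pow_mod m hζ.pow_eq_one, h, ← pow_eq_pow_mod n hζ.pow_eq_one]
  obtain ⟨u, hu0, hu1, ⟨n, hn⟩, hu2⟩ := N4.peu_ramifiee (W₀ := WQ W) (map_WQ W) hΔ hp.out hp5 hpΔ
    hc₄ hdiv hA S hScard hSI (fun x => ζ ^ (f x).val)
    (fun x _ y _ => by
      rw [← pow_add]
      apply hζp
      push_cast
      rw [ZMod.natCast_zmod_val, ZMod.natCast_zmod_val, ZMod.natCast_zmod_val, hf])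
    (fun x _ => pow_ne_zero _ (hζ.ne_zero hp.out.ne_zero)) (e v₂)
  obtain ⟨w, hw1, hw2, hw3, hw4, hw5⟩ := normalize_unit hp.out.ne_zero hu0 hu1 hn
  refine ⟨w, hw1, hw2, hw3, hw4, fun σ hσ b hb => hw5 σ _ ?_⟩
  rw [hu2 σ hσ, heσ, hb, map_add, add_sub_cancel_left, hf1]
  congr 1
  exact hζp _ _ (ZMod.natCast_zmod_val _)

/-- **Mazur's principle at `p`** (multiplicative reduction, peu ramifiée, even level). -/
theorem mazur_at_p (hΔ : W.Δ ≠ 0) (hirr : W.ModRepIsIrreducible p) (hp5 : 5 ≤ p)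
    (hpΔ : (p : ℤ) ∣ W.Δ) (hc₄ : ¬ (p : ℤ) ∣ W.c₄) (hdiv : p ∣ padicValInt p W.Δ)
    {M : ℕ} (hM : M ≠ 0) (h2M : 2 ∣ M) (hpM : ¬ p ∣ M)
    (hN3 : haveI : NeZero M := ⟨hM⟩; ∀ A : ValuationSubring Qb, A.LiesOverPrime p → N3Core p M A)
    (hmod : W.IsResiduallyModularOfLevel p (M * p)) :
    H19.A8.RMs p M (M * p * W.Δ.natAbs).primeFactors
      (fun ℓ => ((W.apOfModel ℓ : ℤ) : ZMod p)) := by
  haveI : NeZero M := ⟨hM⟩
  haveI := isElliptic_WQ hΔ
  have hp2 : p ≠ 2 := by omega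
  set D := M * p * W.Δ.natAbs with hDdef
  have hD : D ≠ 0 := mul_ne_zero (mul_ne_zero hM hp.out.ne_zero) (Int.natAbs_ne_zero.2 hΔ)
  have hMD : M * p ∣ D := dvd_mul_right _ _
  have hMD' : M ∣ D := (dvd_mul_right M p).trans hMD
  have hpD : p ∣ D := (dvd_mul_left p M).trans hMD
  have hΔD : W.Δ.natAbs ∣ D := dvd_mul_left _ _
  have hcop : Nat.Coprime p M := (Nat.Prime.coprime_iff_not_dvd hp.out).2 hpM
  obtain ⟨A, hA⟩ := H05.exists_liesOverPrime Qb hp.out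
  haveI : NeZero (p : Qb) := ⟨Nat.cast_ne_zero.mpr hp.out.ne_zero⟩
  obtain ⟨ζ, hζ⟩ := HasEnoughRootsOfUnity.exists_primitiveRoot Qb p
  exact rms_of_relations hMD' hD (n3_relations (hN3 A hA) hp2 hcop h2M hA hζ hD hMD
    (mrepCurve hΔ hirr hp2 hpD hΔD) (fun σ _ b hb => det_MR_cyc hΔ hirr hζ hb)
    (peu_curve hΔ hirr hp2 hpD hΔD hp5 hpΔ hc₄ hdiv hA hζ)
    (exists_eigen_of_residual hmod hMD hpD hΔD))

end Curve

end Fermat.Agent.H11N
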