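import Fermat.Agent.H11N.Main
import Fermat.Agent.H05.Bounded
import Fermat.Agent.H12.FinCls
import Fermat.Agent.H12.OpenStab
import Fermat.Agent.H05_Frob

/-!
# Relations between Hecke operators on cusp forms kill the torsion of `J₀(N)` and `J₀(M)(k)`
-/

set_option autoImplicit false
set_option linter.style.haveILetI false
set_option linter.unusedSectionVars false
set_option maxSynthPendingDepth 3
set_option synthInstance.maxHeartbeats 400000

noncomputable section

namespace Fermat.Agent.H11N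

open ModularCurve AlgebraicCurve

local notation "kk" => IsLocalRing.ResidueField
local notation "Qb" => AlgebraicClosure ℚ
local notation "Γq" => AlgebraicClosure ℚ ≃ₐ[ℚ] AlgebraicClosure ℚ

section Torsion

variable {N : ℕ} [NeZero N]

/-- Divisibility of `J₀(N)`. -/
theorem exists_nsmul_eq {n : ℕ} (hn : n ≠ 0) (x : JZero N) : ∃ y : JZero N, n • y = x :=
  FF.pic0_divisible n (Nat.pos_of_ne_zero hn) x

theorem coe_torAct_eq [Algebra (AlgebraicClosure ℚ) ℂ] {m : ℕ} [NeZero m] (t : HeckeAlg)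
    (x : H26.Tor N m) : ((H26.torAct N m t x : H26.Tor N m) : JZero N) = heckeJ N t x := by
  refine H22.evalComm_intertwine (H26.torAct N m) (heckeJ N) (H26.Tor N m).subtype
    (fun l w => ?_) t x
  have h1 := H26.torAct_heckeGen (N := N) (m := m) l
  have h2 := heckeJ_gen N l
  rw [heckeGen] at h1 h2
  rw [h1, h2]
  rfl

/-- **A relation between the Hecke operators on `S₂(Γ₀(N))` kills the torsion of `J₀(N)`.** -/
theorem heckeJ_torsion {t : HeckeAlg} (ht : CuspForm.heckeEvalForms N 2 t = 0) {n : ℕ}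
    (hn : n ≠ 0) {x : JZero N} (hx : n • x = 0) : heckeJ N t x = 0 := by
  letI : Algebra (AlgebraicClosure ℚ) ℂ :=
    (IsAlgClosed.lift (M := ℂ) (R := ℚ) (S := AlgebraicClosure ℚ)).toRingHom.toAlgebra
  obtain ⟨e, he, h⟩ := H05.exists_bound_torAct (N := N)
  obtain ⟨y, rfl⟩ := exists_nsmul_eq he.ne' x
  have hne : n * e ≠ 0 := mul_ne_zero hn he.ne'
  haveI : NeZero (n * e) := ⟨hne⟩
  have hy : y ∈ H26.Tor N (n * e) := by
    rw [H26.mem_tor, mul_smul]
    exact hx
  have h1 := congrArg (fun z : H26.Tor N (n * e) => (z : JZero N)) (h (n * e) ⟨y, hy⟩ t ht)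
  rw [map_nsmul]
  have h2 := coe_torAct_eq t (⟨y, hy⟩ : H26.Tor N (n * e))
  have h3 : ((e • H26.torAct N (n * e) t ⟨y, hy⟩ : H26.Tor N (n * e)) : JZero N) =
      e • ((H26.torAct N (n * e) t ⟨y, hy⟩ : H26.Tor N (n * e)) : JZero N) := rfl
  rw [h3, h2] at h1
  exact h1

end Torsion

section Galois

theorem heckeJ_smul {N : ℕ} [NeZero N] (σ : Γq) (t : HeckeAlg) (x : JZero N) :
    heckeJ N t (σ • x) = σ • heckeJ N t x := by
  refine (H22.evalComm_intertwine (heckeJ N) (heckeJ N)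
    (DistribSMul.toAddMonoidHom (JZero N) σ) (fun l w => ?_) t x).symm
  have h2 := heckeJ_gen N l
  rw [heckeGen] at h2
  rw [h2]
  exact (H05.heckeOperatorBar_smul N l σ w).symm

theorem isFrobeniusAt_pow {A : ValuationSubring Qb} {φ : Γq} {r : ℕ}
    (h : A.IsFrobeniusAt φ r) (n : ℕ) : A.IsFrobeniusAt (φ ^ n) (r ^ n) := by
  obtain ⟨h1, h2⟩ := h
  have hmem : φ ^ n ∈ A.decompositionSubgroup ℚ := pow_mem h1 n
  refine ⟨hmem, fun x => ?_⟩
  have h3 : (⟨φ ^ n, hmem⟩ : A.decompositionSubgroup ℚ) = ⟨φ, h1⟩ ^ n := rfl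
  rw [h3]
  clear h3 hmem
  induction n generalizing x with
  | zero => rw [pow_zero, pow_zero, pow_one, one_smul]
  | succ n ih => rw [pow_succ, mul_smul, h2, ih, ← pow_mul, pow_succ']

/-- a power of any automorphism fixes a given point -/
theorem exists_pow_smul_eq {N : ℕ} [NeZero N] (φ : Γq) (x : JZero N) :
    ∃ n : ℕ, 0 < n ∧ φ ^ n • x = x := by
  obtain ⟨U, hU, hU'⟩ := H12.exists_open_pic0 (modularFunctionFieldFull N) x
  haveI : Finite (Γq ⧸ U) := Subgroup.quotient_finite_of_isOpen U hU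
  have hfin : U.FiniteIndex := Subgroup.finiteIndex_of_finite_quotient
  obtain ⟨n, hn, -, h⟩ := Subgroup.exists_pow_mem_of_index_ne_zero hfin.index_ne_zero φ
  exact ⟨n, hn, hU' _ h⟩

end Galois

section Kernel

variable {M : ℕ} [NeZero M] {A : ValuationSubring Qb} {r : ℕ} [hr : Fact r.Prime]

theorem mem_kernel_iff (C : H28.TwoCharts (H28.modRed M A)) (x : JZero M) :
    x ∈ C.kernel ↔ redJ C x = 0 := by
  obtain ⟨E, rfl⟩ := Pic0.mk_surjective x
  rw [H28.TwoCharts.mk_mem_kernel, H28.TwoCharts.mem_KDiv_iff, redJ_mk,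
    H05.pic0_mk_eq_zero_iff]
  rfl

/-- **A relation between the Hecke operators on `S₂(Γ₀(M))` kills `J₀(M)(k)`.** -/
theorem heckeJ_mem_kernel (h₁ : (H28.modRed M A).IsChart (H28.jZ M A))
    (h₂ : (H28.modRed M A).IsChart (H28.jinvZ M A)) (hA : A.LiesOverPrime r)
    {t : HeckeAlg} (ht : CuspForm.heckeEvalForms M 2 t = 0) (y : JZero M) :
    heckeJ M t y ∈ (H28.modCharts M A h₁ h₂).kernel := by
  obtain ⟨φ, hφ⟩ := H05.exists_isFrobeniusAt (L := Qb) hr.out hA
  obtain ⟨n, hn, hny⟩ := exists_pow_smul_eq φ y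
  obtain ⟨hσ, hres⟩ := isFrobeniusAt_pow hφ n
  have hq : 1 < r ^ n := Nat.one_lt_pow hn.ne' hr.out.one_lt
  haveI hfin : Finite (H12.fixedClasses (H28.modCharts M A h₁ h₂).kernel (φ ^ n)) :=
    H12.finite_fixed_mod hq h₁ h₂ hσ (fun x => hres x)
  set K := (H28.modCharts M A h₁ h₂).kernel with hK
  set c := Nat.card (H12.fixedClasses K (φ ^ n)) with hc
  have hc0 : c ≠ 0 := Nat.card_pos.ne'
  obtain ⟨z, hz⟩ := exists_nsmul_eq hc0 y
  have h1 : c • (φ ^ n • z - z) = 0 := by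
    rw [smul_sub, hz]
    have h2 := map_nsmul (DistribSMul.toAddMonoidHom (JZero M) (φ ^ n)) c z
    rw [hz] at h2
    have h3 : φ ^ n • y = c • φ ^ n • z := h2
    rw [← h3, hny, sub_self]
  have h2 := heckeJ_torsion ht hc0 h1
  rw [map_sub, heckeJ_smul] at h2
  have h3 : (QuotientAddGroup.mk (heckeJ M t z) : JZero M ⧸ K) ∈
      H12.fixedClasses K (φ ^ n) := by
    rw [H12.mem_fixedClasses]
    refine ⟨_, rfl, ?_⟩
    rw [h2]
    exact zero_mem K
  have h4 : c • (⟨_, h3⟩ : H12.fixedClasses K (φ ^ n)) = 0 := by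
    rw [hc]
    exact card_nsmul_eq_zero'
  have h5 := congrArg (fun w : H12.fixedClasses K (φ ^ n) => (w : JZero M ⧸ K)) h4
  have h6 : c • (QuotientAddGroup.mk (heckeJ M t z) : JZero M ⧸ K) = 0 := h5
  rw [← QuotientAddGroup.mk_nsmul, QuotientAddGroup.eq_zero_iff, ← map_nsmul, hz] at h6
  exact h6

end Kernel

section Main

open Fermat.Agent.Q

variable {M : ℕ} [NeZero M] {A : ValuationSubring Qb} {m r : ℕ} [hr : Fact r.Prime]
  {x : JZero (M * r)}

/-- **Occurrence at level `M`, for cusp forms.** Let `x ∈ J₀(M r)[m]` be such that the orders of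
the reduction at the place `∞` over `r` of its Kummer function are divisible by `m`. Then every
relation between the Hecke operators `T_l`, `l ∤ M r`, on `S₂(Γ₀(M))` sends `x` to `K_∞`. -/
theorem occurrence_forms (hA : A.LiesOverPrime r) (hrM : Nat.Coprime r M)
    (h23 : 2 ∣ M ∨ 3 ∣ M) (hm : m ≠ 0) {u : modularFunctionFieldFullC (kk A) M}
    (hx : RedK A M r m x u)
    (hord : ∀ v : Place (kk A) (modularFunctionFieldFullC (kk A) M), (m : ℤ) ∣ v.ord u)
    {t : HeckeAlg} (ht : t ∈ heckeAway (M * r)) (h0 : CuspForm.heckeEvalForms M 2 t = 0) :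
    heckeJ (M * r) t x ∈ KInf A M r m := by
  have hdiv : ¬ r ∣ M := (Nat.Prime.coprime_iff_not_dvd hr.out).1 hrM
  have hyp : ¬ r ∣ M ∧ ((2 ∣ M ∧ r ≠ 2) ∨ (3 ∣ M ∧ r ≠ 3)) := by
    refine ⟨hdiv, ?_⟩
    rcases h23 with h | h
    · exact Or.inl ⟨h, fun h0 => hdiv (h0 ▸ h)⟩
    · exact Or.inr ⟨h, fun h0 => hdiv (h0 ▸ h)⟩
  let C := H28.modCharts M A (H29.isChart_j hr.out hA hyp) (H29.isChart_jinv hr.out hA hyp)
  obtain ⟨y, hy⟩ := exists_occ C hm hx hord
  obtain ⟨u', h1, h2⟩ := hy.smul hA hrM ht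
  have h3 := (mem_kernel_iff C _).1 (heckeJ_mem_kernel (H29.isChart_j hr.out hA hyp)
    (H29.isChart_jinv hr.out hA hyp) hA h0 y)
  have h4 : Occ C m r (heckeJ (M * r) t x) 0 := by
    refine ⟨u', h1, ?_⟩
    rw [map_zero, ← h3]
    exact h2
  exact h4.mem_KInf hm

end Main

end Fermat.Agent.H11N
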