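import Fermat.Agent.H11N.HeckeC
import Fermat.Agent.H11Q.Packs
import Fermat.Agent.Q.Package
import Fermat.Agent.H09.WBar

/-!
# Occurrence of systems of Hecke eigenvalues at level `M` in the special fibre of `X₀(M r)`
-/

set_option autoImplicit false
set_option linter.style.haveILetI false
set_option linter.unusedSectionVars false
set_option maxSynthPendingDepth 3

noncomputable section

attribute [-instance] HahnSeries.instModule HahnSeries.instSMul HahnSeries.instDistribMulAction
  HahnSeries.instSMulZeroClass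

namespace Fermat.Agent.H11N

open H29 in
attribute [local instance 10000] instLS instIF instIF2

open ModularCurve AlgebraicCurve Fermat.Agent.Igusa Fermat.Agent.Q

local notation "kk" => IsLocalRing.ResidueField
local notation "Qb" => AlgebraicClosure ℚ

attribute [local instance] H12.isAlgClosed_kk

variable {M r : ℕ} [NeZero M] [hr : Fact r.Prime] {A : ValuationSubring Qb}

/-- `(E1)`, **reduction of the Kummer function of `T_l x`**. -/
theorem red_hecke (hA : A.LiesOverPrime r) (hrM : Nat.Coprime r M) {l : ℕ} [hl : Fact l.Prime]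
    (hlN : ¬ l ∣ M * r)
    (x : modularFunctionFieldBar (M * r)) (u : modularFunctionFieldFullC (kk A) M)
    (hxu : Red A (x : LaurentSeries Qb) (u : LaurentSeries (kk A))) :
    Red A ((H05.normAlong (heckeAlphaBar Qb (M * r) l) (heckeBetaBar Qb (M * r) l x) :
        modularFunctionFieldBar (M * r)) : LaurentSeries Qb)
      ((nmC (kk A) M l u : modularFunctionFieldFullC (kk A) M) : LaurentSeries (kk A)) := by
  haveI := H05.charP_residueField hr.out hA
  have hlr : Nat.Coprime r l := by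
    rw [Nat.Prime.coprime_iff_not_dvd hr.out]
    intro h
    rw [Nat.prime_dvd_prime_iff_eq hr.out hl.out] at h
    exact hlN (h ▸ Dvd.intro_left M rfl)
  have hrMl : Nat.Coprime r (M * l) := Nat.Coprime.mul_right hrM hlr
  have hk : ((M * l : ℕ) : kk A) ≠ 0 := natCast_residue_ne_zero hr.out hA hrMl
  refine norm_hecke_red hr.out hA (M * r) M
    (fun z hz w hw => red_mem_full_mul hA hrM hz hw)
    (fun z hz w hw => ?_) (Dvd.intro r rfl) hlN hk x u hxu
  have hz' : z ∈ modularFunctionFieldFullC Qb (M * l * r) :=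
    full_degeneracyC_le Qb (dvd_of_eq (by ring)) hz
  exact red_mem_full_mul hA hrMl hz' hw

/-- constants -/
theorem C_mul_eq (N : ℕ) [NeZero N] (c : Qb) (f : modularFunctionFieldBar N) :
    ((algebraMap Qb (modularFunctionFieldBar N) c * f : modularFunctionFieldBar N) :
      LaurentSeries Qb) = HahnSeries.C c * (f : LaurentSeries Qb) := by
  rw [← algebraMap_eq_C]; rfl

theorem kum_hecke {N l : ℕ} [NeZero N] [hl : Fact l.Prime] {m : ℕ} {x : JZero N}
    {f : modularFunctionFieldBar N} (hf : H05.Kum m x f) :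
    H05.Kum m (heckeOperatorBar N ⟨l, hl.out⟩ x)
      (H05.normAlong (heckeAlphaBar Qb N l) (heckeBetaBar Qb N l f)) := by
  haveI : NeZero l := ⟨hl.out.ne_zero⟩
  change H05.Kum m (heckeOperatorAlong Qb N l x) _
  exact hf.heckeOperatorAlong

/-- the relation "`d` is the class of the divisor of the reduction divided by `m`" -/
def RedK (A : ValuationSubring Qb) (M r m : ℕ) [NeZero M] [Fact r.Prime] (x : JZero (M * r))
    (u : modularFunctionFieldFullC (kk A) M) : Prop :=
  u ≠ 0 ∧ ∃ (f : modularFunctionFieldBar (M * r)) (c : Qb), H05.Kum m x f ∧ c ≠ 0 ∧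
    Red A (HahnSeries.C c * (f : LaurentSeries Qb)) (u : LaurentSeries (kk A))

namespace RedK

variable {m : ℕ} {x y : JZero (M * r)} {u v : modularFunctionFieldFullC (kk A) M}

theorem exists_of (hA : A.LiesOverPrime r) (hrM : Nat.Coprime r M) (hx : m • x = 0) :
    ∃ u, RedK A M r m x u := by
  obtain ⟨f, hf⟩ := H05.exists_kum hx
  have hf0 : (f : LaurentSeries Qb) ≠ 0 := fun h => hf.ne_zero (Subtype.ext h)
  obtain ⟨c, hc, u, hu, hu0, hred⟩ := exists_red_mul hA hrM (mem_full_of_bar f.2) hf0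
  exact ⟨⟨u, hu⟩, fun h => hu0 (congrArg Subtype.val h), f, c, hf, hc, hred⟩

theorem mul (hx : RedK A M r m x u) (hy : RedK A M r m y v) : RedK A M r m (x + y) (u * v) := by
  obtain ⟨hu, f, c, hf, hc, hred⟩ := hx
  obtain ⟨hv, g, d, hg, hd, hred'⟩ := hy
  refine ⟨mul_ne_zero hu hv, f * g, c * d, hf.mul hg, mul_ne_zero hc hd, ?_⟩
  have h := hred.mul hred'
  have e : HahnSeries.C c * (f : LaurentSeries Qb) * (HahnSeries.C d * (g : LaurentSeries Qb)) =
      HahnSeries.C (c * d) * ((f * g : modularFunctionFieldBar (M * r)) : LaurentSeries Qb) := by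
    rw [map_mul]
    change _ = HahnSeries.C c * HahnSeries.C d * ((f : LaurentSeries Qb) * (g : LaurentSeries Qb))
    ring
  rw [e] at h
  exact h

theorem inv (hx : RedK A M r m x u) : RedK A M r m (-x) u⁻¹ := by
  obtain ⟨hu, f, c, hf, hc, hred⟩ := hx
  refine ⟨inv_ne_zero hu, f⁻¹, c⁻¹, hf.inv, inv_ne_zero hc, ?_⟩
  have h := hred.inv (fun h => hu (Subtype.ext h))
  rw [mul_inv, ← map_inv₀] at h
  exact h

theorem one : RedK A M r m (0 : JZero (M * r)) (1 : modularFunctionFieldFullC (kk A) M) := by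
  refine ⟨one_ne_zero, 1, 1, H05.kum_zero_one m, one_ne_zero, ?_⟩
  rw [map_one, one_mul]
  exact Red.one

/-- the reduction is unique up to constants and `m`-th powers -/
theorem unique (hA : A.LiesOverPrime r) (hrM : Nat.Coprime r M) (hm : m ≠ 0)
    (hu : RedK A M r m x u) (hv : RedK A M r m x v) :
    ∃ (e : kk A) (w : modularFunctionFieldFullC (kk A) M), e ≠ 0 ∧ w ≠ 0 ∧
      u = algebraMap _ _ e * v * w ^ m := by
  obtain ⟨hu, f, c, hf, hc, hred⟩ := hu
  obtain ⟨hv, g, d, hg, hd, hred'⟩ := hv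
  obtain ⟨h, hh, rfl⟩ := exists_kum_eq_mul_pow hm hf hg
  have hh0 : (h : LaurentSeries Qb) ≠ 0 := fun h' => hh (Subtype.ext h')
  obtain ⟨a, ha, w, hw, hw0, hred''⟩ := exists_red_mul hA hrM (mem_full_of_bar h.2) hh0
  have h1 := hred'.mul (hred''.pow m)
  have hne : (v : LaurentSeries (kk A)) * w ^ m ≠ 0 :=
    mul_ne_zero (fun h => hv (Subtype.ext h)) (pow_ne_zero m hw0)
  have h2 : HahnSeries.C c * ((g * h ^ m : modularFunctionFieldBar (M * r)) : LaurentSeries Qb) =
      HahnSeries.C (c * (d * a ^ m)⁻¹) * (HahnSeries.C d * (g : LaurentSeries Qb) *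
        (HahnSeries.C a * (h : LaurentSeries Qb)) ^ m) := by
    have h3 : ((g * h ^ m : modularFunctionFieldBar (M * r)) : LaurentSeries Qb) =
      (g : LaurentSeries Qb) * (h : LaurentSeries Qb) ^ m := rfl
    have h4 : HahnSeries.C (Γ := ℤ) (c * (d * a ^ m)⁻¹) * (HahnSeries.C d * HahnSeries.C a ^ m) =
        HahnSeries.C c := by
      rw [← map_pow, ← map_mul, ← map_mul, mul_assoc,
        inv_mul_cancel₀ (mul_ne_zero hd (pow_ne_zero m ha)), mul_one]
    rw [h3, mul_pow, ← h4]
    ring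
  rw [h2] at hred
  obtain ⟨hcA, hcu⟩ := hred.scale h1 hne
  have he : IsLocalRing.residue A ⟨c * (d * a ^ m)⁻¹, hcA⟩ ≠ 0 := by
    intro h0
    apply hu
    apply Subtype.ext
    rw [hcu, h0, map_zero, zero_mul]
    rfl
  refine ⟨_, ⟨w, hw⟩, he, fun h => hw0 (congrArg Subtype.val h), ?_⟩
  apply Subtype.ext
  rw [hcu, ← algebraMap_eq_C, ← mul_assoc]
  rfl

/-- `(E1)` -/
theorem hecke (hA : A.LiesOverPrime r) (hrM : Nat.Coprime r M) {l : ℕ} [hl : Fact l.Prime]
    (hlN : ¬ l ∣ M * r) (hx : RedK A M r m x u) :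
    RedK A M r m (heckeOperatorBar (M * r) ⟨l, hl.out⟩ x) (nmC (kk A) M l u) := by
  obtain ⟨hu, f, c, hf, hc, hred⟩ := hx
  refine ⟨nmC_ne_zero _ _ _ hu,
    H05.normAlong (heckeAlphaBar Qb (M * r) l) (heckeBetaBar Qb (M * r) l f),
    c ^ (l + 1), kum_hecke hf, pow_ne_zero _ hc, ?_⟩
  rw [← C_mul_eq] at hred
  have h := red_hecke hA hrM hlN _ u hred
  have h1 : H05.normAlong (heckeAlphaBar Qb (M * r) l) (heckeBetaBar Qb (M * r) l
      (algebraMap Qb (modularFunctionFieldBar (M * r)) c * f)) =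
      algebraMap Qb (modularFunctionFieldBar (M * r)) (c ^ (l + 1)) *
        H05.normAlong (heckeAlphaBar Qb (M * r) l) (heckeBetaBar Qb (M * r) l f) := by
    have h2 := nm_mul (heckeAlphaBar Qb (M * r) l) (heckeBetaBar Qb (M * r) l)
      (algebraMap Qb (modularFunctionFieldBar (M * r)) c) f
    rw [nm_const, finrank_alpha Qb (M * r) l hlN] at h2
    exact h2
  rw [h1, C_mul_eq] at h
  exact h

end RedK

end Fermat.Agent.H11N
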