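import Fermat.Agent.H11N.Tors
import Fermat.Agent.H28.Final

/-!
# Lifting torsion points of the special fibre, prime to the residue characteristic
-/

set_option autoImplicit false
set_option linter.style.haveILetI false
set_option linter.unusedSectionVars false
set_option maxSynthPendingDepth 3
set_option synthInstance.maxHeartbeats 400000

noncomputable section

namespace Fermat.Agent.H11N

open ModularCurve AlgebraicCurve

local notation "kk" => IsLocalRing.ResidueField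
local notation "Qb" => AlgebraicClosure ℚ
local notation "Γq" => AlgebraicClosure ℚ ≃ₐ[ℚ] AlgebraicClosure ℚ

section Abstract

/-- The index of the image of an endomorphism of a finite abelian group. -/
theorem nsmul_factorial_mem {G : Type*} [AddCommGroup G] [Finite G] (N : G →+ G) {c : ℕ}
    (hc : Nat.card N.ker ≤ c) (x : G) : ∃ w, N w = c.factorial • x := by
  have h1 : N.ker.index = Nat.card N.range := AddSubgroup.index_ker N
  have h2 : Nat.card N.ker * N.ker.index = Nat.card G := N.ker.card_mul_index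
  have h3 : Nat.card N.range * N.range.index = Nat.card G := N.range.card_mul_index
  have h4 : 0 < Nat.card N.range := Nat.card_pos
  have h5 : N.range.index = Nat.card N.ker := by
    rw [h1, mul_comm] at h2
    exact Nat.eq_of_mul_eq_mul_left h4 (h3.trans h2.symm)
  have h6 : N.range.index ∣ c.factorial :=
    Nat.dvd_factorial (by rw [h5]; exact Nat.card_pos) (by rw [h5]; exact hc)
  obtain ⟨d, hd⟩ := h6
  have h7 : N.range.index • x ∈ N.range := N.range.nsmul_index_mem x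
  obtain ⟨w, hw⟩ := h7
  refine ⟨d • w, ?_⟩
  rw [map_nsmul, hw, ← mul_smul, hd, mul_comm]

variable {J : Type*} [AddCommGroup J] [DistribMulAction Γq J]

/-- **Torsion lift**, abstract form. -/
theorem torsion_lift (K : AddSubgroup J) (σ : Γq) [Finite (H12.fixedClasses K σ)] {ℓ : ℕ}
    (hℓ : ℓ.Prime) (hdiv : ∀ n : ℕ, n ≠ 0 → ∀ x : J, ∃ y, n • y = x)
    (hfin : ∀ n : ℕ, {x : J | ℓ ^ n • x = 0}.Finite)
    (htor : ∀ n : ℕ, ∀ x ∈ K, ℓ ^ n • x = 0 → x = 0) {y0 : J} (hy : σ • y0 = y0) {s : ℕ}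
    (hs : ℓ ^ s • y0 ∈ K) : ∃ z, (∃ n : ℕ, ℓ ^ n • z = 0) ∧ y0 - z ∈ K := by
  classical
  set c := Nat.card (H12.fixedClasses K σ) with hc
  have hc0 : c ≠ 0 := Nat.card_pos.ne'
  obtain ⟨e, u, hu, hcu⟩ := Nat.exists_eq_pow_mul_and_not_dvd
    (mul_ne_zero hc0 c.factorial_ne_zero) ℓ hℓ.ne_one
  -- `y` with `ℓ ^ e • y = y0`
  obtain ⟨y, rfl⟩ := hdiv (ℓ ^ e) (pow_ne_zero _ hℓ.ne_zero) y0
  let G : AddSubgroup J :=
    { carrier := {x | ℓ ^ e • x = 0}
      zero_mem' := smul_zero _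
      add_mem' := by
        intro a b ha hb
        change ℓ ^ e • (a + b) = 0
        rw [smul_add, show ℓ ^ e • a = 0 from ha, show ℓ ^ e • b = 0 from hb, add_zero]
      neg_mem' := by
        intro a ha
        change ℓ ^ e • (-a) = 0
        rw [smul_neg, show ℓ ^ e • a = 0 from ha, neg_zero] }
  haveI : Finite G := (hfin e).to_subtype
  have hσG : ∀ x : J, ℓ ^ e • x = 0 → ℓ ^ e • (σ • x - x) = 0 := by
    intro x hx
    have h := map_nsmul (DistribSMul.toAddMonoidHom J σ) (ℓ ^ e) x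
    rw [hx, map_zero] at h
    rw [smul_sub, hx, sub_zero]
    exact h.symm
  let N : G →+ G :=
    { toFun := fun x => ⟨σ • (x : J) - x, hσG x x.2⟩
      map_zero' := Subtype.ext (by
        change σ • (0 : J) - 0 = 0
        rw [smul_zero, sub_zero])
      map_add' := fun a b => Subtype.ext (by
        change σ • ((a : J) + b) - (a + b) = (σ • (a : J) - a) + (σ • (b : J) - b)
        rw [smul_add]; abel) }
  have hker : Nat.card N.ker ≤ c := by
    have hmem : ∀ x : N.ker, (QuotientAddGroup.mk ((x : G) : J) : J ⧸ K) ∈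
        H12.fixedClasses K σ := by
      intro x
      rw [H12.mem_fixedClasses]
      refine ⟨_, rfl, ?_⟩
      have h1 : N x = 0 := x.2
      have h2 : σ • (((x : G) : J)) - ((x : G) : J) = 0 := congrArg Subtype.val h1
      rw [h2]
      exact zero_mem K
    refine Nat.card_le_card_of_injective (β := H12.fixedClasses K σ)
      (fun x => ⟨_, hmem x⟩) ?_
    intro x x' hxx
    have h1 : (QuotientAddGroup.mk ((x : G) : J) : J ⧸ K) =
        QuotientAddGroup.mk ((x' : G) : J) := congrArg Subtype.val hxx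
    rw [QuotientAddGroup.eq] at h1
    have h2 : -((x : G) : J) + ((x' : G) : J) = 0 := by
      refine htor e _ h1 ?_
      rw [smul_add, smul_neg, show ℓ ^ e • ((x : G) : J) = 0 from (x : G).2,
        show ℓ ^ e • ((x' : G) : J) = 0 from (x' : G).2, neg_zero, add_zero]
    apply Subtype.ext
    apply Subtype.ext
    rw [neg_add_eq_zero] at h2
    exact h2
  have ht : ℓ ^ e • (σ • y - y) = 0 := by
    have h := map_nsmul (DistribSMul.toAddMonoidHom J σ) (ℓ ^ e) y
    have h' : σ • (ℓ ^ e • y) = ℓ ^ e • (σ • y) := h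
    rw [smul_sub, ← h', hy, sub_self]
  obtain ⟨w, hw⟩ := nsmul_factorial_mem N hker (⟨_, ht⟩ : G)
  have hw' : σ • (w : J) - w = c.factorial • (σ • y - y) := congrArg Subtype.val hw
  -- the fixed point
  have hfix : σ • (c.factorial • y - (w : J)) - (c.factorial • y - (w : J)) = 0 := by
    have h := map_nsmul (DistribSMul.toAddMonoidHom J σ) c.factorial y
    have h' : σ • (c.factorial • y) = c.factorial • (σ • y) := h
    rw [smul_sub, h']
    have h2 : c.factorial • (σ • y) - c.factorial • y = σ • (w : J) - w := by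
      rw [hw', smul_sub]
    rw [sub_sub_sub_comm, h2, sub_self]
  have hclass : (QuotientAddGroup.mk (c.factorial • y - (w : J)) : J ⧸ K) ∈
      H12.fixedClasses K σ := by
    rw [H12.mem_fixedClasses]
    refine ⟨_, rfl, ?_⟩
    rw [hfix]
    exact zero_mem K
  have h4 : c • (⟨_, hclass⟩ : H12.fixedClasses K σ) = 0 := card_nsmul_eq_zero'
  have h5 := congrArg (fun w : H12.fixedClasses K σ => (w : J ⧸ K)) h4
  have h6 : c • (QuotientAddGroup.mk (c.factorial • y - (w : J)) : J ⧸ K) = 0 := h5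
  rw [← QuotientAddGroup.mk_nsmul, QuotientAddGroup.eq_zero_iff] at h6
  -- `u • (ℓ ^ e • y) - c • w ∈ K`
  have h7 : u • (ℓ ^ e • y) - c • (w : J) ∈ K := by
    have h8 : u • (ℓ ^ e • y) = c • (c.factorial • y) := by
      rw [← mul_smul, ← mul_smul, hcu, mul_comm u]
    rw [h8, ← smul_sub]
    exact h6
  -- invert `u` modulo `ℓ ^ s`
  have hcop : IsCoprime (u : ℤ) ((ℓ ^ s : ℕ) : ℤ) := by
    rw [Nat.isCoprime_iff_coprime]
    exact (Nat.Coprime.pow_left s ((Nat.Prime.coprime_iff_not_dvd hℓ).2 hu)).symm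
  obtain ⟨a, b, hab⟩ := hcop
  refine ⟨a • (c • (w : J)), ⟨e, ?_⟩, ?_⟩
  · have hwe : ℓ ^ e • (w : J) = 0 := w.2
    rw [smul_comm, smul_comm (ℓ ^ e) c, hwe, smul_zero, smul_zero]
  · have h9 : ℓ ^ e • y - a • (c • (w : J)) = a • (u • (ℓ ^ e • y) - c • (w : J)) +
        b • (ℓ ^ s • (ℓ ^ e • y)) := by
      have h10 : a • (u • (ℓ ^ e • y)) + b • (ℓ ^ s • (ℓ ^ e • y)) = ℓ ^ e • y := by
        rw [← natCast_zsmul (ℓ ^ e • y) u, ← natCast_zsmul (ℓ ^ e • y) (ℓ ^ s), ← mul_smul,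
          ← mul_smul, ← add_smul, hab, one_smul]
      rw [smul_sub, sub_add_eq_add_sub, h10]
    rw [h9]
    exact add_mem (zsmul_mem h7 a) (zsmul_mem hs b)

end Abstract

section Concrete

attribute [local instance] H12.isAlgClosed_kk

open Fermat.Agent.Q

variable {M : ℕ} [NeZero M] {A : ValuationSubring Qb} {r : ℕ} [hr : Fact r.Prime]

theorem finite_torsion_J (N : ℕ) [NeZero N] {m : ℕ} (hm : m ≠ 0) :
    {x : JZero N | m • x = 0}.Finite := by
  have h1 := FF.card_torsion Qb (modularFunctionFieldBar N) m (Nat.pos_of_ne_zero hm)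
  have h2 : Finite (Pic0.torsion Qb (modularFunctionFieldBar N) m) := by
    apply Nat.finite_of_card_ne_zero
    rw [h1]
    positivity
  refine (Set.toFinite (Pic0.torsion Qb (modularFunctionFieldBar N) m :
    Set (JZero N))).subset fun x hx => ?_
  exact Pic0.mem_torsion.mpr (by rw [natCast_zsmul]; exact hx)

/-- **Lifting of torsion points**: a point of `J₀(M)` whose reduction is killed by `ℓ ^ s`,
`ℓ ≠ r`, is congruent to an `ℓ`-power torsion point. -/
theorem exists_torsion_lift (hA : A.LiesOverPrime r)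
    (hyp : ¬ r ∣ M ∧ ((2 ∣ M ∧ r ≠ 2) ∨ (3 ∣ M ∧ r ≠ 3))) {ℓ : ℕ} (hℓ : ℓ.Prime) (hℓr : ℓ ≠ r)
    {y : JZero M} {s : ℕ} (hs : ℓ ^ s • redJ (H28.charts hr.out hA hyp) y = 0) :
    ∃ z : JZero M, (∃ n : ℕ, ℓ ^ n • z = 0) ∧
      redJ (H28.charts hr.out hA hyp) z = redJ (H28.charts hr.out hA hyp) y := by
  obtain ⟨φ, hφ⟩ := H05.exists_isFrobeniusAt (L := Qb) hr.out hA
  obtain ⟨n, hn, hny⟩ := exists_pow_smul_eq φ y
  obtain ⟨hσ, hres⟩ := isFrobeniusAt_pow hφ n
  have hq : 1 < r ^ n := Nat.one_lt_pow hn.ne' hr.out.one_lt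
  haveI hfin : Finite (H12.fixedClasses (H28.charts hr.out hA hyp).kernel (φ ^ n)) :=
    H12.finite_fixed_mod hq (H28.goodLevel hr.out hA hyp).h₁ (H28.goodLevel hr.out hA hyp).h₂ hσ
      (fun x => hres x)
  have hK := H28.redKernel_charts hr.out hA hyp
  obtain ⟨z, hz, hyz⟩ := torsion_lift (H28.charts hr.out hA hyp).kernel (φ ^ n) hℓ
    (fun n hn x => exists_nsmul_eq hn x)
    (fun n => finite_torsion_J M (pow_ne_zero n hℓ.ne_zero))
    (fun n x hx h => hK.torsion (ℓ ^ n) (fun hd => hℓr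
      ((Nat.prime_dvd_prime_iff_eq hr.out hℓ).1 (hr.out.dvd_of_dvd_pow hd)).symm) x hx h)
    hny (s := s) (by
      rw [mem_kernel_iff, map_nsmul]
      exact hs)
  refine ⟨z, hz, ?_⟩
  rw [mem_kernel_iff, map_sub, sub_eq_zero] at hyz
  exact hyz.symm

/-- the reduction is injective on torsion prime to the residue characteristic -/
theorem redJ_injOn (hA : A.LiesOverPrime r)
    (hyp : ¬ r ∣ M ∧ ((2 ∣ M ∧ r ≠ 2) ∨ (3 ∣ M ∧ r ≠ 3))) {m : ℕ} (hm : ¬ r ∣ m)
    {y : JZero M} (hy : m • y = 0) (h0 : redJ (H28.charts hr.out hA hyp) y = 0) : y = 0 :=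
  (H28.redKernel_charts hr.out hA hyp).torsion m hm y ((mem_kernel_iff _ _).2 h0) hy

variable {m : ℕ} {x : JZero (M * r)} {y : JZero M} {C : H28.TwoCharts (H28.modRed M A)}

/-- points related to zero reduce to zero -/
theorem Occ.redJ_eq_zero (hA : A.LiesOverPrime r) (hrM : Nat.Coprime r M) (hm : m ≠ 0)
    (h : Occ C m r (0 : JZero (M * r)) y) : redJ C y = 0 := by
  obtain ⟨u, h1, h2⟩ := h
  obtain ⟨e, w, he, hw, rfl⟩ := h1.unique hA hrM hm RedK.one
  have h3 : H05.Kum m (0 : JZeroC (kk A) M) (algebraMap (kk A)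
      (modularFunctionFieldFullC (kk A) M) e * 1 * w ^ m) := by
    have h4 := (H05.kum_zero_algebraMap m he).mul (H05.kum_zero_pow (K := kk A) m hw)
    rw [add_zero] at h4
    rwa [mul_one]
  exact h2.unique_left hm h3

/-- **(N2B')** -/
theorem Occ.exists_eigen (hA : A.LiesOverPrime r)
    (hyp : ¬ r ∣ M ∧ ((2 ∣ M ∧ r ≠ 2) ∨ (3 ∣ M ∧ r ≠ 3))) {ℓ : ℕ} (hℓ : ℓ.Prime) (hℓr : ℓ ≠ r)
    {s : ℕ} (h : Occ (H28.charts hr.out hA hyp) (ℓ ^ s) r x y) {D : ℕ} (a : ℕ → ℤ)
    (hD : M * r ∣ D)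
    (hx : ∀ l : Nat.Primes, ¬ (l : ℕ) ∣ D → heckeOperatorBar (M * r) l x = a l • x) :
    ∃ z : JZero M, Occ (H28.charts hr.out hA hyp) (ℓ ^ s) r x z ∧ (∃ n : ℕ, ℓ ^ n • z = 0) ∧
      ∀ l : Nat.Primes, ¬ (l : ℕ) ∣ D → heckeOperatorBar M l z = a l • z := by
  have hrM : Nat.Coprime r M := (Nat.Prime.coprime_iff_not_dvd hr.out).2 hyp.1
  have hs : ℓ ^ s • redJ (H28.charts hr.out hA hyp) y = 0 := by
    obtain ⟨u, -, h2⟩ := h
    exact h2.nsmul_eq_zero
  obtain ⟨z, ⟨n, hn⟩, hz⟩ := exists_torsion_lift hA hyp hℓ hℓr hs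
  have hxz : Occ (H28.charts hr.out hA hyp) (ℓ ^ s) r x z := by
    obtain ⟨u, h1, h2⟩ := h
    exact ⟨u, h1, hz ▸ h2⟩
  refine ⟨z, hxz, ⟨n, hn⟩, fun l hl => ?_⟩
  haveI : Fact (l : ℕ).Prime := ⟨l.2⟩
  have h1 := hxz.hecke hA hrM (l := (l : ℕ)) (fun hd => hl (hd.trans hD))
  have h2 := hxz.zsmul (a l)
  have h3 := h1.add h2.neg
  have h4 : heckeOperatorBar (M * r) ⟨(l : ℕ), Fact.out⟩ x + -(a l • x) = 0 := by
    have := hx l hl
    rw [← sub_eq_add_neg, sub_eq_zero]
    exact this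
  rw [h4] at h3
  have h5 := h3.redJ_eq_zero hA hrM (pow_ne_zero s hℓ.ne_zero)
  have hnr : ¬ r ∣ ℓ ^ n := fun hd => hℓr
    ((Nat.prime_dvd_prime_iff_eq hr.out hℓ).1 (hr.out.dvd_of_dvd_pow hd)).symm
  have h6 : ℓ ^ n • (heckeOperatorBar M ⟨(l : ℕ), Fact.out⟩ z + -(a l • z)) = 0 := by
    rw [smul_add, ← map_nsmul, hn, map_zero, zero_add, smul_neg, smul_comm, hn, smul_zero,
      neg_zero]
  have h7 := redJ_injOn hA hyp hnr h6 h5
  rw [← sub_eq_add_neg, sub_eq_zero] at h7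
  exact h7

/-- multiples of `x` in terms of `y` -/
theorem Occ.nsmul_mem_KInf (hm : m ≠ 0) (h : Occ C m r x y) {k : ℕ} (hk : k • y = 0) :
    k • x ∈ KInf A M r m := by
  have h1 := h.zsmul (k : ℤ)
  rw [natCast_zsmul, natCast_zsmul, hk] at h1
  exact h1.mem_KInf hm

end Concrete

end Fermat.Agent.H11N
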