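import Fermat.Agent.H11N.Main
import Fermat.Agent.H22.Lifting
import Fermat.Agent.H22.Faithful
import Fermat.Agent.IntStr.Main

/-!
# From relations between Hecke operators to eigenforms
-/

set_option autoImplicit false
set_option linter.style.haveILetI false
set_option linter.unusedSectionVars false

noncomputable section

namespace Fermat.Agent.H11N

open ModularCurve CongruenceSubgroup
open ModularFormClass (qCoeff)

/-- Lying over for the kernel of a character of a subring. -/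
theorem exists_prime_over {A₀ R k : Type*} [CommRing A₀] [CommRing R] [CommRing k] [IsDomain k]
    [Algebra.IsIntegral ℤ R] (f : A₀ →+* R) (θ : A₀ →+* k) (h : RingHom.ker f ≤ RingHom.ker θ) :
    ∃ P : Ideal R, P.IsPrime ∧ P.comap f = RingHom.ker θ := by
  let g : A₀ →+* f.range := f.rangeRestrict
  have hg : Function.Surjective g := f.rangeRestrict_surjective
  have hker : RingHom.ker g ≤ RingHom.ker θ := by
    intro x hx
    apply h
    rw [RingHom.mem_ker] at hx ⊢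
    exact congrArg Subtype.val hx
  let θ' : f.range →+* k := RingHom.liftOfSurjective g hg ⟨θ, hker⟩
  have hθ' : ∀ x, θ' (g x) = θ x := fun x =>
    RingHom.liftOfRightInverse_comp_apply g (Function.surjInv hg)
      (Function.rightInverse_surjInv hg) ⟨θ, hker⟩ x
  haveI : (RingHom.ker θ').IsPrime := RingHom.ker_isPrime θ'
  haveI : Algebra.IsIntegral f.range R := by
    refine ⟨fun x => ?_⟩
    have h1 : IsIntegral ℤ x := Algebra.IsIntegral.isIntegral x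
    exact h1.tower_top
  obtain ⟨Q, -, hQ, hQP⟩ := Ideal.exists_ideal_over_prime_of_isIntegral (S := R)
    (RingHom.ker θ') ⊥ (by
      intro x hx
      rw [Ideal.mem_comap, Ideal.mem_bot] at hx
      have : x = 0 := Subtype.ext hx
      rw [this]
      exact Ideal.zero_mem _)
  refine ⟨Q, hQ, ?_⟩
  ext x
  rw [Ideal.mem_comap, RingHom.mem_ker, ← hθ' x, ← RingHom.mem_ker, ← hQP, Ideal.mem_comap]
  rfl

variable {M : ℕ} [NeZero M] {D : ℕ}

theorem heckeGen_mem_away {l : Nat.Primes} (h : ¬ (l : ℕ) ∣ D) : heckeGen l ∈ heckeAway D :=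
  Algebra.subset_adjoin ⟨l, h, rfl⟩

/-- evaluation of relations -/
def evalAt (a : ℕ → ℤ) : HeckeAlg →+* ℤ :=
  (MvPolynomial.aeval (R := ℤ) (fun l : Nat.Primes => a l)).toRingHom

@[simp] theorem evalAt_gen (a : ℕ → ℤ) (l : Nat.Primes) : evalAt a (heckeGen l) = a l := by
  rw [evalAt, heckeGen]
  exact MvPolynomial.aeval_X _ _

theorem evalAt_gen_sub (a : ℕ → ℤ) (l : Nat.Primes) :
    evalAt a (heckeGen l - ((a l : ℤ) : HeckeAlg)) = 0 := by
  rw [map_sub, evalAt_gen, map_intCast]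
  simp

/-- A prime of the Hecke algebra from a character of the polynomials in the `T_l`, `l ∤ D`, which
respects the relations. -/
theorem exists_prime_of_relations {k : Type*} [CommRing k] [IsDomain k]
    (θ : heckeAway D →+* k)
    (hrel : ∀ t : heckeAway D, CuspForm.heckeEvalForms M 2 (t : HeckeAlg) = 0 → θ t = 0) :
    ∃ P : Ideal (CuspForm.heckeAlgebra M 2 ∅), P.IsPrime ∧
      ∀ t : heckeAway D, CuspForm.heckeEvalForms M 2 (t : HeckeAlg) ∈ P ↔ θ t = 0 := by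
  haveI := H22.heckeAlgebra_isIntegral (N := M) ∅ (IntStr.hasIntegralStructure M 2)
  obtain ⟨P, hP, h⟩ := exists_prime_over
    ((CuspForm.heckeEvalForms M 2).comp (heckeAway D).val.toRingHom) θ (fun t ht => hrel t ht)
  refine ⟨P, hP, fun t => ?_⟩
  have h1 : t ∈ P.comap ((CuspForm.heckeEvalForms M 2).comp (heckeAway D).val.toRingHom) ↔
      t ∈ RingHom.ker θ := by rw [h]
  exact h1

/-- **Eigenforms from relations modulo `p`.** -/
theorem exists_eigenform_of_relations {p : ℕ} (hp : p.Prime) (a : ℕ → ℤ)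
    (hrel : ∀ t ∈ heckeAway D, CuspForm.heckeEvalForms M 2 t = 0 → (p : ℤ) ∣ evalAt a t)
    (hMD : M ∣ D) :
    ∃ (g : CuspForm (Gamma0 M) 2) (_ : g.IsNormalizedEigenform)
      (𝔪 : Ideal (integralClosure ℤ ℂ)), 𝔪.IsMaximal ∧
      ((p : ℕ) : integralClosure ℤ ℂ) ∈ 𝔪 ∧
      ∀ ℓ : ℕ, ℓ.Prime → ¬ ℓ ∣ D → ∃ b : integralClosure ℤ ℂ, (b : ℂ) = qCoeff ⇑g ℓ ∧
        b - (a ℓ : integralClosure ℤ ℂ) ∈ 𝔪 := by
  haveI : Fact p.Prime := ⟨hp⟩
  obtain ⟨P, hP, h⟩ := exists_prime_of_relations (M := M) (D := D) (k := ZMod p)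
    (((Int.castRingHom (ZMod p)).comp (evalAt a)).comp (heckeAway D).val.toRingHom) (by
      intro t ht
      have h1 := hrel t t.2 ht
      change ((evalAt a (t : HeckeAlg) : ℤ) : ZMod p) = 0
      rwa [ZMod.intCast_zmod_eq_zero_iff_dvd])
  have key : ∀ t : HeckeAlg, t ∈ heckeAway D → (p : ℤ) ∣ evalAt a t →
      CuspForm.heckeEvalForms M 2 t ∈ P := by
    intro t ht hd
    rw [h ⟨t, ht⟩]
    change ((evalAt a t : ℤ) : ZMod p) = 0
    rwa [ZMod.intCast_zmod_eq_zero_iff_dvd]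
  obtain ⟨χ, g, Q, hg, -, hq, hQ, hQP⟩ :=
    H22.exists_integral_eigenform_of_prime (IntStr.hasIntegralStructure M 2) P
  obtain ⟨𝔪, h𝔪, hQ𝔪⟩ := Ideal.exists_le_maximal Q hQ.ne_top
  have hmem : ∀ t ∈ P, χ t ∈ 𝔪 := fun t ht => hQ𝔪 (by
    rw [← hQP] at ht
    exact ht)
  refine ⟨g, hg, 𝔪, h𝔪, ?_, fun ℓ hℓ hℓD => ⟨H22.charEigenvalue χ ℓ, (hq ℓ hℓ).symm, ?_⟩⟩
  · have h1 := hmem _ (key (p : HeckeAlg) (natCast_mem _ p) (by
      rw [map_natCast]))
    rw [map_natCast, map_natCast] at h1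
    exact h1
  · have h1 := hmem _ (key (heckeGen ⟨ℓ, hℓ⟩ - ((a ℓ : ℤ) : HeckeAlg))
      (sub_mem (heckeGen_mem_away hℓD) (intCast_mem _ _))
      ((evalAt_gen_sub a (⟨ℓ, hℓ⟩ : Nat.Primes)).symm ▸ dvd_zero (p : ℤ)))
    rw [map_sub, map_sub, map_intCast, map_intCast] at h1
    rw [H22.charEigenvalue, dif_pos hℓ]
    have h2 : CuspForm.heckeEvalForms M 2 (heckeGen ⟨ℓ, hℓ⟩) =
        CuspForm.heckeFormsGen M 2 ⟨ℓ, hℓ⟩ := by
      by_cases hN : ℓ ∣ M
      · exact absurd (hN.trans hMD) hℓD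
      · rw [CuspForm.heckeFormsGen_of_not_dvd (ℓ := ⟨ℓ, hℓ⟩) hN]
        exact CuspForm.heckeEvalForms_heckeGen_of_not_dvd (ℓ := ⟨ℓ, hℓ⟩) hN
    rw [h2] at h1
    exact h1

/-- **Eigenforms from relations in characteristic zero.** -/
theorem exists_eigenform_of_relations_zero (a : ℕ → ℤ)
    (hrel : ∀ t ∈ heckeAway D, CuspForm.heckeEvalForms M 2 t = 0 → evalAt a t = 0)
    (hMD : M ∣ D) :
    ∃ (g : CuspForm (Gamma0 M) 2), g.IsNormalizedEigenform ∧
      ∀ ℓ : ℕ, ℓ.Prime → ¬ ℓ ∣ D → qCoeff ⇑g ℓ = (a ℓ : ℂ) := by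
  obtain ⟨P, hP, h⟩ := exists_prime_of_relations (M := M) (D := D) (k := ℤ)
    ((evalAt a).comp (heckeAway D).val.toRingHom) (fun t ht => hrel t t.2 ht)
  have key : ∀ t : HeckeAlg, t ∈ heckeAway D → (CuspForm.heckeEvalForms M 2 t ∈ P ↔
      evalAt a t = 0) := fun t ht => h ⟨t, ht⟩
  obtain ⟨χ, g, Q, hg, -, hq, hQ, hQP⟩ :=
    H22.exists_integral_eigenform_of_prime (IntStr.hasIntegralStructure M 2) P
  have hQ0 : Q = ⊥ := by
    haveI := hQ
    apply Ideal.eq_bot_of_comap_eq_bot (R := ℤ)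
    rw [eq_bot_iff]
    intro n hn
    rw [Ideal.mem_comap, eq_intCast] at hn
    have h1 : ((n : ℤ) : CuspForm.heckeAlgebra M 2 ∅) ∈ P := by
      rw [← hQP, Ideal.mem_comap, map_intCast]
      exact hn
    have h2 := (key (n : HeckeAlg) (intCast_mem _ n)).1 (by rw [map_intCast]; exact h1)
    rw [map_intCast] at h2
    exact h2
  refine ⟨g, hg, fun ℓ hℓ hℓD => ?_⟩
  have h1 := (key (heckeGen ⟨ℓ, hℓ⟩ - ((a ℓ : ℤ) : HeckeAlg))
    (sub_mem (heckeGen_mem_away hℓD) (intCast_mem _ _))).2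
      (evalAt_gen_sub a (⟨ℓ, hℓ⟩ : Nat.Primes))
  rw [← hQP, Ideal.mem_comap, hQ0, Ideal.mem_bot, map_sub, map_sub, map_intCast, map_intCast,
    sub_eq_zero] at h1
  have h2 : CuspForm.heckeEvalForms M 2 (heckeGen ⟨ℓ, hℓ⟩) =
      CuspForm.heckeFormsGen M 2 ⟨ℓ, hℓ⟩ := by
    by_cases hN : ℓ ∣ M
    · exact absurd (hN.trans hMD) hℓD
    · rw [CuspForm.heckeFormsGen_of_not_dvd (ℓ := ⟨ℓ, hℓ⟩) hN]
      exact CuspForm.heckeEvalForms_heckeGen_of_not_dvd (ℓ := ⟨ℓ, hℓ⟩) hN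
  rw [h2] at h1
  rw [hq ℓ hℓ, H22.charEigenvalue, dif_pos hℓ, h1]
  simp

end Fermat.Agent.H11N
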