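import Fermat.Agent.H11N.BLR
import Fermat.Agent.H11N.Lift
import Fermat.Agent.H11N.Eigen
import Fermat.Agent.Descent.FinLevel
import Fermat.Agent.H25.Density
import Fermat.Agent.H28.Final

/-!
# The Hecke eigenspace in `J₀(N)[m]` as a Galois module
-/

set_option autoImplicit false
set_option linter.style.haveILetI false
set_option linter.unusedSectionVars false
set_option maxSynthPendingDepth 3

noncomputable section

namespace Fermat.Agent.H11N

open ModularCurve AlgebraicCurve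
open scoped Pointwise

local notation "Qb" => AlgebraicClosure ℚ
local notation "Γq" => AlgebraicClosure ℚ ≃ₐ[ℚ] AlgebraicClosure ℚ

section RelAll

/-- **From Frobenius elements to the whole Galois group.** -/
theorem rel_all {R W : Type*} [CommRing R] [AddCommGroup W] [Module R W]
    (ρ : Γq →* Matrix (Fin 2) (Fin 2) R) (r : Γq →* Module.End R W)
    (F : IntermediateField ℚ Qb) [FiniteDimensional ℚ F]
    (hρ : ∀ σ : Γq, (∀ x ∈ F, σ x = x) → ρ σ = 1)
    (hr : ∀ σ : Γq, (∀ x ∈ F, σ x = x) → r σ = 1) (S : Finset ℕ)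
    (h : ∀ l : ℕ, l.Prime → l ∉ S → ∀ A : ValuationSubring Qb, A.LiesOverPrime l →
      ∀ φ : Γq, A.IsFrobeniusAt φ l → ∃ t d : R, (ρ φ).trace = t ∧ (ρ φ).det = d ∧
        r φ * r φ - t • r φ + d • (1 : Module.End R W) = 0) (σ : Γq) :
    r σ * r σ - (ρ σ).trace • r σ + (ρ σ).det • (1 : Module.End R W) = 0 := by
  obtain ⟨l, hl, hlS, A, hA, φ, hφ, -, n, -, hn⟩ := H25.exists_frobenius F S σ
  have hfix : ∀ x ∈ F, ((φ ^ n)⁻¹ * σ) x = x := by
    intro x hx
    rw [AlgEquiv.mul_apply, hn x hx, ← AlgEquiv.mul_apply, inv_mul_cancel, AlgEquiv.one_apply]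
  have h1 : ρ σ = ρ φ ^ n := by
    rw [← map_pow, ← mul_one (ρ (φ ^ n)), ← hρ _ hfix, ← map_mul, mul_inv_cancel_left]
  have h2 : r σ = r φ ^ n := by
    rw [← map_pow, ← mul_one (r (φ ^ n)), ← hr _ hfix, ← map_mul, mul_inv_cancel_left]
  rw [h1, h2]
  obtain ⟨t, d, ht, hd, h⟩ := h l hl hlS A hA φ hφ
  rw [← ht, ← hd] at h
  exact rel_pow _ _ h n

end RelAll

variable (N : ℕ) [NeZero N] (m D : ℕ) (a : ℕ → ℤ)

/-- the eigenspace of the Hecke operators `T_l`, `l ∤ D`, in `J₀(N)[m]` -/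
def EigSub : AddSubgroup (JZero N) where
  carrier := {x | m • x = 0 ∧ ∀ l : Nat.Primes, ¬ (l : ℕ) ∣ D → heckeOperatorBar N l x = a l • x}
  zero_mem' := ⟨smul_zero _, fun l _ => by rw [map_zero, smul_zero]⟩
  add_mem' := fun {x y} hx hy => ⟨by rw [smul_add, hx.1, hy.1, add_zero], fun l hl => by
    rw [map_add, hx.2 l hl, hy.2 l hl, smul_add]⟩
  neg_mem' := fun {x} hx => ⟨by rw [smul_neg, hx.1, neg_zero], fun l hl => by
    rw [map_neg, hx.2 l hl, smul_neg]⟩

variable {N m D a}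

theorem mem_EigSub {x : JZero N} : x ∈ EigSub N m D a ↔
    m • x = 0 ∧ ∀ l : Nat.Primes, ¬ (l : ℕ) ∣ D → heckeOperatorBar N l x = a l • x := Iff.rfl

theorem smul_mem_EigSub (σ : Γq) {x : JZero N} (hx : x ∈ EigSub N m D a) :
    σ • x ∈ EigSub N m D a := by
  refine ⟨?_, fun l hl => ?_⟩
  · rw [smul_comm, hx.1, smul_zero]
  · rw [H05.heckeOperatorBar_smul, hx.2 l hl, smul_comm]

/-- polynomials in the `T_l` act through their evaluation -/
theorem heckeJ_eq_evalAt {t : HeckeAlg} (ht : t ∈ heckeAway D) {x : JZero N}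
    (hx : ∀ l : Nat.Primes, ¬ (l : ℕ) ∣ D → heckeOperatorBar N l x = a l • x) :
    heckeJ N t x = evalAt a t • x := by
  induction ht using Algebra.adjoin_induction with
  | mem y hy =>
    obtain ⟨l, hl, rfl⟩ := hy
    rw [heckeJ_gen, evalAt_gen]
    exact hx l hl
  | algebraMap c =>
    rw [eq_intCast (algebraMap ℤ HeckeAlg) c, map_intCast, map_intCast]
    rfl
  | add y z _ _ hy hz => rw [map_add, map_add, LinearMap.add_apply, hy, hz, add_smul]
  | mul y z _ _ hy hz =>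
    rw [map_mul, map_mul, Module.End.mul_apply, hz, map_zsmul, hy, smul_smul, mul_comm]

variable (N m D a) in
/-- the module structure -/
instance instModEig : Module (ZMod m) (EigSub N m D a) :=
  AddCommGroup.zmodModule fun x => Subtype.ext x.2.1

variable (N m D a) in
/-- the Galois action on the eigenspace -/
def galEig : Γq →* Module.End (ZMod m) (EigSub N m D a) where
  toFun σ := AddMonoidHom.toZModLinearMap m
    (((DistribSMul.toAddMonoidHom (JZero N) σ).comp (EigSub N m D a).subtype).codRestrict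
      (EigSub N m D a) fun x => smul_mem_EigSub σ x.2)
  map_one' := LinearMap.ext fun x => Subtype.ext <| by
    change (1 : Γq) • (x : JZero N) = (x : JZero N)
    exact one_smul _ _
  map_mul' σ τ := LinearMap.ext fun x => Subtype.ext <| by
    change (σ * τ) • (x : JZero N) = σ • τ • (x : JZero N)
    exact mul_smul _ _ _

theorem coe_galEig (σ : Γq) (x : EigSub N m D a) :
    ((galEig N m D a σ x : EigSub N m D a) : JZero N) = σ • (x : JZero N) := rfl

theorem coe_zmod_smul (c : ℤ) (x : EigSub N m D a) :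
    ((((c : ZMod m) • x : EigSub N m D a)) : JZero N) = c • (x : JZero N) := by
  rw [Int.cast_smul_eq_zsmul (ZMod m) c x]
  rfl

variable (N m D a) in
theorem exists_field_eig (hm : m ≠ 0) : ∃ E : IntermediateField ℚ Qb, FiniteDimensional ℚ E ∧
    ∀ σ : Γq, (∀ x ∈ E, σ x = x) → galEig N m D a σ = 1 := by
  have h2 : Finite {x : JZero N // m • x = 0} := (finite_torsion_J N hm).to_subtype
  obtain ⟨E, hE, hE'⟩ := H26.exists_fixing_field_finite (modularFunctionFieldFull N) hm h2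
  refine ⟨E, hE, fun σ hσ => LinearMap.ext fun x => Subtype.ext ?_⟩
  rw [coe_galEig, hE' σ hσ _ x.2.1]
  rfl

/-- Eichler–Shimura on the eigenspace. -/
theorem galEig_frob (hND : N ∣ D) (hmD : m ∣ D) {l : ℕ} (hl : l.Prime) (hlD : ¬ l ∣ D)
    {A : ValuationSubring Qb} (hA : A.LiesOverPrime l) {φ : Γq} (hφ : A.IsFrobeniusAt φ l) :
    galEig N m D a φ * galEig N m D a φ - (a l : ZMod m) • galEig N m D a φ +
      (l : ZMod m) • (1 : Module.End (ZMod m) (EigSub N m D a)) = 0 := by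
  have hlN : ¬ l ∣ N := fun h => hlD (h.trans hND)
  have hlm : ¬ l ∣ m := fun h => hlD (h.trans hmD)
  refine LinearMap.ext fun x => Subtype.ext ?_
  have h3 := H28.frobenius_torsion N hl hlN A hA hlm hφ (x : JZero N) x.2.1
  have h4 : φ • (x : JZero N) ∈ EigSub N m D a := smul_mem_EigSub φ x.2
  rw [h4.2 ⟨l, hl⟩ hlD] at h3
  have h5 : ((l : ZMod m)) = ((l : ℤ) : ZMod m) := by push_cast; rfl
  rw [h5]
  change φ • φ • (x : JZero N) - (((a l : ZMod m) • galEig N m D a φ x : EigSub N m D a) : JZero N) +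
    ((((l : ℤ) : ZMod m) • x : EigSub N m D a) : JZero N) = 0
  rw [coe_zmod_smul, coe_zmod_smul, coe_galEig, natCast_zsmul]
  exact h3

/-- **The quadratic relation for all elements of the Galois group.** -/
theorem galEig_rel (hm : m ≠ 0) (hD : D ≠ 0) (hND : N ∣ D) (hmD : m ∣ D)
    (ρ : Γq →* Matrix (Fin 2) (Fin 2) (ZMod m)) (F : IntermediateField ℚ Qb)
    [FiniteDimensional ℚ F] (hρ : ∀ σ : Γq, (∀ x ∈ F, σ x = x) → ρ σ = 1)
    (hfrob : ∀ l : ℕ, l.Prime → ¬ l ∣ D → ∀ A : ValuationSubring Qb, A.LiesOverPrime l →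
      ∀ φ : Γq, A.IsFrobeniusAt φ l → (ρ φ).trace = (a l : ZMod m) ∧ (ρ φ).det = (l : ZMod m))
    (σ : Γq) :
    galEig N m D a σ * galEig N m D a σ - (ρ σ).trace • galEig N m D a σ +
      (ρ σ).det • (1 : Module.End (ZMod m) (EigSub N m D a)) = 0 := by
  obtain ⟨E, hE, hE'⟩ := exists_field_eig N m D a hm
  haveI : FiniteDimensional ℚ (E ⊔ F : IntermediateField ℚ Qb) :=
    IntermediateField.finiteDimensional_sup E F
  have h1 : ∀ σ : Γq, (∀ x ∈ (E ⊔ F : IntermediateField ℚ Qb), σ x = x) → ρ σ = 1 :=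
    fun σ hσ => hρ σ fun x hx => hσ x ((le_sup_right : F ≤ E ⊔ F) hx)
  have h2 : ∀ σ : Γq, (∀ x ∈ (E ⊔ F : IntermediateField ℚ Qb), σ x = x) → galEig N m D a σ = 1 :=
    fun σ hσ => hE' σ fun x hx => hσ x ((le_sup_left : E ≤ E ⊔ F) hx)
  have h3 := rel_all ρ (galEig N m D a) (E ⊔ F) h1 h2 D.primeFactors
  refine h3 ?_ σ
  intro l hl hlD A hA φ hφ
  have hlD' : ¬ l ∣ D := fun h => hlD (Nat.mem_primeFactors.2 ⟨hl, h, hD⟩)
  have h0 := hfrob l hl hlD' A hA φ hφ
  exact ⟨_, _, h0.1, h0.2, galEig_frob hND hmD hl hlD' hA hφ⟩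

end Fermat.Agent.H11N
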