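import Mathlib

/-!
# The theorem of Boston–Lenstra–Ribet (over a commutative ring)
-/

set_option autoImplicit false
set_option linter.unusedSectionVars false

noncomputable section

namespace Fermat.Agent.H11N

open Matrix

local notation "M₂" => Matrix (Fin 2) (Fin 2)

section Pow

variable {R B : Type*} [CommRing R] [Ring B] [Algebra R B]

theorem mat_adj (a : M₂ R) : a.adjugate = a.trace • (1 : M₂ R) - a := by
  ext i j
  fin_cases i <;> fin_cases j <;>
    simp [Matrix.adjugate_fin_two, Matrix.trace_fin_two]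

theorem mat_rel (a : M₂ R) : a * a - a.trace • a + a.det • (1 : M₂ R) = 0 := by
  ext i j
  fin_cases i <;> fin_cases j <;>
    simp [Matrix.mul_apply, Matrix.trace_fin_two, Matrix.det_fin_two, Fin.sum_univ_two] <;> ring

/-- `α ^ n + β ^ n` in terms of `α + β` and `α β`. -/
def luc (t d : R) : ℕ → R
  | 0 => 2
  | 1 => t
  | (n + 2) => t * luc t d (n + 1) - d * luc t d n

theorem pow_add_pow (t d : R) (x y : B) (hxy : x + y = t • (1 : B)) (hm : x * y = d • (1 : B))
    (n : ℕ) : x ^ n + y ^ n = luc t d n • (1 : B) := by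
  have hy : y = t • (1 : B) - x := by rw [← hxy]; abel
  have hcomm : Commute x y := by
    rw [hy]
    exact ((Commute.one_right x).smul_right t).sub_right (Commute.refl x)
  induction n using Nat.twoStepInduction with
  | zero =>
    rw [pow_zero, pow_zero, luc, ← one_add_one_eq_two, add_smul, one_smul]
  | one => rw [pow_one, pow_one, luc, hxy]
  | more n h1 h2 =>
    have e1 : x ^ (n + 2) + y ^ (n + 2) =
        (x + y) * (x ^ (n + 1) + y ^ (n + 1)) - (x * y) * (x ^ n + y ^ n) := by
      have c1 : y * x ^ (n + 1) = x * y * x ^ n := by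
        rw [pow_succ', ← mul_assoc, hcomm.eq]
      have c2 : x * y ^ (n + 1) = x * y * y ^ n := by
        rw [pow_succ', ← mul_assoc]
      have c3 : x ^ (n + 2) = x * x ^ (n + 1) := by rw [← pow_succ']
      have c4 : y ^ (n + 2) = y * y ^ (n + 1) := by rw [← pow_succ']
      rw [add_mul, mul_add, mul_add, mul_add, c1, c2, c3, c4]
      abel
    rw [e1, h1, h2, hxy, hm, luc, sub_smul, mul_smul, mul_smul, smul_mul_assoc, one_mul,
      smul_mul_assoc, one_mul]

theorem rel_luc (t d : R) (x : B) (h : x * x - t • x + d • (1 : B) = 0) (n : ℕ) :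
    x ^ n * x ^ n - luc t d n • x ^ n + (d ^ n) • (1 : B) = 0 := by
  set y := t • (1 : B) - x with hy
  have hxy : x + y = t • (1 : B) := by rw [hy]; abel
  have hm : x * y = d • (1 : B) := by
    rw [hy, mul_sub, mul_smul_comm, mul_one]
    rw [← sub_eq_zero, ← neg_eq_zero, ← h]
    abel
  have hcomm : Commute x y := by
    rw [hy]
    exact ((Commute.one_right x).smul_right t).sub_right (Commute.refl x)
  have h1 := pow_add_pow t d x y hxy hm n
  have h2 : x ^ n * y ^ n = (d ^ n) • (1 : B) := by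
    rw [← hcomm.mul_pow, hm, smul_pow, one_pow]
  have h3 : luc t d n • x ^ n = x ^ n * x ^ n + x ^ n * y ^ n := by
    rw [← mul_add, h1, mul_smul_comm, mul_one]
  rw [h3, ← h2]
  abel

theorem trace_pow_luc (a : M₂ R) (n : ℕ) : (a ^ n).trace = luc a.trace a.det n := by
  have h1 := pow_add_pow a.trace a.det a a.adjugate (by rw [mat_adj]; abel)
    (Matrix.mul_adjugate a) n
  rw [← Matrix.adjugate_pow, mat_adj (a ^ n)] at h1
  have h2 := congrFun (congrFun h1 0) 0
  simpa using h2

/-- The quadratic relation passes to powers. -/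
theorem rel_pow (a : M₂ R) (x : B) (h : x * x - a.trace • x + a.det • (1 : B) = 0) (n : ℕ) :
    x ^ n * x ^ n - (a ^ n).trace • x ^ n + (a ^ n).det • (1 : B) = 0 := by
  rw [trace_pow_luc, Matrix.det_pow]
  exact rel_luc _ _ x h n

end Pow

section BLR

variable {R G W : Type*} [CommRing R] [Group G] [AddCommGroup W] [Module R W]

variable (ρ : G →* M₂ R) (r : G →* Module.End R W)

/-- the matrix of an element of the group ring -/
def PP : MonoidAlgebra R G →ₐ[R] M₂ R := MonoidAlgebra.lift R _ G ρ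

/-- the action of the group ring -/
def QQ : MonoidAlgebra R G →ₐ[R] Module.End R W := MonoidAlgebra.lift R _ G r

theorem PP_of (g : G) : PP ρ (MonoidAlgebra.of R G g) = ρ g := MonoidAlgebra.lift_of _ _

theorem QQ_of (g : G) : QQ r (MonoidAlgebra.of R G g) = r g := MonoidAlgebra.lift_of _ _

/-- the conjugate of the action -/
def bet (a : MonoidAlgebra R G) : Module.End R W := (PP ρ a).trace • 1 - QQ r a

theorem bet_add (a b : MonoidAlgebra R G) : bet ρ r (a + b) = bet ρ r a + bet ρ r b := by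
  rw [bet, bet, bet, map_add, map_add, Matrix.trace_add, add_smul]
  abel

theorem bet_smul (c : R) (a : MonoidAlgebra R G) : bet ρ r (c • a) = c • bet ρ r a := by
  rw [bet, bet, map_smul, map_smul, Matrix.trace_smul, smul_sub, smul_assoc]

variable (hrel : ∀ g, r g * r g - (ρ g).trace • r g + (ρ g).det • (1 : Module.End R W) = 0)

include hrel

theorem bet_of (g : G) : bet ρ r (MonoidAlgebra.of R G g) = (ρ g).det • r g⁻¹ := by
  rw [bet, PP_of, QQ_of]
  have h1 : r g * r g⁻¹ = 1 := by rw [← map_mul, mul_inv_cancel, map_one]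
  have h2 := congrArg (fun z => z * r g⁻¹) (hrel g)
  simp only [add_mul, sub_mul, mul_assoc, h1, mul_one, smul_mul_assoc, one_mul, zero_mul] at h2
  rw [← sub_eq_zero, ← neg_eq_zero, ← h2]
  abel

theorem bet_mul (a b : MonoidAlgebra R G) : bet ρ r (a * b) = bet ρ r b * bet ρ r a := by
  induction a using MonoidAlgebra.induction_on with
  | of g =>
    induction b using MonoidAlgebra.induction_on with
    | of h =>
      rw [← map_mul, bet_of ρ r hrel, bet_of ρ r hrel, bet_of ρ r hrel, map_mul, Matrix.det_mul,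
        _root_.mul_inv_rev, map_mul, smul_mul_assoc, mul_smul_comm, smul_smul, mul_comm (ρ g).det]
    | add x y hx hy => rw [mul_add, bet_add, bet_add, hx, hy, add_mul]
    | smul c x hx => rw [mul_smul_comm, bet_smul, bet_smul, hx, smul_mul_assoc]
  | add x y hx hy => rw [add_mul, bet_add, bet_add, hx, hy, mul_add]
  | smul c x hx => rw [smul_mul_assoc, bet_smul, bet_smul, hx, mul_smul_comm]

theorem swap {a : MonoidAlgebra R G} (ha : PP ρ a = 0) (b : MonoidAlgebra R G) :
    QQ r a * QQ r b = bet ρ r b * QQ r a := by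
  have h1 := bet_mul ρ r hrel a b
  have h2 : bet ρ r a = - QQ r a := by rw [bet, ha, Matrix.trace_zero, zero_smul, zero_sub]
  have h3 : bet ρ r (a * b) = - (QQ r a * QQ r b) := by
    rw [bet, map_mul, ha, zero_mul, Matrix.trace_zero, zero_smul, zero_sub, map_mul]
  rw [h2, h3, mul_neg, neg_inj] at h1
  exact h1

theorem comm_kill {a : MonoidAlgebra R G} (ha : PP ρ a = 0) (b c : MonoidAlgebra R G) :
    QQ r (b * c - c * b) * QQ r a = 0 := by
  have h1 : QQ r a * QQ r (b * c) = bet ρ r c * (bet ρ r b * QQ r a) := by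
    rw [swap ρ r hrel ha, bet_mul ρ r hrel, mul_assoc]
  have h2 : QQ r a * QQ r (b * c) = bet ρ r b * (bet ρ r c * QQ r a) := by
    rw [map_mul, ← mul_assoc, swap ρ r hrel ha, mul_assoc, swap ρ r hrel ha]
  rw [h1, bet, bet] at h2
  rw [map_sub, map_mul, map_mul, sub_mul, mul_assoc, mul_assoc, sub_eq_zero]
  simp only [sub_mul, mul_sub, smul_mul_assoc, mul_smul_comm, one_mul] at h2
  have h3 := sub_eq_zero.2 h2
  rw [← sub_eq_zero, ← neg_eq_zero, ← h3]
  module

theorem ker_le (hP : Function.Surjective (PP ρ)) {a : MonoidAlgebra R G} (ha : PP ρ a = 0) :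
    QQ r a = 0 := by
  obtain ⟨e12, h12⟩ := hP (Matrix.single 0 1 1)
  obtain ⟨e21, h21⟩ := hP (Matrix.single 1 0 1)
  obtain ⟨y, hy⟩ := hP (Matrix.single 0 0 1)
  set c := e12 * e21 - e21 * e12 with hc
  have hPc : PP ρ (c * c) = 1 := by
    rw [map_mul, hc, map_sub, map_mul, map_mul, h12, h21]
    ext i j
    fin_cases i <;> fin_cases j <;> simp [Matrix.mul_apply, Fin.sum_univ_two, Matrix.single]
  set κ := 1 - c * c with hκ
  have hPκ : PP ρ κ = 0 := by rw [hκ, map_sub, map_one, hPc, sub_self]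
  have hcc : ∀ {b : MonoidAlgebra R G}, PP ρ b = 0 → QQ r κ * QQ r b = QQ r b := by
    intro b hb
    rw [hκ, map_sub, map_one, sub_mul, one_mul, map_mul, mul_assoc, hc,
      comm_kill ρ r hrel hb, mul_zero, sub_zero]
  have hb0 : bet ρ r κ = - QQ r κ := by
    rw [bet, hPκ, Matrix.trace_zero, zero_smul, zero_sub]
  have h1 := swap ρ r hrel hPκ κ
  rw [hb0, neg_mul, hcc hPκ] at h1
  -- `2 κ = 0`
  have h2 : (2 : R) • QQ r κ = 0 := by
    rw [two_smul]
    nth_rewrite 1 [h1]
    exact neg_add_cancel _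
  have h3 : (2 : R) • QQ r a = 0 := by
    rw [← hcc ha, ← smul_mul_assoc, h2, zero_mul]
  have h4 : QQ r κ * QQ r y = (1 - QQ r y) * QQ r κ := by
    rw [swap ρ r hrel hPκ, bet, hy, Matrix.trace_single_eq_same, one_smul]
  have hya : PP ρ (y * a) = 0 := by rw [map_mul, ha, mul_zero]
  have h5 := hcc hya
  rw [map_mul, ← mul_assoc, h4, mul_assoc, hcc ha, sub_mul, one_mul, sub_eq_iff_eq_add] at h5
  rw [h5, ← two_smul R, ← mul_smul_comm, h3, mul_zero]

omit hrel in
theorem PP_surjective (hspan : Submodule.span R (Set.range ρ) = ⊤) :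
    Function.Surjective (PP ρ) := by
  have h1 : Submodule.span R (Set.range ρ) ≤ LinearMap.range (PP ρ).toLinearMap := by
    rw [Submodule.span_le]
    rintro _ ⟨g, rfl⟩
    exact ⟨MonoidAlgebra.of R G g, PP_of ρ g⟩
  intro x
  have hx : x ∈ Submodule.span R (Set.range ρ) := by rw [hspan]; trivial
  exact h1 hx

/-- **Boston–Lenstra–Ribet**. -/
theorem blr (hspan : Submodule.span R (Set.range ρ) = ⊤) :
    ∃ Φ : M₂ R →ₐ[R] Module.End R W, ∀ g, Φ (ρ g) = r g := by
  have hP := PP_surjective ρ hspan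
  have hker : RingHom.ker (PP ρ : MonoidAlgebra R G →+* M₂ R) ≤
      RingHom.ker (QQ r : MonoidAlgebra R G →+* Module.End R W) := fun a ha =>
    ker_le ρ r hrel hP ha
  let Φ : M₂ R →+* Module.End R W :=
    RingHom.liftOfSurjective (PP ρ : MonoidAlgebra R G →+* M₂ R) hP
      ⟨(QQ r : MonoidAlgebra R G →+* Module.End R W), hker⟩
  have hΦ : ∀ x, Φ (PP ρ x) = QQ r x := fun x =>
    RingHom.liftOfRightInverse_comp_apply (PP ρ : MonoidAlgebra R G →+* M₂ R)
      (Function.surjInv hP) (Function.rightInverse_surjInv hP)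
      ⟨(QQ r : MonoidAlgebra R G →+* Module.End R W), hker⟩ x
  refine ⟨AlgHom.mk' Φ (fun c x => ?_), fun g => ?_⟩
  · obtain ⟨y, rfl⟩ := hP x
    rw [← map_smul, hΦ, hΦ, map_smul]
  · change Φ (ρ g) = r g
    rw [← PP_of ρ g, hΦ, QQ_of]

end BLR

section Trivial

variable {R G : Type*} [CommRing R] [Nontrivial R] [Group G]

/-- There is no homomorphism from the matrix ring to a nontrivial commutative ring. -/
theorem no_hom {S : Type*} [Ring S] (hS : ∀ x y : S, x * y = y * x)
    (Φ : M₂ R →+* S) : (1 : S) = 0 := by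
  have h1 : Φ (Matrix.single 0 1 1 * Matrix.single 1 0 1 -
      Matrix.single 1 0 1 * Matrix.single 0 1 1) = 0 := by
    rw [map_sub, map_mul, map_mul, hS, sub_self]
  have h2 : (Matrix.single 0 1 1 * Matrix.single 1 0 1 -
      Matrix.single 1 0 1 * Matrix.single 0 1 1 : M₂ R) *
      (Matrix.single 0 1 1 * Matrix.single 1 0 1 -
      Matrix.single 1 0 1 * Matrix.single 0 1 1) = 1 := by
    ext i j
    fin_cases i <;> fin_cases j <;> simp [Matrix.mul_apply, Fin.sum_univ_two, Matrix.single]
  rw [← map_one Φ, ← h2, map_mul, h1, mul_zero]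

/-- a representation whose image spans the matrices is not Eisenstein -/
theorem exists_trace_ne (ρ : G →* M₂ R) (hspan : Submodule.span R (Set.range ρ) = ⊤) :
    ∃ g, (ρ g).trace ≠ 1 + (ρ g).det := by
  by_contra hcon
  push Not at hcon
  obtain ⟨Φ, -⟩ := blr (W := R) ρ (1 : G →* Module.End R R) (by
    intro g
    rw [hcon g, MonoidHom.one_apply, mul_one, add_smul, one_smul]
    abel) hspan
  have h1 := no_hom (R := R) (S := Module.End R R) (fun x y => by
    refine LinearMap.ext_ring ?_
    rw [Module.End.mul_apply, Module.End.mul_apply]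
    have hx : ∀ c : R, x c = c * x 1 := fun c => by
      rw [← smul_eq_mul, ← map_smul, smul_eq_mul, mul_one]
    have hy : ∀ c : R, y c = c * y 1 := fun c => by
      rw [← smul_eq_mul, ← map_smul, smul_eq_mul, mul_one]
    rw [hx, hy (x 1), mul_comm]) Φ.toRingHom
  have h2 := LinearMap.congr_fun h1 (1 : R)
  exact one_ne_zero h2

end Trivial

end Fermat.Agent.H11N
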