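import Fermat.Agent.H11N.EigSub
import Fermat.Agent.H22.Support
import Fermat.Agent.H23.EigenChar
import Fermat.Agent.Descent.Input2

/-!
# A mod `p` eigenform occurs in `J₀(N)[p]`
-/

set_option autoImplicit false
set_option linter.style.haveILetI false
set_option linter.unusedSectionVars false
set_option maxSynthPendingDepth 3

noncomputable section

namespace Fermat.Agent.H11N

open ModularCurve CongruenceSubgroup
open ModularFormClass (qCoeff)

local notation "Qb" => AlgebraicClosure ℚ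

section Support

variable {N : ℕ} [NeZero N]

theorem exists_torsion_of_isMaximal {p : ℕ} (hp : p.Prime) {W A : Type*} [AddCommGroup W]
    [AddCommGroup A] (ρ : HeckeAlg →+* Module.End ℤ W) (f : ℤ →+ A)
    (hf : ∀ k, f k = 0 ↔ (p : ℤ) ∣ k)
    (Φ : W →+ (Additive (Gamma0 N) →+ A)) (hΦi : Function.Injective Φ)
    (hΦ : ∀ ℓ w, Φ (ρ (heckeGen ℓ) w) = H22.heckeOpL ℤ N A ℓ (Φ w))
    (hsurj : ∀ ψ ∈ Period.parabolicHoms ℤ (Gamma0 N) ℤ, ∃ w, Φ w = f.comp ψ)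
    (𝔪 : Ideal HeckeAlg) [h𝔪 : 𝔪.IsMaximal] (hp𝔪 : (p : HeckeAlg) ∈ 𝔪)
    (hker : RingHom.ker (CuspForm.heckeEvalForms N 2) ≤ 𝔪) :
    ∃ w : W, w ≠ 0 ∧ ∀ t ∈ 𝔪, ρ t w = 0 := by
  obtain ⟨ψ, hψ, ⟨γ, hγ⟩, hk⟩ := H22.exists_support (N := N) hp 𝔪 hp𝔪 hker
  obtain ⟨w, hw⟩ := hsurj ψ hψ.1
  refine ⟨w, ?_, fun t ht => ?_⟩
  · rintro rfl
    rw [map_zero] at hw
    exact hγ ((hf _).mp (DFunLike.congr_fun hw γ).symm)
  · apply hΦi
    rw [H22.intertwine_heckeAct ρ Φ hΦ, hw, H22.heckeAct_map (R := ℤ) (R' := ℤ), map_zero]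
    refine AddMonoidHom.ext fun γ => ?_
    exact (hf _).mpr (hk t ht γ)

end Support

variable {N : ℕ} [NeZero N]

/-- a maximal ideal of the Hecke algebra from a character to the algebraic integers -/
theorem isMaximal_comap {k : Type*} [Field k] {p : ℕ} [CharP k p] (hp : p.Prime)
    (χ : CuspForm.heckeAlgebra N 2 ∅ →+* k) :
    (RingHom.ker (χ.comp (CuspForm.heckeEvalForms N 2))).IsMaximal := by
  have hfin : Module.Finite ℤ (CuspForm.heckeAlgebra N 2 ∅) :=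
    Fermat.Agent.H16.moduleFinite_heckeAlgebra N 2 ∅
  have hint : Algebra.IsIntegral ℤ (CuspForm.heckeAlgebra N 2 ∅) := Algebra.IsIntegral.of_finite _ _
  haveI : (RingHom.ker χ).IsPrime := RingHom.ker_isPrime χ
  have h1 : (RingHom.ker χ).IsMaximal := by
    apply Ideal.isMaximal_of_isIntegral_of_isMaximal_comap (R := ℤ) (RingHom.ker χ)
    have h2 : Ideal.comap (algebraMap ℤ (CuspForm.heckeAlgebra N 2 ∅)) (RingHom.ker χ) =
        Ideal.span {(p : ℤ)} := by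
      ext z
      rw [Ideal.mem_comap, RingHom.mem_ker,
        eq_intCast (algebraMap ℤ (CuspForm.heckeAlgebra N 2 ∅)) z, map_intCast,
        Ideal.mem_span_singleton, CharP.intCast_eq_zero_iff k p]
    rw [h2]
    exact PrincipalIdealRing.isMaximal_of_irreducible (Nat.prime_iff_prime_int.mp hp).irreducible
  have h3 : RingHom.ker (χ.comp (CuspForm.heckeEvalForms N 2)) =
      (RingHom.ker χ).comap (CuspForm.heckeEvalForms N 2) := RingHom.comap_ker _ _ |>.symm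
  rw [h3]
  exact Ideal.comap_isMaximal_of_surjective _ H22.heckeEvalForms_surjective

/-- **A mod `p` eigenform occurs in `J₀(N)[p]`.** -/
theorem exists_mem_EigSub {p : ℕ} (hp : p.Prime) {D : ℕ} (hND : N ∣ D) (a : ℕ → ℤ)
    {f : CuspForm (Gamma0 N) 2} (hf : f.IsNormalizedEigenform)
    {𝔪 : Ideal (integralClosure ℤ ℂ)} (h𝔪 : 𝔪.IsMaximal)
    (hp𝔪 : (p : integralClosure ℤ ℂ) ∈ 𝔪)
    (ha : ∀ ℓ : ℕ, ℓ.Prime → ¬ ℓ ∣ D → ∃ b : integralClosure ℤ ℂ, (b : ℂ) = qCoeff f ℓ ∧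
      b - (a ℓ : integralClosure ℤ ℂ) ∈ 𝔪) :
    ∃ x ∈ EigSub N p D a, x ≠ 0 := by
  letI : Algebra Qb ℂ := (IsAlgClosed.lift : Qb →ₐ[ℚ] ℂ).toRingHom.toAlgebra
  letI : Field (integralClosure ℤ ℂ ⧸ 𝔪) := Ideal.Quotient.field 𝔪
  haveI : CharP (integralClosure ℤ ℂ ⧸ 𝔪) p := by
    haveI := Fact.mk hp
    refine (CharP.charP_iff_prime_eq_zero hp).2 ?_
    rw [← map_natCast (Ideal.Quotient.mk 𝔪), Ideal.Quotient.eq_zero_iff_mem]
    exact hp𝔪
  let χ : CuspForm.heckeAlgebra N 2 ∅ →+* (integralClosure ℤ ℂ ⧸ 𝔪) :=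
    (Ideal.Quotient.mk 𝔪).comp (H23.eigenChar hf ∅)
  haveI hmax := isMaximal_comap hp χ
  have hpm : p ≠ 0 := hp.ne_zero
  haveI : NeZero p := ⟨hpm⟩
  let ζ : ℂˣ := (Complex.isPrimitiveRoot_exp p hpm).isUnit hpm |>.unit
  have hζ : IsPrimitiveRoot ζ p := by
    have := Complex.isPrimitiveRoot_exp p hpm
    exact IsPrimitiveRoot.coe_units_iff.mp this
  obtain ⟨w, hw, hw'⟩ := exists_torsion_of_isMaximal (N := N) hp (H26.torAct N p)
    (H26.zetaHom ζ) (fun k => by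
      rw [← hζ.zpow_eq_one_iff_dvd k]
      exact Iff.rfl) (H26.kappa N p) H26.kappa_injective
    (fun ℓ w => by rw [H26.torAct_heckeGen, H26.kappa_heckeTor])
    (fun ψ hψ => H26.exists_kappa_eq (H26.surjC N hpm) hζ hψ)
    (RingHom.ker (χ.comp (CuspForm.heckeEvalForms N 2)))
    (by
      rw [RingHom.mem_ker, map_natCast, CharP.cast_eq_zero])
    (fun t ht => by
      rw [RingHom.mem_ker] at ht ⊢
      rw [RingHom.comp_apply, ht, map_zero])
  refine ⟨w, ⟨H26.tor_nsmul w, fun l hl => ?_⟩, fun h => hw (Subtype.ext h)⟩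
  have hlN : ¬ (l : ℕ) ∣ N := fun h => hl (h.trans hND)
  have h1 : heckeGen l - ((a l : ℤ) : HeckeAlg) ∈
      RingHom.ker (χ.comp (CuspForm.heckeEvalForms N 2)) := by
    obtain ⟨b, hb, hb'⟩ := ha l l.2 hl
    rw [RingHom.mem_ker, RingHom.comp_apply, map_sub, map_sub, map_intCast, map_intCast,
      CuspForm.heckeEvalForms_heckeGen_of_not_dvd hlN]
    have h2 : H23.eigenChar hf ∅ (CuspForm.heckeAlgebra.T l.2 hlN (Set.notMem_empty _)) = b := by
      apply Subtype.ext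
      rw [H23.coe_eigenChar_T, hb]
    have h3 : χ (CuspForm.heckeAlgebra.T l.2 hlN (Set.notMem_empty _)) =
        Ideal.Quotient.mk 𝔪 b := by rw [← h2]; rfl
    rw [h3, ← map_intCast (Ideal.Quotient.mk 𝔪), ← map_sub, Ideal.Quotient.eq_zero_iff_mem]
    exact hb'
  have h4 := hw' _ h1
  have h5 := congrArg (fun z : H26.Tor N p => (z : JZero N)) h4
  have h6 := coe_torAct_eq (N := N) (m := p) (heckeGen l - ((a l : ℤ) : HeckeAlg)) w
  have h7 : heckeJ N (heckeGen l - ((a l : ℤ) : HeckeAlg)) (w : JZero N) = 0 := by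
    rw [← h6]
    exact h5
  rw [map_sub, map_intCast, LinearMap.sub_apply, heckeJ_gen, sub_eq_zero] at h7
  exact h7

end Fermat.Agent.H11N
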