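import Fermat.Agent.H11N.NormRed
import Fermat.Agent.H12.HeckeStab2
import Fermat.Agent.H29.Inst

/-!
# Norms of `f(q^l)` in arbitrary characteristic, and their compatibility with the reduction
-/

set_option autoImplicit false
set_option linter.style.haveILetI false
set_option linter.unusedSectionVars false
set_option maxSynthPendingDepth 3

noncomputable section

attribute [-instance] HahnSeries.instModule HahnSeries.instSMul HahnSeries.instDistribMulAction
  HahnSeries.instSMulZeroClass

namespace Fermat.Agent.H11N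

open H29 in
attribute [local instance 10000] instLS instIF instIF2

open ModularCurve AlgebraicCurve Fermat.Agent.Igusa Fermat.Agent.Q

local notation "kk" => IsLocalRing.ResidueField

section Nm

variable {k F F' : Type*} [Field k] [Field F] [Field F'] [Algebra k F] [Algebra k F']
  (α β : F →ₐ[k] F')

/-- the norm along `α` of the pull-back along `β` -/
def nm (x : F) : F := H05.normAlong α (β x)

theorem nm_mul (x y : F) : nm α β (x * y) = nm α β x * nm α β y := by
  letI := algebraAlong α
  change Algebra.norm F (β (x * y)) = Algebra.norm F _ * Algebra.norm F _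
  rw [map_mul, map_mul]

theorem nm_one : nm α β 1 = 1 := by
  letI := algebraAlong α
  change Algebra.norm F (β 1) = 1
  rw [map_one, map_one]

theorem nm_pow (x : F) (n : ℕ) : nm α β (x ^ n) = nm α β x ^ n := by
  induction n with
  | zero => rw [pow_zero, pow_zero, nm_one]
  | succ n ih => rw [pow_succ, pow_succ, nm_mul, ih]

theorem nm_ne_zero (hfin : FiniteAlong k α) {x : F} (hx : x ≠ 0) : nm α β x ≠ 0 := by
  letI := algebraAlong α
  haveI : Module.Finite F F' := hfin
  haveI : Module.Free F F' := Module.Free.of_divisionRing F F'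
  change Algebra.norm F (β x) ≠ 0
  rw [Algebra.norm_ne_zero_iff]
  exact (map_ne_zero β).mpr hx

theorem nm_inv (hfin : FiniteAlong k α) (x : F) : nm α β x⁻¹ = (nm α β x)⁻¹ := by
  rcases eq_or_ne x 0 with rfl | hx
  · have h0 : nm α β 0 = 0 := by
      letI := algebraAlong α
      haveI : Module.Finite F F' := hfin
      haveI : Module.Free F F' := Module.Free.of_divisionRing F F'
      change Algebra.norm F (β 0) = 0
      rw [map_zero, Algebra.norm_zero]
    rw [inv_zero, h0, inv_zero]
  · apply eq_inv_of_mul_eq_one_left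
    rw [← nm_mul, inv_mul_cancel₀ hx, nm_one]

theorem nm_const (c : k) :
    nm α β (algebraMap k F c) = algebraMap k F (c ^ finrankAlong k α) := by
  letI := algebraAlong α
  haveI := isScalarTower_along α
  change Algebra.norm F (β (algebraMap k F c)) = _
  have h1 : β (algebraMap k F c) = algebraMap F F' (algebraMap k F c) := by
    rw [AlgHom.commutes]
    exact (α.commutes c).symm
  rw [h1, Algebra.norm_algebraMap, ← map_pow]
  rfl

end Nm

section Maps

variable (k : Type*) [Field k] (M l : ℕ) [NeZero M] [hl : Fact l.Prime]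

/-- the norm of `f(q^l)` -/
def nmC (x : modularFunctionFieldFullC k M) : modularFunctionFieldFullC k M :=
  nm (Q.incl k M l) (H12.betaC k M l) x

theorem nmC_mul (x y : modularFunctionFieldFullC k M) :
    nmC k M l (x * y) = nmC k M l x * nmC k M l y := nm_mul _ _ x y

theorem nmC_ne_zero {x : modularFunctionFieldFullC k M} (hx : x ≠ 0) : nmC k M l x ≠ 0 :=
  nm_ne_zero _ _ (H12.finite_alphaC k M l) hx

theorem nmC_one : nmC k M l 1 = 1 := nm_one _ _

theorem nmC_pow (x : modularFunctionFieldFullC k M) (n : ℕ) :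
    nmC k M l (x ^ n) = nmC k M l x ^ n := nm_pow _ _ x n

theorem nmC_inv (x : modularFunctionFieldFullC k M) : nmC k M l x⁻¹ = (nmC k M l x)⁻¹ :=
  nm_inv _ _ (H12.finite_alphaC k M l) x

theorem nmC_const (hk : ((M * l : ℕ) : k) ≠ 0) (hlM : ¬ l ∣ M) (c : k) :
    nmC k M l (algebraMap k _ c) = algebraMap k _ (c ^ (l + 1)) := by
  rw [nmC, nm_const, H12.finrank_alphaC k M l hk hlM]

/-- the divisor of the norm of `f(q^l)` -/
theorem nmC_div [IsAlgClosed k] (hk : ((M * l : ℕ) : k) ≠ 0)
    {u : modularFunctionFieldFullC k M} (hu : u ≠ 0)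
    (D : Divisor k (modularFunctionFieldFullC k M)) (hD : ∀ P, D P = P.ord u)
    (P : Place k (modularFunctionFieldFullC k M)) :
    Divisor.correspondence (H12.betaC k M l) (Q.incl k M l) (H12.integral_betaC k M l)
      (H12.integral_alphaC k M l) D P = P.ord (nmC k M l u) :=
  H12.corr_eq_ord _ _ _ _ (H12.finite_alphaC k M l)
    (H12.normFormulaAlong_of_sep _ _ (H12.separable_alphaC k M l hk))
    ((map_ne_zero_iff _ (H12.betaC k M l).toRingHom.injective).mpr hu) hD P

end Maps

section RedAlong

variable {K : Type*} [Field K] {A : ValuationSubring K} [CharZero K]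
  {E F : Type*} [Field E] [Field F] [Algebra K E] [Algebra K F]
  {k' κE κF : Type*} [Field k'] [Field κE] [Field κF] [Algebra k' κE] [Algebra k' κF]

/-- `norm_red_core` along embeddings -/
theorem norm_red_along {n : ℕ} [Nonempty (Fin n)] (α : E →ₐ[K] F) (α' : κE →ₐ[k'] κF)
    (jE : E → LaurentSeries K) (jF : F →+* LaurentSeries K) (hj : ∀ e, jF (α e) = jE e)
    (jκE : κE → LaurentSeries (kk A)) (jκ : κF →+* LaurentSeries (kk A))
    (hjκ : ∀ e, jκ (α' e) = jκE e)
    (hS : ∀ (c : K) (e : E), ∃ e' : E, jE e' = HahnSeries.C c * jE e)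
    (hatt : ∀ e : E, e ≠ 0 → ∃ c : K, c ≠ 0 ∧ ∃ u, u ≠ 0 ∧ Red A (HahnSeries.C c * jE e) u)
    (hκ₀ : ∀ (e : E) (u : LaurentSeries (kk A)), Red A (jE e) u → ∃ w : κE, jκE w = u)
    (hκ₁ : ∀ (x : F) (u : LaurentSeries (kk A)), Red A (jF x) u → ∃ w : κF, jκ w = u)
    (hfin : finrankAlong K α = n) (hfin' : finrankAlong k' α' = n)
    (hlift : ∀ v : κF, ∃ z : F, Red A (jF z) (jκ v))
    {z : F} {u : κF} (hzu : Red A (jF z) (jκ u)) :
    Red A (jE (H05.normAlong α z)) (jκE (H05.normAlong α' u)) := by
  letI := algebraAlong α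
  letI := algebraAlong α'
  have hfin'' : Module.finrank κE κF = n := hfin'
  haveI : Module.Finite κE κF := FiniteDimensional.of_finrank_pos (by
    rw [hfin'']
    exact Fin.pos_iff_nonempty.2 inferInstance)
  let b := Module.finBasisOfFinrankEq κE κF hfin''
  choose θ hθ using fun i => hlift (b i)
  have h := norm_red_core (E := E) (F := F) (κE := κE) (κF := κF) (A := A) (n := n) jF jκ
    (fun c e => by
      obtain ⟨e', he'⟩ := hS c e
      refine ⟨e', ?_⟩
      change jF (α e') = HahnSeries.C c * jF (α e)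
      rw [hj, hj, he'])
    (fun e he => by
      obtain ⟨c, hc, u, hu, hr⟩ := hatt e he
      refine ⟨c, hc, u, hu, ?_⟩
      change Red A (HahnSeries.C c * jF (α e)) u
      rwa [hj])
    (fun e u hu => by
      have hu' : Red A (jF (α e)) u := hu
      rw [hj] at hu'
      obtain ⟨w, hw⟩ := hκ₀ e u hu'
      refine ⟨w, ?_⟩
      change jκ (α' w) = u
      rw [hjκ, hw])
    hκ₁ hfin hfin' θ b hθ b.linearIndependent hzu
  have h' : Red A (jF (α (H05.normAlong α z))) (jκ (α' (H05.normAlong α' u))) := h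
  rwa [hj, hjκ] at h'

end RedAlong

section Red

variable {K : Type*} [Field K] {A : ValuationSubring K} [CharZero K] [Algebra ℚ K]
  [Algebra.IsAlgebraic ℚ K] {l : ℕ} [hl : Fact l.Prime]

theorem mem_laurent_iff {N : ℕ} [NeZero N] {y : LaurentSeries K} :
    y ∈ laurentBaseChange K (modularFunctionFieldFull N) ↔
      y ∈ modularFunctionFieldFullC K N := by
  rw [H05.laurentBaseChange_full]

theorem exists_scale_lbc {r : ℕ} (hr : r.Prime) (hA : A.LiesOverPrime r) (N : ℕ) [NeZero N]
    (e : laurentBaseChange K (modularFunctionFieldFull N)) (he : e ≠ 0) :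
    ∃ c : K, c ≠ 0 ∧ ∃ u : LaurentSeries (kk A), u ≠ 0 ∧
      Red A (HahnSeries.C c * (e : LaurentSeries K)) u :=
  exists_red hr hA (full_le_FL N (mem_laurent_iff.1 e.2)) (fun h => he (Subtype.ext h))

theorem exists_C_mul (N : ℕ) [NeZero N] (c : K)
    (e : laurentBaseChange K (modularFunctionFieldFull N)) :
    ∃ e' : laurentBaseChange K (modularFunctionFieldFull N),
      (e' : LaurentSeries K) = HahnSeries.C c * (e : LaurentSeries K) := by
  refine ⟨algebraMap K _ c * e, ?_⟩
  change algebraMap K (LaurentSeries K) c * (e : LaurentSeries K) =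
    HahnSeries.C c * (e : LaurentSeries K)
  rw [algebraMap_eq_C]

theorem exists_lift_lbc (N M : ℕ) [NeZero N] [NeZero M] (hMN : M ∣ N)
    (v : modularFunctionFieldFullC (kk A) M) :
    ∃ z : laurentBaseChange K (modularFunctionFieldFull N),
      Red A (z : LaurentSeries K) (v : LaurentSeries (kk A)) := by
  obtain ⟨z, hz, hzr⟩ := exists_lift (A := A) (K := K) M v.2
  have hz' : z ∈ modularFunctionFieldFullC K N := full_degeneracyC_le K hMN hz
  exact ⟨⟨z, mem_laurent_iff.2 hz'⟩, hzr⟩

/-- **Reduction of norms along the first degeneracy map.** -/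
theorem norm_incl_red {r : ℕ} (hr : r.Prime) (hA : A.LiesOverPrime r) (N M : ℕ) [NeZero N]
    [NeZero M]
    (hκ₀ : ∀ x ∈ modularFunctionFieldFullC K N, ∀ u, Red A x u →
      u ∈ modularFunctionFieldFullC (kk A) M)
    (hκ₁ : ∀ x ∈ modularFunctionFieldFullC K (N * l), ∀ u, Red A x u →
      u ∈ modularFunctionFieldFullC (kk A) (M * l))
    (hMN : M ∣ N) (hlN : ¬ l ∣ N) (hk : ((M * l : ℕ) : kk A) ≠ 0)
    (x : laurentBaseChange K (modularFunctionFieldFull (N * l)))
    (u : modularFunctionFieldFullC (kk A) (M * l))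
    (hxu : Red A (x : LaurentSeries K) (u : LaurentSeries (kk A))) :
    Red A ((H05.normAlong (heckeAlphaBar K N l) x :
        laurentBaseChange K (modularFunctionFieldFull N)) : LaurentSeries K)
      ((H05.normAlong (Q.incl (kk A) M l) u : modularFunctionFieldFullC (kk A) M) :
        LaurentSeries (kk A)) := by
  have hlM : ¬ l ∣ M := fun h => hlN (h.trans hMN)
  exact norm_red_along (heckeAlphaBar K N l) (Q.incl (kk A) M l)
    (fun e => (e : LaurentSeries K))
    (laurentBaseChange K (modularFunctionFieldFull (N * l))).val.toRingHom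
    (coe_heckeAlphaBar N l)
    (fun e => (e : LaurentSeries (kk A)))
    (modularFunctionFieldFullC (kk A) (M * l)).val.toRingHom
    (Q.coe_incl (kk A) M l)
    (exists_C_mul N) (exists_scale_lbc hr hA N)
    (fun e u hu => ⟨⟨u, hκ₀ _ (mem_laurent_iff.1 e.2) u hu⟩, rfl⟩)
    (fun y u hu => ⟨⟨u, hκ₁ _ (mem_laurent_iff.1 y.2) u hu⟩, rfl⟩)
    (finrank_alpha K N l hlN) (H12.finrank_alphaC (kk A) M l hk hlM)
    (exists_lift_lbc (N * l) (M * l) (Nat.mul_dvd_mul_right hMN l)) hxu

/-- **Reduction of the norm of `f(q^l)`.** -/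
theorem norm_hecke_red {r : ℕ} (hr : r.Prime) (hA : A.LiesOverPrime r) (N M : ℕ) [NeZero N]
    [NeZero M]
    (hκ₀ : ∀ x ∈ modularFunctionFieldFullC K N, ∀ u, Red A x u →
      u ∈ modularFunctionFieldFullC (kk A) M)
    (hκ₁ : ∀ x ∈ modularFunctionFieldFullC K (N * l), ∀ u, Red A x u →
      u ∈ modularFunctionFieldFullC (kk A) (M * l))
    (hMN : M ∣ N) (hlN : ¬ l ∣ N) (hk : ((M * l : ℕ) : kk A) ≠ 0)
    (x : laurentBaseChange K (modularFunctionFieldFull N))
    (u : modularFunctionFieldFullC (kk A) M)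
    (hxu : Red A (x : LaurentSeries K) (u : LaurentSeries (kk A))) :
    Red A ((H05.normAlong (heckeAlphaBar K N l) (heckeBetaBar K N l x) :
        laurentBaseChange K (modularFunctionFieldFull N)) : LaurentSeries K)
      ((nmC (kk A) M l u : modularFunctionFieldFullC (kk A) M) : LaurentSeries (kk A)) := by
  refine norm_incl_red hr hA N M hκ₀ hκ₁ hMN hlN hk (heckeBetaBar K N l x)
    (H12.betaC (kk A) M l u) ?_
  rw [coe_heckeBetaBar, H12.coe_betaC]
  exact hxu.qExpand l

end Red

end Fermat.Agent.H11N
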