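import Fermat.Agent.H11N.Over

/-!
# Compatibility of correspondences with reduction
-/

set_option autoImplicit false
set_option linter.style.haveILetI false
set_option linter.unusedSectionVars false

noncomputable section

namespace Fermat.Agent.H11N

open Module IsLocalRing IsDedekindDomain AlgebraicCurve Fermat.Agent.H28

variable {L : Type*} [Field L] [IsAlgClosed L] {A : ValuationSubring L} {F Fb : Type*}
  [Field F] [Field Fb] [Algebra L F] [Algebra (ResidueField A) Fb]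
  {D : RedData A F Fb}

section Basic

variable (C : TwoCharts D)

theorem goodPl_of {P : Place L F} (h : InChart (CR L (C.t₁ : F)) P)
    (hg : C.h₁.sys.Good (ctr (CR L (C.t₁ : F)) P)) : C.GoodPl P := by
  refine ⟨(inChart_iff P).1 h, ?_⟩
  obtain ⟨c, hc⟩ := (isRat_ctr C.rat₁ h).2 (tO L (C.t₁ : F))
  exact ⟨c, hg _ (intOver_self _) c hc, (sub_mem_ctr_iff h (tO L (C.t₁ : F)) c).1 hc⟩

theorem bar_eq_top_of_bad {P : Place L F} (h : ¬ C.GoodPl P) :
    C.h₁.sys.bar (ctr (CR L (C.t₁ : F)) P) = ⊤ := by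
  rcases bar_ctr_cases C.h₁.sys C.rat₁ P with h' | ⟨w, -, h1, h2⟩
  · exact h'
  · exact absurd (goodPl_of C h1 h2) h

theorem exists_prime_of_good {P : Place L F} (h : C.GoodPl P) :
    ∃ w : C.V₁, C.h₁.sys.bar (ctr (CR L (C.t₁ : F)) P) = w.asIdeal := by
  rcases bar_ctr_cases C.h₁.sys C.rat₁ P with h' | ⟨w, h', -⟩
  · exfalso
    have h1 := C.h₁.sys.isRat_bar (isRat_ctr C.rat₁ (TwoCharts.GoodPl.inChart C h))
      (TwoCharts.GoodPl.good C h)
    exact h1.1 h'
  · exact ⟨w, h'⟩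

theorem mu_bad {P : Place L F} (h : ¬ C.GoodPl P) (v : C.V₁) :
    C.h₁.sys.mu v (ctr (CR L (C.t₁ : F)) P) = 0 := by
  rw [RedSys.mu, bar_eq_top_of_bad C h, mlt_top]

theorem theta_nonneg (v : C.V₁) {E : Divisor L F} (hE : ∀ P, C.GoodPl P → 0 ≤ E P) :
    0 ≤ C.h₁.sys.theta L F v E := by
  rw [C.h₁.sys.theta_apply, Finsupp.sum]
  refine Finset.sum_nonneg fun P _ => ?_
  by_cases h : C.GoodPl P
  · exact mul_nonneg (hE P h) (Int.natCast_nonneg _)
  · rw [mu_bad C h, Nat.cast_zero, mul_zero]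

theorem theta_eq_zero (v : C.V₁) {E : Divisor L F} (hE : ∀ P, C.GoodPl P → E P = 0) :
    C.h₁.sys.theta L F v E = 0 := by
  rw [C.h₁.sys.theta_apply, Finsupp.sum]
  refine Finset.sum_eq_zero fun P _ => ?_
  by_cases h : C.GoodPl P
  · rw [hE P h, zero_mul]
  · rw [mu_bad C h, Nat.cast_zero, mul_zero]

theorem exists_of_theta_ne_zero {v : C.V₁} {E : Divisor L F}
    (hE : C.h₁.sys.theta L F v E ≠ 0) : ∃ P, C.GoodPl P ∧ E P ≠ 0 ∧
      C.h₁.sys.bar (ctr (CR L (C.t₁ : F)) P) = v.asIdeal := by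
  rw [C.h₁.sys.theta_apply, Finsupp.sum] at hE
  obtain ⟨P, -, hP⟩ := Finset.exists_ne_zero_of_sum_ne_zero hE
  have h1 : C.h₁.sys.mu v (ctr (CR L (C.t₁ : F)) P) ≠ 0 := by
    intro h0
    apply hP
    rw [h0, Nat.cast_zero, mul_zero]
  have hg : C.GoodPl P := by
    by_contra hg
    exact h1 (mu_bad C hg v)
  refine ⟨P, hg, left_ne_zero_of_mul hP, ?_⟩
  obtain ⟨w, hw⟩ := exists_prime_of_good C hg
  rw [RedSys.mu, mlt_bar_ctr C.h₁.sys hw] at h1
  have : v = w := by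
    by_contra hne
    rw [if_neg hne] at h1
    exact h1 rfl
  rw [hw, this]

/-- lifting functions without zeros and poles at the cusps of the special fibre -/
theorem exists_lift_gdiv {g : Fb} (hg : g ≠ 0)
    (hcusp : ∀ v : C.V₂, C.tb₂ ∈ v.asIdeal → ordv Fb v g = 0) :
    ∃ a b : D.Z, D.ρ a ≠ 0 ∧ D.ρ b ≠ 0 ∧ g = D.ρ a * (D.ρ b)⁻¹ ∧
      ∀ P, ¬ C.GoodPl P → P.ord (a : F) = 0 ∧ P.ord (b : F) = 0 := by
  classical
  -- the ideal of denominators
  let I : Ideal (CR (ResidueField A) (D.ρ C.t₂)) :=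
    { carrier := {b | (b : Fb) * g ∈ CR (ResidueField A) (D.ρ C.t₂)}
      add_mem' := fun {x y} hx hy => by
        change ((x : Fb) + (y : Fb)) * g ∈ CR (ResidueField A) (D.ρ C.t₂)
        rw [add_mul]
        exact add_mem hx hy
      zero_mem' := by
        change (0 : Fb) * g ∈ CR (ResidueField A) (D.ρ C.t₂)
        rw [zero_mul]
        exact zero_mem _
      smul_mem' := fun c x hx => by
        change ((c : Fb) * (x : Fb)) * g ∈ CR (ResidueField A) (D.ρ C.t₂)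
        rw [mul_assoc]
        exact mul_mem c.2 hx }
  have hfin : {v : C.V₂ | C.tb₂ ∈ v.asIdeal}.Finite := by
    have h1 := Ideal.finite_factors (I := Ideal.span {C.tb₂}) (span_ne_bot C.tb₂_ne_zero)
    refine h1.subset fun v hv => ?_
    change v.asIdeal ∣ Ideal.span {C.tb₂}
    rw [Ideal.dvd_span_singleton]
    exact hv
  have hI0 : I ≠ ⊥ := by
    obtain ⟨x, y, hy, hxy⟩ :=
      IsFractionRing.div_surjective (A := CR (ResidueField A) (D.ρ C.t₂)) g
    have hy0 : y ≠ 0 := nonZeroDivisors.ne_zero hy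
    have hyF : algebraMap (CR (ResidueField A) (D.ρ C.t₂)) Fb y ≠ 0 := by simpa using hy0
    intro h
    apply hy0
    rw [← Ideal.mem_bot, ← h]
    change algebraMap (CR (ResidueField A) (D.ρ C.t₂)) Fb y * g ∈ CR (ResidueField A) (D.ρ C.t₂)
    rw [← hxy, mul_div_cancel₀ _ hyF]
    exact x.2
  obtain ⟨b, hbI, hb0, hb⟩ : ∃ b ∈ I, b ≠ 0 ∧
      ∀ v : C.V₂, C.tb₂ ∈ v.asIdeal → b ∉ v.asIdeal := by
    by_contra hcon
    push Not at hcon
    let s : Finset (Ideal (CR (ResidueField A) (D.ρ C.t₂))) :=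
      insert ⊥ (hfin.toFinset.image fun v => v.asIdeal)
    have hsub : (I : Set (CR (ResidueField A) (D.ρ C.t₂))) ⊆
        ⋃ i ∈ (↑s : Set (Ideal (CR (ResidueField A) (D.ρ C.t₂)))), ((id i : Ideal _) : Set _) := by
      intro b hb
      rw [Set.mem_iUnion₂]
      by_cases hb0 : b = 0
      · exact ⟨⊥, Finset.mem_insert_self _ _, by rw [hb0]; exact zero_mem _⟩
      · obtain ⟨v, hv, hbv⟩ := hcon b hb hb0
        exact ⟨v.asIdeal, Finset.mem_insert_of_mem
          (Finset.mem_image_of_mem _ (hfin.mem_toFinset.2 hv)), hbv⟩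
    rw [Ideal.subset_union_prime ⊥ ⊥] at hsub
    · obtain ⟨i, hi, hle⟩ := hsub
      rw [id] at hle
      rcases Finset.mem_insert.1 hi with rfl | hi
      · exact hI0 (le_bot_iff.1 hle)
      · obtain ⟨v, hv, rfl⟩ := Finset.mem_image.1 hi
        have hv' : C.tb₂ ∈ v.asIdeal := hfin.mem_toFinset.1 hv
        have h3 : v.valuation Fb g ≤ 1 := by
          rw [valuation_le_one_iff_ordv v hg, hcusp v hv']
        obtain ⟨x, y, hxy⟩ := v.exists_primeCompl_mul_eq_of_integer g h3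
        refine y.2 (hle ?_)
        change ((y : CR (ResidueField A) (D.ρ C.t₂)) : Fb) * g ∈ CR (ResidueField A) (D.ρ C.t₂)
        rw [mul_comm]
        have : g * algebraMap (CR (ResidueField A) (D.ρ C.t₂)) Fb y ∈
            CR (ResidueField A) (D.ρ C.t₂) := by
          rw [hxy]; exact x.2
        exact this
    · intro i hi hne _
      rcases Finset.mem_insert.1 hi with h | h
      · exact absurd h hne
      · obtain ⟨w, -, rfl⟩ := Finset.mem_image.1 h
        exact w.isPrime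
  -- the numerator
  have hbF : (b : Fb) ≠ 0 := fun h => hb0 (Subtype.ext h)
  set a : CR (ResidueField A) (D.ρ C.t₂) := ⟨(b : Fb) * g, hbI⟩ with ha
  have haF : (a : Fb) ≠ 0 := mul_ne_zero hbF hg
  have ha0 : a ≠ 0 := fun h => haF (congrArg Subtype.val h)
  have key : ∀ (c : CR (ResidueField A) (D.ρ C.t₂)) (x : C.h₂.sys.R), c ≠ 0 →
      C.h₂.sys.ρ x = c → (∀ v : C.V₂, C.tb₂ ∈ v.asIdeal → ordv Fb v (c : Fb) = 0) →
      ∀ P, ¬ C.GoodPl P → P.ord (C.h₂.toZ x : F) = 0 := by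
    intro c x hc hx hv P hP
    have hx0 : (x : CR L (C.t₂ : F)) ≠ 0 := by
      intro h
      apply hc
      rw [← hx]
      have : x = 0 := Subtype.ext h
      rw [this, map_zero]
    have hT : TVal (A := A) (tO L (C.t₂ : F)) P := by
      by_contra hT
      exact hP (C.good_of_not_tVal hT)
    obtain ⟨hch, c', hc', hcm⟩ := hT
    have hnn : 0 ≤ P.ord (algebraMap (CR L (C.t₂ : F)) F x) := by
      rw [ord_eq_mlt hch hx0]
      exact Int.natCast_nonneg _
    change P.ord (algebraMap (CR L (C.t₂ : F)) F x) = 0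
    by_contra hne
    have h1 : (x : CR L (C.t₂ : F)) ∈ ctr (CR L (C.t₂ : F)) P := by
      rw [mem_ctr hch hx0]
      omega
    have hgood : C.h₂.sys.Good (ctr (CR L (C.t₂ : F)) P) :=
      (C.h₂.good_iff (isRat_ctr C.rat₂ hch) hcm).mpr c'.2
    have hrat := C.h₂.sys.isRat_bar (isRat_ctr C.rat₂ hch) hgood
    let v : C.V₂ := ⟨C.h₂.sys.bar (ctr (CR L (C.t₂ : F)) P), hrat.isMaximal.isPrime,
      C.h₂.sys.bar_ne_bot (ctr_ne_bot P)⟩
    have hvt : C.tb₂ ∈ v.asIdeal := by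
      rw [← C.sys_ρ_tR₂]
      exact C.h₂.sys.rho_mem_bar_of_tVal (t := C.tR₂) ⟨hch, c', hc', hcm⟩
    have h2 : c ∈ v.asIdeal := by
      rw [← hx]
      exact C.h₂.sys.ρ_mem_bar h1
    have h3 := hv v hvt
    have h4 : ordv Fb v (algebraMap (CR (ResidueField A) (D.ρ C.t₂)) Fb c) = 0 := h3
    rw [ordv_algebraMap v hc] at h4
    have h5 := (one_le_mlt_iff v (span_ne_bot hc)).2 ((Ideal.span_singleton_le_iff_mem _).2 h2)
    omega
  have hbv : ∀ v : C.V₂, C.tb₂ ∈ v.asIdeal → ordv Fb v (b : Fb) = 0 := by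
    intro v hv
    change ordv Fb v (algebraMap (CR (ResidueField A) (D.ρ C.t₂)) Fb b) = 0
    rw [ordv_algebraMap v hb0]
    have : ¬ 1 ≤ mlt v (Ideal.span {b}) := by
      rw [one_le_mlt_iff v (span_ne_bot hb0), Ideal.span_singleton_le_iff_mem]
      exact hb v hv
    have h0 : mlt v (Ideal.span {b}) = 0 := by omega
    rw [h0]; rfl
  have hav : ∀ v : C.V₂, C.tb₂ ∈ v.asIdeal → ordv Fb v (a : Fb) = 0 := by
    intro v hv
    change ordv Fb v ((b : Fb) * g) = 0
    rw [ordv_mul v hbF hg, hbv v hv, hcusp v hv, add_zero]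
  obtain ⟨x, hx⟩ := C.h₂.sys.surj a
  obtain ⟨y, hy⟩ := C.h₂.sys.surj b
  have hxρ : D.ρ (C.h₂.toZ x) = (a : Fb) := by rw [← C.h₂.coe_sys_ρ, hx]
  have hyρ : D.ρ (C.h₂.toZ y) = (b : Fb) := by rw [← C.h₂.coe_sys_ρ, hy]
  refine ⟨C.h₂.toZ x, C.h₂.toZ y, by rw [hxρ]; exact haF, by rw [hyρ]; exact hbF, ?_,
    fun P hP => ⟨key a x ha0 hx hav P hP, key b y hb0 hy hbv P hP⟩⟩
  rw [hxρ, hyρ]
  change g = (b : Fb) * g * (b : Fb)⁻¹
  rw [mul_comm (b : Fb) g, mul_assoc, mul_inv_cancel₀ hbF, mul_one]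

end Basic

/-- compatibility of a correspondence `T` and of its norm map `N` with reduction; `R` is the
norm relation on the special fibre -/
structure HeckeRed (C : TwoCharts D) (T : Divisor L F →+ Divisor L F) (N : F → F)
    (R : Fb → Fb → Prop) : Prop where
  nonneg : ∀ P Q, 0 ≤ T (Finsupp.single P 1) Q
  good : ∀ P, C.GoodPl P → T (Finsupp.single P 1) ∈ C.GDiv
  bad : ∀ P Q, ¬ C.GoodPl P → C.GoodPl Q → T (Finsupp.single P 1) Q = 0
  div : ∀ (f : F) (E : Divisor L F), f ≠ 0 → (∀ P, E P = P.ord f) → ∀ Q, T E Q = Q.ord (N f)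
  N_mul : ∀ f g, N (f * g) = N f * N g
  N_ne : ∀ f, f ≠ 0 → N f ≠ 0
  int : ∀ a : D.Z, D.ρ a ≠ 0 → ∃ b : D.Z, (b : F) = N a ∧ D.ρ b ≠ 0 ∧ R (D.ρ a) (D.ρ b)
  R_unique : ∀ g g' g'', R g g' → R g g'' → g' = g''
  R_div : ∀ g g' h h', g ≠ 0 → h ≠ 0 → R g g' → R h h' → R (g * h⁻¹) (g' * h'⁻¹)
  fin : ∀ v : C.V₁, ∃ s : Finset C.V₁, ∀ P (w : C.V₁),
    C.h₁.sys.bar (ctr (CR L (C.t₁ : F)) P) = w.asIdeal →
    C.h₁.sys.theta L F v (T (Finsupp.single P 1)) ≠ 0 → w ∈ s

namespace HeckeRed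

variable {C : TwoCharts D} {T : Divisor L F →+ Divisor L F} {N : F → F} {R : Fb → Fb → Prop}
  (H : HeckeRed C T N R)

include H

theorem theta_T_nonneg (v : C.V₁) (P : Place L F) :
    0 ≤ C.h₁.sys.theta L F v (T (Finsupp.single P 1)) :=
  theta_nonneg C v fun Q _ => H.nonneg P Q

theorem theta_T_bad (v : C.V₁) {P : Place L F} (hP : ¬ C.GoodPl P) :
    C.h₁.sys.theta L F v (T (Finsupp.single P 1)) = 0 :=
  theta_eq_zero C v fun Q hQ => H.bad P Q hP hQ

/-- the value on the divisor of a function -/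
theorem theta_T_div (v : C.V₁) {a : D.Z} (ha : D.ρ a ≠ 0) {b : D.Z} (hb : (b : F) = N a)
    (hb0 : D.ρ b ≠ 0) {E : Divisor L F} (hE : ∀ P, E P = P.ord (a : F)) :
    C.h₁.sys.theta L F v (T E) = ordv Fb v (D.ρ b) := by
  have ha0 : (a : F) ≠ 0 := by
    intro h0
    apply ha
    have : a = 0 := Subtype.ext h0
    rw [this, map_zero]
  have h1 : ∀ P, T E P = P.ord (b : F) := by
    intro P
    rw [hb]
    exact H.div _ E ha0 hE P
  have h2 := (C.redTo_div h1 one_ne_zero hb0 (b := 1) (by rw [map_one]; exact one_ne_zero)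
    (by rw [map_one, one_mul]; exact mul_one _)).1 v
  rw [h2, map_one, inv_one, mul_one]

variable [HasPrincipalDivisors L F]

theorem theta_T_le (v : C.V₁) {P : Place L F} (hP : C.GoodPl P)
    {a : C.h₁.sys.R} (ha : C.h₁.sys.ρ a ≠ 0)
    (haP : (a : CR L (C.t₁ : F)) ∈ ctr (CR L (C.t₁ : F)) P) {b : D.Z}
    (hb : (b : F) = N (C.h₁.toZ a)) (hb0 : D.ρ b ≠ 0) :
    C.h₁.sys.theta L F v (T (Finsupp.single P 1)) ≤ ordv Fb v (D.ρ b) ∧
    ((∀ Q, C.GoodPl Q → (∀ w : C.V₁, C.h₁.sys.bar (ctr (CR L (C.t₁ : F)) Q) = w.asIdeal →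
      C.h₁.sys.theta L F v (T (Finsupp.single Q 1)) ≠ 0 →
      (w.asIdeal ≠ C.h₁.sys.bar (ctr (CR L (C.t₁ : F)) P) → C.h₁.sys.ρ a ∉ w.asIdeal) ∧
      (w.asIdeal = C.h₁.sys.bar (ctr (CR L (C.t₁ : F)) P) →
        mlt w (Ideal.span {C.h₁.sys.ρ a}) = 1))) →
      C.h₁.sys.theta L F v (T (Finsupp.single P 1)) = ordv Fb v (D.ρ b)) := by
  have ha' := C.h₁.ρ_toZ_ne ha
  have hne : (C.h₁.toZ a : F) ≠ 0 := by
    intro h0
    apply ha'
    have : C.h₁.toZ a = 0 := Subtype.ext h0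
    rw [this, map_zero]
  have ha0 : (a : CR L (C.t₁ : F)) ≠ 0 := fun h => hne (congrArg Subtype.val h)
  obtain ⟨E, hE, -⟩ := HasPrincipalDivisors.exists_divisor (K := L) (C.h₁.toZ a : F) hne
  have h1 := H.theta_T_div v ha' hb hb0 hE
  set E' := E - Finsupp.single P 1 with hE'
  have hsplit : E = Finsupp.single P 1 + E' := by rw [hE']; abel
  rw [hsplit, map_add, map_add] at h1
  have hchP := TwoCharts.GoodPl.inChart C hP
  -- `E'` is effective on the chart
  have heff : ∀ Q, C.GoodPl Q → 0 ≤ E' Q := by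
    intro Q hQ
    have hchQ := TwoCharts.GoodPl.inChart C hQ
    have h2 : E Q = P.ord (C.h₁.toZ a : F) - P.ord (C.h₁.toZ a : F) + Q.ord (C.h₁.toZ a : F) := by
      rw [hE Q]; ring
    have h3 : 0 ≤ Q.ord (algebraMap (CR L (C.t₁ : F)) F a) := by
      rw [ord_eq_mlt hchQ ha0]
      exact Int.natCast_nonneg _
    have h4 : Q.ord (C.h₁.toZ a : F) = Q.ord (algebraMap (CR L (C.t₁ : F)) F a) := rfl
    rw [hE', Finsupp.sub_apply, hE Q, h4]
    by_cases hPQ : P = Q
    · subst hPQ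
      rw [Finsupp.single_eq_same]
      have := (mem_ctr hchP ha0).1 haP
      omega
    · rw [Finsupp.single_eq_of_ne (Ne.symm hPQ)]
      omega
  have hsum : C.h₁.sys.theta L F v (T E') = E'.sum fun Q n =>
      n * C.h₁.sys.theta L F v (T (Finsupp.single Q 1)) :=
    hom_eq_sum ((C.h₁.sys.theta L F v).comp T) E'
  have hterm : ∀ Q, 0 ≤ E' Q * C.h₁.sys.theta L F v (T (Finsupp.single Q 1)) := by
    intro Q
    by_cases hQ : C.GoodPl Q
    · exact mul_nonneg (heff Q hQ) (H.theta_T_nonneg v Q)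
    · rw [H.theta_T_bad v hQ, mul_zero]
  have h5 : 0 ≤ C.h₁.sys.theta L F v (T E') := by
    rw [hsum, Finsupp.sum]
    exact Finset.sum_nonneg fun Q _ => hterm Q
  refine ⟨by omega, fun hav => ?_⟩
  have h6 : C.h₁.sys.theta L F v (T E') = 0 := by
    rw [hsum, Finsupp.sum]
    refine Finset.sum_eq_zero fun Q hQm => ?_
    by_cases hQ : C.GoodPl Q
    · by_contra hne0
      have hθ : C.h₁.sys.theta L F v (T (Finsupp.single Q 1)) ≠ 0 := right_ne_zero_of_mul hne0
      have hEQ : 0 < E' Q := lt_of_le_of_ne (heff Q hQ) (left_ne_zero_of_mul hne0).symm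
      obtain ⟨w, hw⟩ := exists_prime_of_good C hQ
      obtain ⟨h7, h8⟩ := hav Q hQ w hw hθ
      have hchQ := TwoCharts.GoodPl.inChart C hQ
      have haQ : (a : CR L (C.t₁ : F)) ∈ ctr (CR L (C.t₁ : F)) Q := by
        rw [mem_ctr hchQ ha0]
        have h9 : E Q = Q.ord (algebraMap (CR L (C.t₁ : F)) F a) := hE Q
        rw [← h9, hsplit, Finsupp.add_apply]
        by_cases hPQ : P = Q
        · subst hPQ
          rw [Finsupp.single_eq_same]; omega
        · rw [Finsupp.single_eq_of_ne (Ne.symm hPQ)]; omega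
      have haw : C.h₁.sys.ρ a ∈ w.asIdeal := by
        rw [← hw]
        exact C.h₁.sys.ρ_mem_bar haQ
      by_cases hwP : w.asIdeal = C.h₁.sys.bar (ctr (CR L (C.t₁ : F)) P)
      · have h10 := h8 hwP
        -- multiplicity at least two
        have h11 := (C.redTo_div (f := (C.h₁.toZ a : F)) hE one_ne_zero ha' (b := 1)
          (by rw [map_one]; exact one_ne_zero)
          (by rw [map_one, one_mul]; exact mul_one _)).1 w
        rw [map_one, inv_one, mul_one, ← C.ordv_sys₁ w ha, h10, hsplit, map_add,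
          C.h₁.sys.theta_single, RedSys.mu, ← hwP, mlt_self] at h11
        have h12 : C.h₁.sys.theta L F w E' = 0 := by push_cast at h11; omega
        have h13 : 1 ≤ C.h₁.sys.theta L F w E' := by
          rw [C.h₁.sys.theta_apply, Finsupp.sum]
          have h14 : ∀ Q' ∈ E'.support, 0 ≤ E' Q' *
              (C.h₁.sys.mu w (ctr (CR L (C.t₁ : F)) Q') : ℤ) := by
            intro Q' _
            by_cases hQ' : C.GoodPl Q'
            · exact mul_nonneg (heff Q' hQ') (Int.natCast_nonneg _)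
            · rw [mu_bad C hQ', Nat.cast_zero, mul_zero]
          refine le_trans ?_ (Finset.single_le_sum h14 hQm)
          rw [RedSys.mu, hw, mlt_self, Nat.cast_one, mul_one]
          omega
        omega
      · exact h7 hwP haw
    · rw [H.theta_T_bad v hQ, mul_zero]
  rw [h6, add_zero] at h1
  exact h1

theorem theta_T_congr (v : C.V₁) {P P' : Place L F} (hP : C.GoodPl P) (hP' : C.GoodPl P')
    (h : C.h₁.sys.bar (ctr (CR L (C.t₁ : F)) P) = C.h₁.sys.bar (ctr (CR L (C.t₁ : F)) P')) :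
    C.h₁.sys.theta L F v (T (Finsupp.single P 1)) =
      C.h₁.sys.theta L F v (T (Finsupp.single P' 1)) := by
  have key : ∀ P P' : Place L F, C.GoodPl P → C.GoodPl P' →
      C.h₁.sys.bar (ctr (CR L (C.t₁ : F)) P) = C.h₁.sys.bar (ctr (CR L (C.t₁ : F)) P') →
      C.h₁.sys.theta L F v (T (Finsupp.single P 1)) ≤
      C.h₁.sys.theta L F v (T (Finsupp.single P' 1)) := by
    intro P P' hP hP' h
    obtain ⟨s, hs⟩ := H.fin v
    obtain ⟨w, hw⟩ := exists_prime_of_good C hP'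
    obtain ⟨c, hc0, hcw, hc1, hcs⟩ := exists_avoid w s
    -- lift to `P'`
    have hcP' : c ∈ C.h₁.sys.bar (ctr (CR L (C.t₁ : F)) P') := by rw [hw]; exact hcw
    obtain ⟨a', ha', rfl⟩ := C.h₁.sys.mem_bar.1 hcP'
    have hcP : C.h₁.sys.ρ a' ∈ C.h₁.sys.bar (ctr (CR L (C.t₁ : F)) P) := by rw [h]; exact hcP'
    obtain ⟨a, ha, haa'⟩ := C.h₁.sys.mem_bar.1 hcP
    obtain ⟨b', hb', hb'0, hR'⟩ := H.int (C.h₁.toZ a') (C.h₁.ρ_toZ_ne hc0)
    have hc0a : C.h₁.sys.ρ a ≠ 0 := by rw [haa']; exact hc0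
    obtain ⟨b, hb, hb0, hR⟩ := H.int (C.h₁.toZ a) (C.h₁.ρ_toZ_ne hc0a)
    have hρ : D.ρ (C.h₁.toZ a) = D.ρ (C.h₁.toZ a') := by
      rw [← C.h₁.coe_sys_ρ, ← C.h₁.coe_sys_ρ, haa']
    rw [hρ] at hR
    have hbb : D.ρ b = D.ρ b' := H.R_unique _ _ _ hR hR'
    have h1 := (H.theta_T_le v hP hc0a ha hb hb0).1
    have h2 := (H.theta_T_le v hP' hc0 ha' hb' hb'0).2 (by
      intro Q _ w' hw' hθ
      have hw's := hs Q w' hw' hθ
      refine ⟨fun hne => hcs w' hw's fun h0 => hne (by rw [h0, hw]), fun heq => ?_⟩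
      have : w' = w := HeightOneSpectrum.ext (by rw [heq, hw])
      rw [this]
      exact hc1)
    rw [h2, ← hbb]
    exact h1
  exact le_antisymm (key P P' hP hP' h) (key P' P hP' hP h.symm)

/-- the correspondence preserves divisors with trivial reduction -/
theorem theta_T_eq_zero (v : C.V₁) {E : Divisor L F}
    (hE : ∀ w : C.V₁, C.h₁.sys.theta L F w E = 0) : C.h₁.sys.theta L F v (T E) = 0 := by
  refine hom_eq_zero_of_theta C.h₁.sys C.rat₁ ((C.h₁.sys.theta L F v).comp T) ?_ ?_ hE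
  · intro P hP
    apply H.theta_T_bad v
    intro hg
    obtain ⟨w, hw⟩ := exists_prime_of_good C hg
    rw [hw] at hP
    exact w.isPrime.ne_top hP
  · intro P P' h
    by_cases hP : C.GoodPl P
    · have hP' : C.GoodPl P' := by
        by_contra hP'
        obtain ⟨w, hw⟩ := exists_prime_of_good C hP
        rw [bar_eq_top_of_bad C hP', hw] at h
        exact w.isPrime.ne_top h
      exact H.theta_T_congr v hP hP' h
    · have hP' : ¬ C.GoodPl P' := by
        intro hP'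
        obtain ⟨w, hw⟩ := exists_prime_of_good C hP'
        rw [bar_eq_top_of_bad C hP, hw] at h
        exact w.isPrime.ne_top h.symm
      change C.h₁.sys.theta L F v (T (Finsupp.single P 1)) =
        C.h₁.sys.theta L F v (T (Finsupp.single P' 1))
      rw [H.theta_T_bad v hP, H.theta_T_bad v hP']

theorem T_mem_GDiv {E : Divisor L F} (hE : E ∈ C.GDiv) : T E ∈ C.GDiv := by
  refine C.GDiv_induction (p := fun E => T E ∈ C.GDiv) ?_ ?_ ?_ hE
  · rw [map_zero]; exact zero_mem _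
  · intro E E' h h'; rw [map_add]; exact add_mem h h'
  · intro P n hP
    have h3 : (Finsupp.single P n : Divisor L F) = n • Finsupp.single P 1 := by
      rw [Finsupp.smul_single, smul_eq_mul, mul_one]
    rw [h3, map_zsmul]
    exact C.GDiv.zsmul_mem (H.good P hP) n

/-- **The correspondence is compatible with reduction.** -/
theorem redTo_T {E : Divisor L F} (hE : E ∈ C.GDiv) {g g' : Fb} (hg : g ≠ 0)
    (h : C.RedTo E g) (hR : R g g') : C.RedTo (T E) g' := by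
  have hcusp : ∀ v : C.V₂, C.tb₂ ∈ v.asIdeal → ordv Fb v g = 0 := fun v hv => by
    rw [← h.2 v hv]
    exact C.theta₂_eq_zero hE hv
  obtain ⟨a, b, ha, hb, hgab, hord⟩ := exists_lift_gdiv C hg hcusp
  have ne_of : ∀ x : D.Z, D.ρ x ≠ 0 → (x : F) ≠ 0 := by
    intro x hx h0
    apply hx
    have : x = 0 := Subtype.ext h0
    rw [this, map_zero]
  have haF := ne_of a ha
  have hbF := ne_of b hb
  obtain ⟨a', ha', ha'0, hRa⟩ := H.int a ha
  obtain ⟨b', hb', hb'0, hRb⟩ := H.int b hb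
  have hg' : g' = D.ρ a' * (D.ρ b')⁻¹ := by
    apply H.R_unique _ _ _ hR
    rw [hgab]
    exact H.R_div _ _ _ _ ha hb hRa hRb
  set f : F := (a : F) * (b : F)⁻¹ with hf
  have hf0 : f ≠ 0 := mul_ne_zero haF (inv_ne_zero hbF)
  obtain ⟨G, hG, -⟩ := HasPrincipalDivisors.exists_divisor (K := L) f hf0
  have hfb : f * (b : F) = algebraMap L F 1 * (a : F) := by
    rw [map_one, one_mul, hf, mul_assoc, inv_mul_cancel₀ hbF, mul_one]
  have hGred : C.RedTo G g := by
    rw [hgab]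
    exact C.redTo_div hG one_ne_zero ha hb hfb
  have hGg : G ∈ C.GDiv := by
    intro P hP
    obtain ⟨h1, h2⟩ := hord P hP
    rw [hG P, hf, P.ord_mul haF (inv_ne_zero hbF), P.ord_inv, h1, h2]
    rfl
  have hTG : ∀ P, T G P = P.ord (N f) := H.div f G hf0 hG
  have hNfb : N f * (b' : F) = algebraMap L F 1 * (a' : F) := by
    rw [hb', ← H.N_mul, hfb, map_one, one_mul, one_mul, ha']
  have hTGred : C.RedTo (T G) g' := by
    rw [hg']
    exact C.redTo_div hTG one_ne_zero ha'0 hb'0 hNfb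
  refine ⟨fun v => ?_, fun v hv => ?_⟩
  · rw [← hTGred.1 v, ← sub_eq_zero, ← map_sub, ← map_sub]
    apply H.theta_T_eq_zero v
    intro w
    rw [map_sub, h.1 w, hGred.1 w, sub_self]
  · rw [C.theta₂_eq_zero (H.T_mem_GDiv hE) hv, ← hTGred.2 v hv,
      C.theta₂_eq_zero (H.T_mem_GDiv hGg) hv]

end HeckeRed

end Fermat.Agent.H11N
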