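import Fermat.Agent.H11N.BLR

/-!
# Mazur's principle: the linear algebra
-/

set_option autoImplicit false
set_option linter.unusedSectionVars false

noncomputable section

namespace Fermat.Agent.H11N

open Matrix

local notation "M₂" => Matrix (Fin 2) (Fin 2)

section Alg

variable {F V G : Type*} [Field F] [AddCommGroup V] [Module F V] [Nontrivial V] [Group G]

/-- a matrix commuting with all matrices is scalar -/
theorem exists_scalar_of_comm {c : M₂ F} (h : ∀ x : M₂ F, c * x = x * c) : ∃ t : F, c = t • 1 := by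
  refine ⟨c 0 0, ?_⟩
  have h1 := h (Matrix.single 0 1 1)
  have e1 := congrFun (congrFun h1 0) 1
  have e2 := congrFun (congrFun h1 1) 1
  have h2 := h (Matrix.single 1 0 1)
  have e3 := congrFun (congrFun h2 0) 0
  simp [Matrix.mul_apply, Matrix.single] at e1 e2 e3
  ext i j
  fin_cases i <;> fin_cases j
  · simp
  · simpa using e3
  · simpa using e2
  · simpa using e1.symm

theorem comm_of_span (ρ : G →* M₂ F) (hspan : Submodule.span F (Set.range ρ) = ⊤)
    {c : M₂ F} (h : ∀ g, c * ρ g = ρ g * c) (x : M₂ F) : c * x = x * c := by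
  have hx : x ∈ Submodule.span F (Set.range ρ) := by rw [hspan]; trivial
  induction hx using Submodule.span_induction with
  | mem y hy => obtain ⟨g, rfl⟩ := hy; exact h g
  | zero => rw [mul_zero, zero_mul]
  | add y z _ _ hy hz => rw [mul_add, add_mul, hy, hz]
  | smul t y _ hy => rw [mul_smul_comm, smul_mul_assoc, hy]

/-- **Mazur's principle, linear algebra**: if `r φ * w = - q` with an involution `w` commuting
with the representation then `q ^ 2 = q`. -/
theorem mazur_alg (ρ : G →* M₂ F) (r : G →* Module.End F V)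
    (hrel : ∀ g, r g * r g - (ρ g).trace • r g + (ρ g).det • (1 : Module.End F V) = 0)
    (hspan : Submodule.span F (Set.range ρ) = ⊤) (φ : G) (q : F) (hdet : (ρ φ).det = q)
    (w : Module.End F V) (hw : w * w = 1) (hcomm : ∀ g, w * r g = r g * w)
    (h : r φ * w = -(q • (1 : Module.End F V))) : q * q = q := by
  obtain ⟨Φ, hΦ⟩ := blr ρ r hrel hspan
  have hinj : Function.Injective Φ := RingHom.injective Φ.toRingHom
  have h1 : r φ = -(q • w) := by
    have := congrArg (fun z => z * w) h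
    simp only [mul_assoc, hw, mul_one, neg_mul, smul_mul_assoc, one_mul] at this
    exact this
  have h2 : ∀ g, ρ φ * ρ g = ρ g * ρ φ := by
    intro g
    apply hinj
    rw [map_mul, map_mul, hΦ, hΦ, h1, neg_mul, mul_neg, smul_mul_assoc, mul_smul_comm, hcomm]
  obtain ⟨t, ht⟩ := exists_scalar_of_comm (comm_of_span ρ hspan h2)
  have h3 : t * t = q := by
    rw [← hdet, ht, Matrix.det_smul, Fintype.card_fin, Matrix.det_one, mul_one, sq]
  have h4 : (t * t) • (1 : M₂ F) = (q * q) • (1 : M₂ F) := by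
    apply hinj
    have h5 : ρ φ * ρ φ = (t * t) • (1 : M₂ F) := by
      rw [ht, smul_mul_smul_comm, one_mul]
    rw [← h5, map_mul, hΦ, h1, map_smul, map_one, neg_mul_neg, smul_mul_smul_comm, hw]
  have h5 := congrFun (congrFun h4 0) 0
  simp only [Matrix.smul_apply, Matrix.one_apply_eq, smul_eq_mul, mul_one] at h5
  rw [← h5, h3]

theorem mat12 (m : M₂ F) (h0 : m 0 1 ≠ 0) :
    (m 0 1)⁻¹ • ((!![1, 0; 0, 0] : M₂ F) * m * !![0, 0; 0, 1]) = !![0, 1; 0, 0] := by
  obtain ⟨a, b, c, d, rfl⟩ : ∃ a b c d : F, m = !![a, b; c, d] :=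
    ⟨_, _, _, _, Matrix.eta_fin_two m⟩
  have hb : b ≠ 0 := h0
  rw [Matrix.mul_fin_two, Matrix.mul_fin_two]
  ext i j
  fin_cases i <;> fin_cases j <;> simp [hb]

theorem mat21 (m : M₂ F) (h0 : m 1 0 ≠ 0) :
    (m 1 0)⁻¹ • ((!![0, 0; 0, 1] : M₂ F) * m * !![1, 0; 0, 0]) = !![0, 0; 1, 0] := by
  obtain ⟨a, b, c, d, rfl⟩ : ∃ a b c d : F, m = !![a, b; c, d] :=
    ⟨_, _, _, _, Matrix.eta_fin_two m⟩
  have hb : c ≠ 0 := h0
  rw [Matrix.mul_fin_two, Matrix.mul_fin_two]
  ext i j
  fin_cases i <;> fin_cases j <;> simp [hb]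

/-- the span of the image of an irreducible representation containing an involution of
determinant `-1` -/
theorem span_eq_top_of_irr (h2 : (2 : F) ≠ 0) (ρ : G →* M₂ F) {c : G}
    {Q Q' : M₂ F} (hQ : Q * Q' = 1) (hQ' : Q' * Q = 1) (hdiag : Q' * ρ c * Q = !![1, 0; 0, -1])
    (hirr : ∀ v : Fin 2 → F, v ≠ 0 → ∃ g, ∀ a : F, ρ g *ᵥ v ≠ a • v) :
    Submodule.span F (Set.range ρ) = ⊤ := by
  set S := Submodule.span F (Set.range ρ) with hS
  have hmul : ∀ x ∈ S, ∀ y ∈ S, x * y ∈ S := by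
    intro x hx y hy
    induction hx using Submodule.span_induction with
    | mem x hx =>
      obtain ⟨g, rfl⟩ := hx
      induction hy using Submodule.span_induction with
      | mem y hy =>
        obtain ⟨k, rfl⟩ := hy
        rw [← map_mul]
        exact Submodule.subset_span ⟨g * k, rfl⟩
      | zero => rw [mul_zero]; exact S.zero_mem
      | add y z _ _ hy hz => rw [mul_add]; exact S.add_mem hy hz
      | smul t y _ hy => rw [mul_smul_comm]; exact S.smul_mem _ hy
    | zero => rw [zero_mul]; exact S.zero_mem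
    | add x z _ _ hx hz => rw [add_mul]; exact S.add_mem hx hz
    | smul t x _ hx => rw [smul_mul_assoc]; exact S.smul_mem _ hx
  have hone : (1 : M₂ F) ∈ S := Submodule.subset_span ⟨1, map_one ρ⟩
  have hρ : ∀ g, ρ g ∈ S := fun g => Submodule.subset_span ⟨g, rfl⟩
  -- conjugation
  let T : Set (M₂ F) := {x | Q * x * Q' ∈ S}
  have hT : ∀ x, x ∈ T ↔ Q * x * Q' ∈ S := fun _ => Iff.rfl
  have hTmul : ∀ x ∈ T, ∀ y ∈ T, x * y ∈ T := by
    intro x hx y hy
    rw [hT]
    have : Q * (x * y) * Q' = (Q * x * Q') * (Q * y * Q') := by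
      calc Q * (x * y) * Q' = Q * x * 1 * y * Q' := by rw [mul_one]; simp only [mul_assoc]
        _ = Q * x * (Q' * Q) * y * Q' := by rw [hQ']
        _ = _ := by simp only [mul_assoc]
    rw [this]
    exact hmul _ hx _ hy
  have hTadd : ∀ x ∈ T, ∀ y ∈ T, x + y ∈ T := by
    intro x hx y hy
    rw [hT, mul_add, add_mul]
    exact S.add_mem hx hy
  have hTsmul : ∀ (t : F), ∀ x ∈ T, t • x ∈ T := by
    intro t x hx
    rw [hT, mul_smul_comm, smul_mul_assoc]
    exact S.smul_mem _ hx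
  have hTone : (1 : M₂ F) ∈ T := by
    rw [hT, mul_one, hQ]
    exact hone
  have hTρ : ∀ g, Q' * ρ g * Q ∈ T := by
    intro g
    rw [hT]
    have : Q * (Q' * ρ g * Q) * Q' = (Q * Q') * ρ g * (Q * Q') := by simp only [mul_assoc]
    rw [this, hQ, one_mul, mul_one]
    exact hρ g
  have hc1 : (!![1, 0; 0, -1] : M₂ F) ∈ T := by rw [← hdiag]; exact hTρ c
  have hE11 : (!![1, 0; 0, 0] : M₂ F) ∈ T := by
    have h1 := hTsmul (2⁻¹ : F) _ (hTadd _ hTone _ hc1)
    have e : (2⁻¹ : F) • ((1 : M₂ F) + !![1, 0; 0, -1]) = !![1, 0; 0, 0] := by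
      ext i j
      fin_cases i <;> fin_cases j <;> simp
      rw [← two_mul, mul_one, inv_mul_cancel₀ h2]
    rwa [e] at h1
  have hE22 : (!![0, 0; 0, 1] : M₂ F) ∈ T := by
    have h1 := hTadd _ hTone _ (hTsmul (-1 : F) _ hE11)
    have e : (1 : M₂ F) + (-1 : F) • !![1, 0; 0, 0] = !![0, 0; 0, 1] := by
      ext i j
      fin_cases i <;> fin_cases j <;> simp
    rwa [e] at h1
  have key : ∀ v : Fin 2 → F, v ≠ 0 → ∃ g, ∀ a : F, (Q' * ρ g * Q) *ᵥ v ≠ a • v := by
    intro v hv
    have hv' : Q *ᵥ v ≠ 0 := by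
      intro h0
      apply hv
      have : Q' *ᵥ (Q *ᵥ v) = 0 := by rw [h0, Matrix.mulVec_zero]
      rwa [Matrix.mulVec_mulVec, hQ', Matrix.one_mulVec] at this
    obtain ⟨g, hg⟩ := hirr _ hv'
    refine ⟨g, fun a ha => hg a ?_⟩
    have h4 := congrArg (fun w => Q *ᵥ w) ha
    simp only [Matrix.mulVec_mulVec, Matrix.mulVec_smul] at h4
    rw [← mul_assoc, ← mul_assoc, hQ, one_mul] at h4
    rw [Matrix.mulVec_mulVec]
    exact h4
  have hE12 : (!![0, 1; 0, 0] : M₂ F) ∈ T := by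
    obtain ⟨g, hg⟩ := key ![0, 1] (by intro h0; simpa using congrFun h0 1)
    set m := Q' * ρ g * Q with hm
    have h0 : m 0 1 ≠ 0 := by
      intro h0
      apply hg (m 1 1)
      ext i
      fin_cases i
      · simp [Matrix.mulVec, dotProduct, Fin.sum_univ_two, h0]
      · simp [Matrix.mulVec, dotProduct, Fin.sum_univ_two]
    have h1 := hTsmul (m 0 1)⁻¹ _ (hTmul _ (hTmul _ hE11 _ (hTρ g)) _ hE22)
    rwa [← hm, mat12 m h0] at h1
  have hE21 : (!![0, 0; 1, 0] : M₂ F) ∈ T := by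
    obtain ⟨g, hg⟩ := key ![1, 0] (by intro h0; simpa using congrFun h0 0)
    set m := Q' * ρ g * Q with hm
    have h0 : m 1 0 ≠ 0 := by
      intro h0
      apply hg (m 0 0)
      ext i
      fin_cases i
      · simp [Matrix.mulVec, dotProduct, Fin.sum_univ_two]
      · simp [Matrix.mulVec, dotProduct, Fin.sum_univ_two, h0]
    have h1 := hTsmul (m 1 0)⁻¹ _ (hTmul _ (hTmul _ hE22 _ (hTρ g)) _ hE11)
    rwa [← hm, mat21 m h0] at h1
  have hTtop : ∀ x, x ∈ T := by
    intro x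
    have e : x = x 0 0 • (!![1, 0; 0, 0] : M₂ F) + x 0 1 • (!![0, 1; 0, 0] : M₂ F) +
        x 1 0 • (!![0, 0; 1, 0] : M₂ F) + x 1 1 • (!![0, 0; 0, 1] : M₂ F) := by
      ext i j
      fin_cases i <;> fin_cases j <;> simp
    rw [e]
    exact hTadd _ (hTadd _ (hTadd _ (hTsmul _ _ hE11) _ (hTsmul _ _ hE12)) _ (hTsmul _ _ hE21)) _
      (hTsmul _ _ hE22)
  rw [eq_top_iff]
  intro x _
  have h1 := (hT _).1 (hTtop (Q' * x * Q))
  have e : Q * (Q' * x * Q) * Q' = (Q * Q') * x * (Q * Q') := by simp only [mul_assoc]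
  rw [e, hQ, one_mul, mul_one] at h1
  exact h1

end Alg

end Fermat.Agent.H11N
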