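import Fermat.Agent.H11N.EigTors
import Fermat.Agent.H11N.MZAlg
import Fermat.Agent.NN.N2
import Fermat.Agent.Q.ToricFull

/-!
# Mazur's principle
-/

set_option autoImplicit false
set_option linter.style.haveILetI false
set_option linter.unusedSectionVars false
set_option maxSynthPendingDepth 3

noncomputable section

namespace Fermat.Agent.H11N

open ModularCurve AlgebraicCurve Fermat.Agent.Q
open scoped Pointwise

local notation "Qb" => AlgebraicClosure ℚ
local notation "Γq" => AlgebraicClosure ℚ ≃ₐ[ℚ] AlgebraicClosure ℚ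
local notation "M₂" => Matrix (Fin 2) (Fin 2)

/-- a matrix representation of the Galois group attached to the system `a` away from `D` -/
structure MRep (m D : ℕ) (a : ℕ → ℤ) where
  ρ : Γq →* M₂ (ZMod m)
  F : IntermediateField ℚ Qb
  fin : FiniteDimensional ℚ F
  triv : ∀ σ : Γq, (∀ x ∈ F, σ x = x) → ρ σ = 1
  span : Submodule.span (ZMod m) (Set.range ρ) = ⊤
  frob : ∀ l : ℕ, l.Prime → ¬ l ∣ D → ∀ A : ValuationSubring Qb, A.LiesOverPrime l →
    ∀ φ : Γq, A.IsFrobeniusAt φ l → (ρ φ).trace = (a l : ZMod m) ∧ (ρ φ).det = (l : ZMod m)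

attribute [instance] MRep.fin

variable {m D : ℕ} {a : ℕ → ℤ}

theorem MRep.rel (P : MRep m D a) {N : ℕ} [NeZero N] (hm : m ≠ 0) (hD : D ≠ 0) (hND : N ∣ D)
    (hmD : m ∣ D) (σ : Γq) :
    galEig N m D a σ * galEig N m D a σ - (P.ρ σ).trace • galEig N m D a σ +
      (P.ρ σ).det • (1 : Module.End (ZMod m) (EigSub N m D a)) = 0 :=
  galEig_rel hm hD hND hmD P.ρ P.F P.triv P.frob σ

/-- the system is not Eisenstein -/
theorem MRep.exists_l (P : MRep m D a) (hm : 1 < m) (hD : D ≠ 0) :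
    ∃ l : ℕ, l.Prime ∧ ¬ l ∣ D ∧ (a l : ZMod m) ≠ 1 + (l : ZMod m) := by
  haveI : Fact (1 < m) := ⟨hm⟩
  by_contra hcon
  push Not at hcon
  obtain ⟨g, hg⟩ := exists_trace_ne P.ρ P.span
  have h := rel_all (W := ZMod m) P.ρ (1 : Γq →* Module.End (ZMod m) (ZMod m)) P.F P.triv
    (fun _ _ => rfl) D.primeFactors (fun l hl hlD A hA φ hφ => by
      have hlD' : ¬ l ∣ D := fun h => hlD (Nat.mem_primeFactors.2 ⟨hl, h, hD⟩)
      have h0 := P.frob l hl hlD' A hA φ hφ
      refine ⟨_, _, h0.1, h0.2, ?_⟩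
      rw [hcon l hl hlD', MonoidHom.one_apply, mul_one, add_smul, one_smul]
      abel) g
  have h1 := LinearMap.congr_fun h (1 : ZMod m)
  simp only [MonoidHom.one_apply, mul_one, LinearMap.add_apply, LinearMap.sub_apply,
    Module.End.one_apply, LinearMap.smul_apply, smul_eq_mul, LinearMap.zero_apply] at h1
  exact hg (by linear_combination -h1)

/-- the eigenspace is stable under the Atkin–Lehner involution -/
theorem wS_mem_EigSub {M r : ℕ} [NeZero M] [hr : Fact r.Prime] (hrM : Nat.Coprime r M)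
    (hD : M * r ∣ D) {x : JZero (M * r)} (hx : x ∈ EigSub (M * r) m D a) :
    wS M r hrM • x ∈ EigSub (M * r) m D a := by
  refine ⟨by rw [nsmul_wS, hx.1, smul_zero], fun l hl => ?_⟩
  rw [NN.hecke_wS hrM (fun h => hl (h.trans hD)), hx.2 l hl]
  exact (map_zsmul (DistribSMul.toAddMonoidHom (JZero (M * r)) (wS M r hrM)) _ _)

/-- the Atkin–Lehner involution on the eigenspace -/
def wEig {M r : ℕ} [NeZero M] [hr : Fact r.Prime] (hrM : Nat.Coprime r M) (m D : ℕ) (a : ℕ → ℤ)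
    (hD : M * r ∣ D) : Module.End (ZMod m) (EigSub (M * r) m D a) :=
  AddMonoidHom.toZModLinearMap m
    (((DistribSMul.toAddMonoidHom (JZero (M * r)) (wS M r hrM)).comp
      (EigSub (M * r) m D a).subtype).codRestrict
      (EigSub (M * r) m D a) fun x => wS_mem_EigSub hrM hD x.2)

theorem coe_wEig {M r : ℕ} [NeZero M] [hr : Fact r.Prime] (hrM : Nat.Coprime r M)
    (hD : M * r ∣ D) (x : EigSub (M * r) m D a) :
    ((wEig hrM m D a hD x : EigSub (M * r) m D a) : JZero (M * r)) =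
      wS M r hrM • (x : JZero (M * r)) := rfl

section Main

variable {M r : ℕ} [NeZero M] [hr : Fact r.Prime] {A : ValuationSubring Qb}

/-- if the whole eigenspace is toric then `r ≡ 1`. -/
theorem eq_one_of_toric {p : ℕ} [hp : Fact p.Prime] (hrM : Nat.Coprime r M) (hA : A.LiesOverPrime r)
    (hrp : r ≠ p) (hD : D ≠ 0) (hMD : M * r ∣ D) (hpD : p ∣ D) (P : MRep p D a)
    (hdet : ∀ φ : Γq, A.IsFrobeniusAt φ r → (P.ρ φ).det = (r : ZMod p))
    (hne : ∃ x ∈ EigSub (M * r) p D a, x ≠ 0)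
    (hT : ∀ x ∈ EigSub (M * r) p D a, x ∈ TSub A M r p hrM) : r ≡ 1 [MOD p] := by
  obtain ⟨φ, hφ⟩ := H05.exists_isFrobeniusAt (L := Qb) hr.out hA
  haveI : Nontrivial (EigSub (M * r) p D a) := by
    obtain ⟨x, hx, hx0⟩ := hne
    exact ⟨⟨x, hx⟩, 0, fun h => hx0 (congrArg Subtype.val h)⟩
  have hrpd : ¬ r ∣ p := fun h => hrp ((Nat.prime_dvd_prime_iff_eq hr.out hp.out).1 h)
  have h1 := mazur_alg P.ρ (galEig (M * r) p D a)
    (P.rel hp.out.ne_zero hD hMD hpD) P.span φ (r : ZMod p) (hdet φ hφ)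
    (wEig hrM p D a hMD)
    (LinearMap.ext fun x => Subtype.ext (wS_wS M r hrM (x : JZero (M * r))))
    (fun g => LinearMap.ext fun x => Subtype.ext (galois_wS M r hrM g (x : JZero (M * r))).symm)
    (LinearMap.ext fun x => Subtype.ext (by
      have h2 := toric_T3 hrM hA hrpd (hT x x.2) hφ
      have h3 := coe_zmod_smul (r : ℤ) x
      rw [natCast_zsmul] at h3
      change φ • wS M r hrM • (x : JZero (M * r)) = -((((r : ZMod p)) • x : EigSub (M * r) p D a) :
        JZero (M * r))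
      rw [h2, ← h3]
      congr 4
      exact Int.cast_natCast r))
  have h2 : (r : ZMod p) ≠ 0 := by
    rw [Ne, ZMod.natCast_eq_zero_iff]
    exact fun h => hrp ((Nat.prime_dvd_prime_iff_eq hp.out hr.out).1 h).symm
  have h3 : (r : ZMod p) = 1 := mul_left_cancel₀ h2 (by rw [h1, mul_one])
  have h4 : (r : ZMod p) = ((1 : ℕ) : ZMod p) := by rw [h3, Nat.cast_one]
  exact (ZMod.natCast_eq_natCast_iff _ _ _).1 h4

/-- **Mazur's principle** for a system of eigenvalues -/
theorem mazur_relations {p : ℕ} [hp : Fact p.Prime] (hp2 : p ≠ 2) (hrM : Nat.Coprime r M)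
    (h2 : 2 ∣ M) (hr2 : r ≠ 2) (hA : A.LiesOverPrime r)
    (hrp : r ≠ p) (hr1 : ¬ r ≡ 1 [MOD p]) (hD : D ≠ 0) (hMD : M * r ∣ D) (hpD : p ∣ D)
    (P : MRep p D a)
    (hdet : ∀ φ : Γq, A.IsFrobeniusAt φ r → (P.ρ φ).det = (r : ZMod p))
    (hunr : ∀ σ ∈ A.inertiaSubgroupIn ℚ, P.ρ σ = 1)
    (hne : ∃ x ∈ EigSub (M * r) p D a, x ≠ 0) :
    ∀ t ∈ heckeAway D, CuspForm.heckeEvalForms M 2 t = 0 → (p : ℤ) ∣ evalAt a t := by
  intro t ht h0
  by_contra hcon
  apply hr1
  refine eq_one_of_toric hrM hA hrp hD hMD hpD P hdet hne fun x hx => ?_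
  obtain ⟨Φ, hΦ⟩ := blr P.ρ (galEig (M * r) p D a)
    (P.rel hp.out.ne_zero hD hMD hpD) P.span
  have hI : ∀ σ ∈ A.inertiaSubgroupIn ℚ, σ • x = x := by
    intro σ hσ
    have h1 := hΦ σ
    rw [hunr σ hσ, map_one] at h1
    have h3 := congrArg (fun f : Module.End (ZMod p) (EigSub (M * r) p D a) =>
      ((f ⟨x, hx⟩ : EigSub (M * r) p D a) : JZero (M * r))) h1
    exact h3.symm
  obtain ⟨l, hl, hlD, hal⟩ := P.exists_l hp.out.one_lt hD
  haveI : Fact l.Prime := ⟨hl⟩
  have hlN : ¬ l ∣ M * r := fun h => hlD (h.trans hMD)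
  have haway : t ∈ heckeAway (M * r) := by
    refine Algebra.adjoin_mono ?_ ht
    rintro _ ⟨l', hl', rfl⟩
    exact ⟨l', fun h => hl' (h.trans hMD), rfl⟩
  have h1 := NN.n2A hrM h2 hr2 hA hp.out.ne_zero hx.1 hI hlN haway h0
  rw [hx.2 ⟨l, hl⟩ hlD] at h1
  have h3 : (2 : ℕ) • (a l • x - (l + 1) • x) = (2 * (a l - (l + 1)) : ℤ) • x := by
    rw [mul_smul, sub_smul]
    have e1 : ((l : ℤ) + 1) • x = (l + 1) • x := by
      rw [← natCast_zsmul]
      push_cast
      rfl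
    rw [e1]
    exact (natCast_zsmul _ 2).symm
  rw [h3, map_zsmul, heckeJ_eq_evalAt ht hx.2, smul_smul] at h1
  -- the coefficient is prime to `p`
  have h4 : ¬ (p : ℤ) ∣ 2 * (a l - (l + 1)) * evalAt a t := by
    intro h
    have hpp : Prime (p : ℤ) := Nat.prime_iff_prime_int.mp hp.out
    rcases hpp.dvd_or_dvd h with h | h
    · rcases hpp.dvd_or_dvd h with h | h
      · have : p ∣ 2 := by exact_mod_cast h
        exact hp2 ((Nat.prime_dvd_prime_iff_eq hp.out Nat.prime_two).1 this)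
      · apply hal
        rw [← ZMod.intCast_zmod_eq_zero_iff_dvd] at h
        push_cast at h
        linear_combination h
    · exact hcon h
  have h5 : IsCoprime (2 * (a l - (l + 1)) * evalAt a t) (p : ℤ) :=
    ((Nat.prime_iff_prime_int.mp hp.out).coprime_iff_not_dvd.2 h4).symm
  obtain ⟨u, v, huv⟩ := h5
  have h6 : x = u • ((2 * (a l - (l + 1)) * evalAt a t) • x) := by
    rw [smul_smul]
    have h7 : u * (2 * (a l - (l + 1)) * evalAt a t) = 1 - v * p := by linarith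
    rw [h7, sub_smul, one_smul, mul_smul, natCast_zsmul, hx.1, smul_zero, sub_zero]
  rw [h6]
  exact (TSub A M r p hrM).zsmul_mem h1 u

end Main

end Fermat.Agent.H11N
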