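import Fermat.Agent.H11N.RedPic
import Fermat.Agent.H05.HeckeComm

/-!
# Occurrence at level `M`: the main theorem
-/

set_option autoImplicit false
set_option linter.style.haveILetI false
set_option linter.unusedSectionVars false
set_option maxSynthPendingDepth 3
set_option synthInstance.maxHeartbeats 400000

noncomputable section

attribute [-instance] HahnSeries.instModule HahnSeries.instSMul HahnSeries.instDistribMulAction
  HahnSeries.instSMulZeroClass

namespace Fermat.Agent.H11N

open H29 in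
attribute [local instance 10000] instLS instIF instIF2

open ModularCurve AlgebraicCurve Fermat.Agent.Igusa Fermat.Agent.Q

local notation "kk" => IsLocalRing.ResidueField
local notation "Qb" => AlgebraicClosure ℚ

attribute [local instance] H12.isAlgClosed_kk

/-- the action of the abstract Hecke algebra on `J₀(N)` -/
def heckeJ (N : ℕ) [NeZero N] : HeckeAlg →+* Module.End ℤ (JZero N) :=
  heckeEvalBar (H05.heckeOperatorsCommuteBar N)

theorem heckeJ_gen (N : ℕ) [NeZero N] (l : Nat.Primes) :
    heckeJ N (heckeGen l) = heckeOperatorBar N l := heckeEvalBar_heckeGen _ l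

/-- the subalgebra generated by the `T_l`, `l ∤ D` -/
def heckeAway (D : ℕ) : Subalgebra ℤ HeckeAlg :=
  Algebra.adjoin ℤ {t | ∃ l : Nat.Primes, ¬ (l : ℕ) ∣ D ∧ t = heckeGen l}

variable {M : ℕ} [NeZero M] {A : ValuationSubring Qb} {C : H28.TwoCharts (H28.modRed M A)}
  {m r : ℕ} [hr : Fact r.Prime] {x : JZero (M * r)} {y : JZero M}

theorem Occ.smul (hA : A.LiesOverPrime r) (hrM : Nat.Coprime r M) {t : HeckeAlg}
    (ht : t ∈ heckeAway (M * r)) (h : Occ C m r x y) :
    Occ C m r (heckeJ (M * r) t x) (heckeJ M t y) := by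
  rw [heckeAway] at ht
  revert x y
  induction ht using Algebra.adjoin_induction with
  | mem t ht =>
    intro x y h
    obtain ⟨l, hl, rfl⟩ := ht
    rw [heckeJ_gen, heckeJ_gen]
    haveI : Fact (l : ℕ).Prime := ⟨l.2⟩
    exact h.hecke hA hrM hl
  | algebraMap n =>
    intro x y h
    have h1 : (algebraMap ℤ HeckeAlg) n = (n : HeckeAlg) := by simp
    rw [h1, map_intCast, map_intCast, Module.End.intCast_apply, Module.End.intCast_apply]
    exact h.zsmul n
  | add s t _ _ hs ht =>
    intro x y h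
    rw [map_add, map_add, LinearMap.add_apply, LinearMap.add_apply]
    exact (hs h).add (ht h)
  | mul s t _ _ hs ht =>
    intro x y h
    rw [map_mul, map_mul, Module.End.mul_apply, Module.End.mul_apply]
    exact hs (ht h)

/-- the function field of the special fibre -/
theorem hasPrincipal_kk (M : ℕ) [NeZero M] :
    HasPrincipalDivisors (kk A) (modularFunctionFieldFullC (kk A) M) := inferInstance

theorem Occ.mem_KInf (hm : m ≠ 0) (h : Occ C m r x 0) : x ∈ KInf A M r m := by
  obtain ⟨u, ⟨hu, f, c, hf, hc, hred⟩, h2⟩ := h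
  rw [map_zero] at h2
  obtain ⟨v⟩ : Nonempty (Place (kk A) (modularFunctionFieldFullC (kk A) M)) := by
    obtain ⟨P⟩ : Nonempty (Place Qb (modularFunctionFieldBar M)) := by
      obtain ⟨v, -⟩ := H05.exists_place_infinity_bc Qb M
      exact ⟨v⟩
    exact ⟨C.redPl P⟩
  obtain ⟨g, hg, rfl⟩ := h2.exists_pow_of_zero (FF.deg_eq_one v) hm
  exact ⟨f, hf, c, hc, g, g.2, fun h => hg (Subtype.ext h), hred⟩

theorem exists_occ (C : H28.TwoCharts (H28.modRed M A)) (hm : m ≠ 0)
    {u : modularFunctionFieldFullC (kk A) M} (hx : RedK A M r m x u)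
    (hord : ∀ v : Place (kk A) (modularFunctionFieldFullC (kk A) M), (m : ℤ) ∣ v.ord u) :
    ∃ y : JZero M, Occ C m r x y := by
  obtain ⟨d, hd⟩ := H05.exists_kum_of_dvd (K := kk A) hm hx.1 hord
  obtain ⟨y, rfl⟩ := redJ_surjective C d
  exact ⟨y, u, hx, hd⟩

/-- **Occurrence at level `M`.** Let `x ∈ J₀(M r)[m]` be such that the orders of the reduction at
the place `∞` over `r` of its Kummer function are divisible by `m`. Then every relation between
the Hecke operators `T_l`, `l ∤ M r`, at level `M` sends `x` to `K_∞`. -/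
theorem occurrence (C : H28.TwoCharts (H28.modRed M A)) (hA : A.LiesOverPrime r)
    (hrM : Nat.Coprime r M) (hm : m ≠ 0) {u : modularFunctionFieldFullC (kk A) M}
    (hx : RedK A M r m x u)
    (hord : ∀ v : Place (kk A) (modularFunctionFieldFullC (kk A) M), (m : ℤ) ∣ v.ord u)
    {t : HeckeAlg} (ht : t ∈ heckeAway (M * r)) (h0 : heckeJ M t = 0) :
    heckeJ (M * r) t x ∈ KInf A M r m := by
  obtain ⟨y, hy⟩ := exists_occ C hm hx hord
  have h1 := hy.smul hA hrM ht
  rw [h0, LinearMap.zero_apply] at h1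
  exact h1.mem_KInf hm

/-- the charts at levels divisible by `2` or `3` -/
theorem exists_charts (hA : A.LiesOverPrime r) (hrM : Nat.Coprime r M)
    (h : 2 ∣ M ∨ 3 ∣ M) : Nonempty (H28.TwoCharts (H28.modRed M A)) := by
  have hdiv : ¬ r ∣ M := (Nat.Prime.coprime_iff_not_dvd hr.out).1 hrM
  have hyp : ¬ r ∣ M ∧ ((2 ∣ M ∧ r ≠ 2) ∨ (3 ∣ M ∧ r ≠ 3)) := by
    refine ⟨hdiv, ?_⟩
    rcases h with h | h
    · exact Or.inl ⟨h, fun h0 => hdiv (h0 ▸ h)⟩
    · exact Or.inr ⟨h, fun h0 => hdiv (h0 ▸ h)⟩
  exact ⟨H28.modCharts M A (H29.isChart_j hr.out hA hyp) (H29.isChart_jinv hr.out hA hyp)⟩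

end Fermat.Agent.H11N
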