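import Fermat.Agent.H11N.MZAlg

/-!
# Mazur's principle at `p`: the linear algebra
-/

set_option autoImplicit false
set_option linter.unusedSectionVars false

noncomputable section

namespace Fermat.Agent.H11N

open Matrix

local notation "M₂" => Matrix (Fin 2) (Fin 2)

section Alg

variable {F V : Type*} [Field F] [AddCommGroup V] [Module F V] [Nontrivial V]

theorem mul_E11 (X : M₂ F) : X * Matrix.single 0 0 1 =
    X 0 0 • Matrix.single 0 0 1 + X 1 0 • Matrix.single 1 0 1 := by
  ext i j
  fin_cases i <;> fin_cases j <;> simp [Matrix.mul_apply, Matrix.single]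

theorem mul_E21 (X : M₂ F) : X * Matrix.single 1 0 1 =
    X 0 1 • Matrix.single 0 0 1 + X 1 1 • Matrix.single 1 0 1 := by
  ext i j
  fin_cases i <;> fin_cases j <;> simp [Matrix.mul_apply, Matrix.single]

/-- the standard representation embeds in every module over the matrix ring, compatibly with a
commuting involution -/
theorem exists_embedding (Φ : M₂ F →ₐ[F] Module.End F V)
    (w : Module.End F V) (hw : w * w = 1) (hcomm : ∀ X, w * Φ X = Φ X * w) :
    ∃ (ι : (Fin 2 → F) →ₗ[F] V) (ε : F), (ε = 1 ∨ ε = -1) ∧ Function.Injective ι ∧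
      (∀ X v, ι (X *ᵥ v) = Φ X (ι v)) ∧ ∀ v, w (ι v) = ε • ι v := by
  have hinj : Function.Injective Φ := RingHom.injective Φ.toRingHom
  set e := Φ (Matrix.single 0 0 1) with he
  have hee : e * e = e := by
    rw [he, ← map_mul]
    congr 1
    rw [mul_E11]
    simp [Matrix.single]
  have he0 : e ≠ 0 := by
    intro h
    have h1 : (Matrix.single 0 0 1 : M₂ F) = 0 := hinj (by rw [← he, h, map_zero])
    have h3 := congrFun (congrFun h1 0) 0
    simp [Matrix.single] at h3
  obtain ⟨v, hv⟩ : ∃ v, e v ≠ 0 := by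
    by_contra hcon
    push Not at hcon
    exact he0 (LinearMap.ext hcon)
  -- an eigenvector of `w` fixed by `e`
  obtain ⟨x, ε, hε, hx0, hwx, hex⟩ : ∃ (x : V) (ε : F), (ε = 1 ∨ ε = -1) ∧ x ≠ 0 ∧ w x = ε • x ∧
      e x = x := by
    have hwe : ∀ y, w (e y) = e (w y) := fun y => LinearMap.congr_fun (hcomm _) y
    have hww : ∀ y, w (w y) = y := fun y => LinearMap.congr_fun hw y
    have hee' : ∀ y, e (e y) = e y := fun y => LinearMap.congr_fun hee y
    by_cases h : e v + w (e v) = 0
    · refine ⟨e v, -1, Or.inr rfl, hv, ?_, hee' v⟩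
      rw [neg_smul, one_smul]
      exact (neg_eq_of_add_eq_zero_right h).symm
    · refine ⟨e v + w (e v), 1, Or.inl rfl, h, ?_, ?_⟩
      · rw [map_add, hww, one_smul, add_comm]
      · rw [map_add, hee', ← hwe, hee']
  let f := Φ (Matrix.single 1 0 1)
  have hf : f = Φ (Matrix.single 1 0 1) := rfl
  have hX0 : ∀ X : M₂ F, Φ X x = X 0 0 • x + X 1 0 • f x := by
    intro X
    have h1 : Φ X x = (Φ X * e) x := by rw [Module.End.mul_apply, hex]
    rw [h1, he, ← map_mul, mul_E11, map_add, map_smul, map_smul, LinearMap.add_apply,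
      LinearMap.smul_apply, LinearMap.smul_apply, ← he, ← hf, hex]
  have hX1 : ∀ X : M₂ F, Φ X (f x) = X 0 1 • x + X 1 1 • f x := by
    intro X
    have h1 : Φ X (f x) = (Φ X * f) x := rfl
    rw [h1, hf, ← map_mul, mul_E21, map_add, map_smul, map_smul, LinearMap.add_apply,
      LinearMap.smul_apply, LinearMap.smul_apply, ← he, ← hf, hex]
  let ι : (Fin 2 → F) →ₗ[F] V :=
    { toFun := fun v => v 0 • x + v 1 • f x
      map_add' := fun u v => by
        simp only [Pi.add_apply, add_smul]
        abel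
      map_smul' := fun t v => by
        simp only [Pi.smul_apply, smul_eq_mul, mul_smul, RingHom.id_apply, smul_add] }
  have hι : ∀ v, ι v = v 0 • x + v 1 • f x := fun _ => rfl
  have hιX : ∀ (X : M₂ F) (v), ι (X *ᵥ v) = Φ X (ι v) := by
    intro X v
    rw [hι, hι, map_add, map_smul, map_smul, hX0 X, hX1 X]
    simp only [Matrix.mulVec, dotProduct, Fin.sum_univ_two]
    module
  refine ⟨ι, ε, hε, ?_, hιX, fun v => ?_⟩
  · rw [← LinearMap.ker_eq_bot, LinearMap.ker_eq_bot']
    intro v hv0
    by_contra hne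
    have key : ∀ X : M₂ F, ι (X *ᵥ v) = 0 := fun X => by rw [hιX, hv0, map_zero]
    have h3 : ∃ i, v i ≠ 0 := by
      by_contra hcon
      push Not at hcon
      exact hne (funext hcon)
    obtain ⟨i, hi⟩ := h3
    have h4 := key ((v i)⁻¹ • Matrix.single 0 i 1)
    have e1 : (Matrix.single 0 i 1 : M₂ F) *ᵥ v = ![v i, 0] := by
      ext j
      fin_cases i <;> fin_cases j <;>
        simp [Matrix.mulVec, dotProduct, Matrix.single]
    have h5 : ((v i)⁻¹ • (Matrix.single 0 i 1 : M₂ F)) *ᵥ v = ![1, 0] := by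
      rw [Matrix.smul_mulVec, e1]
      ext j
      fin_cases j <;> simp [hi]
    rw [h5, hι] at h4
    simp only [Matrix.cons_val_zero, Matrix.cons_val_one, one_smul, zero_smul, add_zero,
      Matrix.cons_val_fin_one] at h4
    exact hx0 h4
  · have h3 : w (f x) = ε • f x := by
      have h4 : w (f x) = f (w x) := LinearMap.congr_fun (hcomm _) x
      rw [h4, hwx, map_smul]
    rw [hι, map_add, map_smul, map_smul, hwx, h3]
    module

/-- the standard representation inside a module satisfying the quadratic relations -/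
theorem exists_std_alg {G : Type*} [Group G] (ρ : G →* M₂ F) (r : G →* Module.End F V)
    (hrel : ∀ g, r g * r g - (ρ g).trace • r g + (ρ g).det • (1 : Module.End F V) = 0)
    (hspan : Submodule.span F (Set.range ρ) = ⊤)
    (w : Module.End F V) (hw : w * w = 1) (hcomm : ∀ g, w * r g = r g * w) :
    ∃ (ι : (Fin 2 → F) →ₗ[F] V), Function.Injective ι ∧ (∀ g v, r g (ι v) = ι (ρ g *ᵥ v)) ∧
      ((∀ v, w (ι v) = ι v) ∨ (∀ v, w (ι v) = - ι v)) := by
  obtain ⟨Φ, hΦ⟩ := blr ρ r hrel hspan
  have hcomm' : ∀ X, w * Φ X = Φ X * w := by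
    intro X
    have hX : X ∈ Submodule.span F (Set.range ρ) := by rw [hspan]; trivial
    induction hX using Submodule.span_induction with
    | mem y hy =>
      obtain ⟨g, rfl⟩ := hy
      rw [hΦ]
      exact hcomm g
    | zero => rw [map_zero, mul_zero, zero_mul]
    | add y z _ _ hy hz => rw [map_add, mul_add, add_mul, hy, hz]
    | smul c y _ hy => rw [map_smul, mul_smul_comm, smul_mul_assoc, hy]
  obtain ⟨ι, ε, hε, hinj, hιX, hιw⟩ := exists_embedding Φ w hw hcomm'
  refine ⟨ι, hinj, fun g v => by rw [hιX, hΦ], ?_⟩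
  rcases hε with rfl | rfl
  · exact Or.inl fun v => by rw [hιw, one_smul]
  · exact Or.inr fun v => by rw [hιw, neg_smul, one_smul]

/-- Subspaces of a two-dimensional space on which a group acts trivially on the quotient and
through the determinant on the subspace. -/
theorem line_of_det {G : Type*} (S : G → M₂ F) (L : Submodule F (Fin 2 → F))
    (hL : ∀ g v, S g *ᵥ v - v ∈ L) (hdet : ∀ g, ∀ v ∈ L, S g *ᵥ v = (S g).det • v)
    {g₀ : G} (hg : (S g₀).det ≠ 1) (h3 : (S g₀).det ≠ 0) :
    ∃ v₁ v₂ : Fin 2 → F, v₁ ∈ L ∧ v₁ ≠ 0 ∧ v₂ ∉ L ∧ ∀ v ∈ L, ∃ c : F, v = c • v₁ := by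
  have hbot : L ≠ ⊥ := by
    rintro rfl
    apply hg
    have h1 : S g₀ = 1 := by
      ext i j
      have h3 := (Submodule.mem_bot F).1 (hL g₀ (Pi.single j 1))
      have h4 := congrFun h3 i
      simp only [Matrix.mulVec_single_one, Pi.sub_apply, Pi.zero_apply, Matrix.col_apply] at h4
      rw [sub_eq_zero] at h4
      rw [h4, Matrix.one_apply, Pi.single_apply]
    rw [h1, Matrix.det_one]
  have htop : L ≠ ⊤ := by
    rintro rfl
    apply hg
    have h1 : S g₀ = (S g₀).det • 1 := by
      ext i j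
      have h4 := congrFun (hdet g₀ (Pi.single j 1) trivial) i
      simp only [Matrix.mulVec_single_one, Pi.smul_apply, Matrix.col_apply] at h4
      rw [h4, Matrix.smul_apply, Matrix.one_apply, Pi.single_apply]
    have h2 : (S g₀).det = (S g₀).det * (S g₀).det := by
      conv_lhs => rw [h1, Matrix.det_smul, Matrix.det_one, Fintype.card_fin, mul_one, sq]
    exact (mul_left_cancel₀ h3 (by rw [mul_one, ← h2]))
  have hfin : Module.finrank F L = 1 := by
    have h4 : 0 < Module.finrank F L := by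
      rw [Module.finrank_pos_iff]
      exact (Submodule.nontrivial_iff_ne_bot).2 hbot
    have h5 : Module.finrank F L < Module.finrank F (Fin 2 → F) :=
      Submodule.finrank_lt htop
    rw [Module.finrank_fin_fun] at h5
    omega
  obtain ⟨⟨v₁, hv₁⟩, h6, h7⟩ := (finrank_eq_one_iff' (K := F) (V := L)).1 hfin
  obtain ⟨v₂, -, hv₂⟩ := SetLike.exists_of_lt (lt_top_iff_ne_top.2 htop)
  refine ⟨v₁, v₂, hv₁, fun h => h6 (Subtype.ext h), hv₂, fun v hv => ?_⟩
  obtain ⟨c, hc⟩ := h7 ⟨v, hv⟩
  exact ⟨c, (congrArg Subtype.val hc).symm⟩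

end Alg

end Fermat.Agent.H11N
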