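import Fermat.Agent.H11N.MZ
import Fermat.Agent.H11N.N3Alg
import Fermat.Agent.H01.P.GeoNew
import Fermat.Agent.H05.Toric
import Fermat.Agent.H05.OrdFinal

/-!
# Mazur's principle at `p`: assembly
-/

set_option autoImplicit false
set_option linter.style.haveILetI false
set_option linter.unusedSectionVars false
set_option maxSynthPendingDepth 3

noncomputable section

attribute [-instance] HahnSeries.instModule HahnSeries.instSMul HahnSeries.instDistribMulAction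
  HahnSeries.instSMulZeroClass

attribute [local instance 10000] Fermat.Agent.H29.instLS Fermat.Agent.H29.instIF
  Fermat.Agent.H29.instIF2

namespace Fermat.Agent.H11N

open ModularCurve AlgebraicCurve Fermat.Agent.Q Matrix
open scoped Pointwise

local notation "kk" => IsLocalRing.ResidueField
local notation "Qb" => AlgebraicClosure ℚ
local notation "Γq" => AlgebraicClosure ℚ ≃ₐ[ℚ] AlgebraicClosure ℚ
local notation "M₂" => Matrix (Fin 2) (Fin 2)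

attribute [local instance] H12.isAlgClosed_kk

/-- The geometric input (N3). -/
def N3Core (p M : ℕ) [hp : Fact p.Prime] [NeZero M] (A : ValuationSubring Qb) : Prop :=
  ∀ (hpM : Nat.Coprime p M) {ζ : Qb}, IsPrimitiveRoot ζ p → ∀ {x y : JZero (M * p)},
    p • x = 0 → y ≠ 0 → y ∈ TSub A M p p hpM → aStar M p y = 0 →
    aStar M p (wS M p hpM • y) = 0 →
    (∀ σ ∈ A.inertiaSubgroupIn ℚ, ∃ b : ℕ, σ • x = x + b • y) →
    (∃ v : Qb, v ∈ A ∧ v⁻¹ ∈ A ∧ v ≠ 0 ∧ v ^ p ∈ NN.K0F A ∧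
      ∀ σ ∈ A.inertiaSubgroupIn ℚ, ∀ b : ℕ, σ • x = x + b • y → σ v = ζ ^ b * v) →
    (∃ l : Nat.Primes, ¬ (l : ℕ) ∣ M * p ∧ ∃ c : ℤ, heckeOperatorBar (M * p) l y = c • y ∧
      ¬ (p : ℤ) ∣ c - (l + 1)) →
    ∀ {l : ℕ} [hl : Fact l.Prime], ¬ l ∣ M * p →
      ∃ u : modularFunctionFieldFullC (kk A) M,
        RedK A M p p (heckeOperatorBar (M * p) ⟨l, hl.out⟩ x - (l + 1) • x) u ∧
        ∀ v : Place (kk A) (modularFunctionFieldFullC (kk A) M), (p : ℤ) ∣ v.ord u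

variable {m D : ℕ} {a : ℕ → ℤ}

/-- the representation is peu ramifiée at `A` -/
def MRep.Peu {p : ℕ} (P : MRep p D a) (A : ValuationSubring Qb) (ζ : Qb) : Prop :=
  ∀ v₁ v₂ : Fin 2 → ZMod p, v₁ ≠ 0 →
    (∀ σ ∈ A.inertiaSubgroupIn ℚ, ∀ v, ∃ c : ZMod p, P.ρ σ *ᵥ v - v = c • v₁) →
    ∃ u : Qb, u ∈ A ∧ u⁻¹ ∈ A ∧ u ≠ 0 ∧ u ^ p ∈ NN.K0F A ∧
      ∀ σ ∈ A.inertiaSubgroupIn ℚ, ∀ b : ℕ, P.ρ σ *ᵥ v₂ = v₂ + (b : ZMod p) • v₁ →
        σ u = ζ ^ b * u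

section Main

variable {M p : ℕ} [NeZero M] [hp : Fact p.Prime] {A : ValuationSubring Qb}

/-- relations of level `M` kill the trace to level `M` of the eigenspace -/
theorem aStar_eq_zero (hMD : M * p ∣ D) {t : HeckeAlg} (ht : t ∈ heckeAway D)
    (h0 : CuspForm.heckeEvalForms M 2 t = 0) (hne : ¬ (p : ℤ) ∣ evalAt a t)
    {x : JZero (M * p)} (hx : x ∈ EigSub (M * p) p D a) : aStar M p x = 0 := by
  have hpx : p • aStar M p x = 0 := by rw [← map_nsmul, hx.1, map_zero]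
  have h1 : ∀ l : Nat.Primes, ¬ (l : ℕ) ∣ D →
      heckeOperatorBar M l (aStar M p x) = a l • aStar M p x := by
    intro l hl
    have hpl : p ≠ (l : ℕ) := fun h => hl (h ▸ (dvd_mul_left p M).trans hMD)
    haveI : NeZero (l : ℕ) := ⟨l.2.ne_zero⟩
    have h2 := hx.2 l hl
    rw [heckeOperatorBar_apply] at h2
    rw [heckeOperatorBar_apply, H05.aStar_eq_degPush, ← H05.degPush_hecke Qb l.2 hp.out hpl, h2,
      map_zsmul]
  have h2 := heckeJ_torsion h0 hp.out.ne_zero hpx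
  rw [heckeJ_eq_evalAt ht h1] at h2
  obtain ⟨u, v, huv⟩ := ((Nat.prime_iff_prime_int.mp hp.out).coprime_iff_not_dvd.2 hne).symm
  have h3 : aStar M p x = u • (evalAt a t • aStar M p x) + v • (p • aStar M p x) := by
    rw [← natCast_zsmul (aStar M p x) p, smul_smul, smul_smul, ← add_smul, huv, one_smul]
  rw [h3, h2, hpx, smul_zero, smul_zero, add_zero]

theorem wEig_mul_self {m : ℕ} (hpM : Nat.Coprime p M) (hMD : M * p ∣ D) :
    wEig hpM m D a hMD * wEig hpM m D a hMD = 1 :=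
  LinearMap.ext fun x => Subtype.ext (wS_wS M p hpM (x : JZero (M * p)))

theorem wEig_galEig {m : ℕ} (hpM : Nat.Coprime p M) (hMD : M * p ∣ D) (g : Γq) :
    wEig hpM m D a hMD * galEig (M * p) m D a g = galEig (M * p) m D a g * wEig hpM m D a hMD :=
  LinearMap.ext fun x => Subtype.ext (galois_wS M p hpM g (x : JZero (M * p))).symm

/-- the standard representation inside the eigenspace -/
theorem exists_std (hpM : Nat.Coprime p M) (hD : D ≠ 0) (hMD : M * p ∣ D) (P : MRep p D a)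
    (hne : ∃ x ∈ EigSub (M * p) p D a, x ≠ 0) :
    ∃ j : (Fin 2 → ZMod p) →+ JZero (M * p), Function.Injective j ∧
      (∀ v, j v ∈ EigSub (M * p) p D a) ∧ (∀ (σ : Γq) v, σ • j v = j (P.ρ σ *ᵥ v)) ∧
      ((∀ v, wS M p hpM • j v = j v) ∨ (∀ v, wS M p hpM • j v = - j v)) := by
  have hpD : p ∣ D := (dvd_mul_left p M).trans hMD
  have hp0 : p ≠ 0 := hp.out.ne_zero
  haveI : Nontrivial (EigSub (M * p) p D a) := by
    obtain ⟨x, hx, hx0⟩ := hne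
    exact ⟨⟨x, hx⟩, 0, fun h => hx0 (congrArg Subtype.val h)⟩
  obtain ⟨ι, hinj, hιr, hιw⟩ := exists_std_alg P.ρ (galEig (M * p) p D a)
    (P.rel hp0 hD hMD hpD) P.span (wEig hpM p D a hMD) (wEig_mul_self hpM hMD)
    (wEig_galEig hpM hMD)
  refine ⟨(EigSub (M * p) p D a).subtype.comp ι.toAddMonoidHom, fun u v h => hinj (Subtype.ext h),
    fun v => (ι v).2, fun σ v => congrArg Subtype.val (hιr σ v), ?_⟩
  rcases hιw with h | h
  · exact Or.inl fun v => congrArg Subtype.val (h v)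
  · exact Or.inr fun v => congrArg Subtype.val (h v)

/-- **Mazur's principle at `p`** for a system of eigenvalues -/
theorem n3_relations (hN3 : N3Core p M A) (hp2 : p ≠ 2) (hpM : Nat.Coprime p M) (h2 : 2 ∣ M)
    (hA : A.LiesOverPrime p) {ζ : Qb} (hζ : IsPrimitiveRoot ζ p) (hD : D ≠ 0)
    (hMD : M * p ∣ D) (P : MRep p D a)
    (hdet : ∀ σ ∈ A.inertiaSubgroupIn ℚ, ∀ b : ℕ, σ ζ = ζ ^ b → (P.ρ σ).det = (b : ZMod p))
    (hpeu : P.Peu A ζ) (hne : ∃ x ∈ EigSub (M * p) p D a, x ≠ 0) :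
    ∀ t ∈ heckeAway D, CuspForm.heckeEvalForms M 2 t = 0 → (p : ℤ) ∣ evalAt a t := by
  intro t ht h0
  by_contra hcon
  have hp0 : p ≠ 0 := hp.out.ne_zero
  obtain ⟨j, hjinj, hjmem, hjσ, hjw'⟩ := exists_std hpM hD hMD P hne
  have hjp : ∀ v, p • j v = 0 := fun v => (hjmem v).1
  have hjc : ∀ (c : ℕ) v, j ((c : ZMod p) • v) = c • j v := by
    intro c v
    rw [Nat.cast_smul_eq_nsmul, map_nsmul]
  have hjw : ∀ v, wS M p hpM • j v = j v ∨ wS M p hpM • j v = - j v := by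
    intro v
    rcases hjw' with h | h
    · exact Or.inl (h v)
    · exact Or.inr (h v)
  have haS : ∀ v, aStar M p (j v) = 0 := fun v => aStar_eq_zero hMD ht h0 hcon (hjmem v)
  have haS' : ∀ v, aStar M p (wS M p hpM • j v) = 0 := fun v =>
    aStar_eq_zero hMD ht h0 hcon (wS_mem_EigSub hpM hMD (hjmem v))
  -- the line
  let L : Submodule (ZMod p) (Fin 2 → ZMod p) :=
    AddSubgroup.toZModSubmodule p ((TSub A M p p hpM).comap j)
  have hL : ∀ v, v ∈ L ↔ j v ∈ TSub A M p p hpM := fun _ => Iff.rfl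
  have hLK : ∀ v, j v ∈ KInf A M p p → v ∈ L := by
    intro v hv
    rw [hL, mem_TSub]
    refine ⟨hv, ?_⟩
    rcases hjw v with h | h
    · rw [h]; exact hv
    · rw [h]; exact neg_mem hv
  have hζa : ∀ σ : Γq, ∃ b : ℕ, σ ζ = ζ ^ b := by
    intro σ
    have h1 : (σ ζ) ^ p = 1 := by rw [← map_pow, hζ.pow_eq_one, map_one]
    obtain ⟨b, -, hb⟩ := hζ.eq_pow_of_pow_eq_one h1
    exact ⟨b, hb.symm⟩
  have hLI : ∀ (σ : A.inertiaSubgroupIn ℚ) v, P.ρ (σ : Γq) *ᵥ v - v ∈ L := by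
    intro σ v
    rw [hL, map_sub, ← hjσ]
    exact inertia_mem_TSub hA hpM σ σ.2 (hjp v)
  have hLdet : ∀ (σ : A.inertiaSubgroupIn ℚ), ∀ v ∈ L,
      P.ρ (σ : Γq) *ᵥ v = (P.ρ (σ : Γq)).det • v := by
    intro σ v hv
    obtain ⟨b, hb⟩ := hζa σ
    apply hjinj
    rw [hdet σ σ.2 b hb, ← hjσ, hjc]
    exact Fermat.Agent.P.inertia_new hpM hA hζ ((mem_TSub hpM).1 ((hL v).1 hv)).1 (haS v) (haS' v) σ.2 hb
  -- inertia moves `ζ`
  obtain ⟨σ₀, hσ₀, ξ, hξ, hmove⟩ := H05.exists_inertia_moves hp.out hp2 hA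
  have hσζ : σ₀ ζ ≠ ζ := by
    intro h
    apply hmove
    obtain ⟨i, -, rfl⟩ := hζ.eq_pow_of_pow_eq_one hξ
    rw [map_pow, h]
  obtain ⟨b₀, hb₀⟩ := hζa σ₀
  have hd1 : (P.ρ σ₀).det ≠ 1 := by
    intro h
    apply hσζ
    rw [hdet σ₀ hσ₀ b₀ hb₀, ← Nat.cast_one, ZMod.natCast_eq_natCast_iff] at h
    rw [hb₀, pow_eq_pow_mod b₀ hζ.pow_eq_one, h]
    conv_rhs => rw [← pow_one ζ, pow_eq_pow_mod 1 hζ.pow_eq_one]
  have hd0 : (P.ρ σ₀).det ≠ 0 := by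
    intro h
    have h1 : (P.ρ σ₀).det * (P.ρ σ₀⁻¹).det = 1 := by
      rw [← Matrix.det_mul, ← map_mul, mul_inv_cancel, map_one, Matrix.det_one]
    rw [h, zero_mul] at h1
    exact zero_ne_one h1
  obtain ⟨v₁, v₂, hv₁, hv₁0, hv₂, hspan⟩ := line_of_det
    (fun σ : A.inertiaSubgroupIn ℚ => P.ρ (σ : Γq)) L hLI hLdet (g₀ := ⟨σ₀, hσ₀⟩) hd1 hd0
  have hy0 : j v₁ ≠ 0 := fun h => hv₁0 (hjinj (h.trans (map_zero j).symm))
  have hadd : ∀ (σ : Γq) (b : ℕ), σ • j v₂ = j v₂ + b • j v₁ →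
      P.ρ σ *ᵥ v₂ = v₂ + (b : ZMod p) • v₁ := by
    intro σ b h
    apply hjinj
    rw [map_add, hjc, ← hjσ, h]
  have hcoef : ∀ σ ∈ A.inertiaSubgroupIn ℚ, ∀ v, ∃ c : ZMod p, P.ρ σ *ᵥ v - v = c • v₁ :=
    fun σ hσ v => hspan _ (hLI ⟨σ, hσ⟩ v)
  have hxI : ∀ σ ∈ A.inertiaSubgroupIn ℚ, ∃ b : ℕ, σ • j v₂ = j v₂ + b • j v₁ := by
    intro σ hσ
    obtain ⟨c, hc⟩ := hcoef σ hσ v₂
    refine ⟨c.val, ?_⟩
    rw [hjσ, ← hjc, ZMod.natCast_zmod_val, ← map_add, ← hc, add_sub_cancel]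
  obtain ⟨u, hu1, hu2, hu3, hu4, hu5⟩ := hpeu v₁ v₂ hv₁0 hcoef
  obtain ⟨l, hl, hlD, hal⟩ := P.exists_l hp.out.one_lt hD
  haveI : Fact l.Prime := ⟨hl⟩
  have hlN : ¬ l ∣ M * p := fun h => hlD (h.trans hMD)
  have hal' : ¬ (p : ℤ) ∣ a l - (l + 1) := by
    intro h
    apply hal
    rw [← ZMod.intCast_zmod_eq_zero_iff_dvd] at h
    push_cast at h
    linear_combination h
  obtain ⟨w, hw1, hw2⟩ := hN3 hpM hζ (hjp v₂) hy0 ((hL v₁).1 hv₁) (haS v₁) (haS' v₁) hxI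
    ⟨u, hu1, hu2, hu3, hu4, fun σ hσ b hb => hu5 σ hσ b (hadd σ b hb)⟩
    ⟨⟨l, hl⟩, hlN, a l, (hjmem v₁).2 ⟨l, hl⟩ hlD, hal'⟩ hlN
  have haway : t ∈ heckeAway (M * p) := by
    refine Algebra.adjoin_mono ?_ ht
    rintro _ ⟨l', hl', rfl⟩
    exact ⟨l', fun h => hl' (h.trans hMD), rfl⟩
  have h3 := occurrence_forms hA hpM (Or.inl h2) hp0 hw1 hw2 haway h0
  rw [(hjmem v₂).2 ⟨l, hl⟩ hlD] at h3
  have e1 : a l • j v₂ - (l + 1) • j v₂ = (a l - (l + 1) : ℤ) • j v₂ := by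
    rw [sub_smul]
    congr 1
  rw [e1, map_zsmul, heckeJ_eq_evalAt ht (hjmem v₂).2, smul_smul] at h3
  have h4 : ¬ (p : ℤ) ∣ (a l - (l + 1)) * evalAt a t := by
    intro h
    rcases (Nat.prime_iff_prime_int.mp hp.out).dvd_or_dvd h with h | h
    · exact hal' h
    · exact hcon h
  obtain ⟨c, d, hcd⟩ := ((Nat.prime_iff_prime_int.mp hp.out).coprime_iff_not_dvd.2 h4).symm
  apply hv₂
  apply hLK
  have h6 : j v₂ = c • (((a l - (l + 1)) * evalAt a t) • j v₂) := by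
    rw [smul_smul]
    have h7 : c * ((a l - (l + 1)) * evalAt a t) = 1 - d * p := by linarith
    rw [h7, sub_smul, one_smul, mul_smul, natCast_zsmul, hjp, smul_zero, sub_zero]
  rw [h6]
  exact (KInf A M p p).zsmul_mem h3 c

end Main

end Fermat.Agent.H11N
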