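import Fermat.Agent.Q.ToricAll
import Fermat.Agent.H05.Kum

/-!
# The norm commutes with the Gauss reduction
-/

set_option autoImplicit false
set_option linter.style.haveILetI false
set_option linter.unusedSectionVars false

noncomputable section

attribute [-instance] HahnSeries.instModule HahnSeries.instSMul HahnSeries.instDistribMulAction
  HahnSeries.instSMulZeroClass

namespace Fermat.Agent.H11N

open ModularCurve AlgebraicCurve Fermat.Agent.Igusa Fermat.Agent.Q

local notation "kk" => IsLocalRing.ResidueField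

section Abstract

variable {E F κE κF : Type*} [Field E] [Field F] [Field κE] [Field κF] [Algebra E F]
  [Algebra κE κF]

theorem norm_red_abs {ι : Type*} [Fintype ι] [DecidableEq ι] (V : Subring F) (ρ : V →+* κF)
    (b : Module.Basis ι E F) (b' : Module.Basis ι κE κF) (hb : ∀ i, b i ∈ V)
    (hρb : ∀ i, ρ ⟨b i, hb i⟩ = b' i)
    (hcoord : ∀ y ∈ V, ∀ i, algebraMap E F (b.repr y i) ∈ V)
    (hρE : ∀ (e : E) (h : algebraMap E F e ∈ V), ∃ eb : κE, ρ ⟨_, h⟩ = algebraMap κE κF eb)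
    (z : V) : ∃ h : algebraMap E F (Algebra.norm E (z : F)) ∈ V,
      ρ ⟨_, h⟩ = algebraMap κE κF (Algebra.norm κE (ρ z)) := by
  have hM : ∀ i j, algebraMap E F (Algebra.leftMulMatrix b (z : F) i j) ∈ V := by
    intro i j
    rw [Algebra.leftMulMatrix_eq_repr_mul]
    exact hcoord _ (mul_mem z.2 (hb j)) i
  let Mv : Matrix ι ι V := fun i j => ⟨_, hM i j⟩
  choose Mb hMb using fun i j => hρE _ (hM i j)
  have hMb' : Algebra.leftMulMatrix b' (ρ z) = Matrix.of Mb := by
    ext i j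
    rw [Algebra.leftMulMatrix_eq_repr_mul, Matrix.of_apply]
    have h1 : (z : F) * b j = ∑ i, algebraMap E F (Algebra.leftMulMatrix b (z : F) i j) * b i := by
      conv_lhs => rw [← b.sum_repr ((z : F) * b j)]
      refine Finset.sum_congr rfl fun i _ => ?_
      rw [Algebra.leftMulMatrix_eq_repr_mul, Algebra.smul_def]
    have h2 : z * ⟨b j, hb j⟩ = ∑ i, Mv i j * ⟨b i, hb i⟩ := by
      apply Subtype.ext
      push_cast
      exact h1
    have h3 := congrArg ρ h2
    rw [map_mul, map_sum, hρb] at h3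
    have h4 : ρ z * b' j = ∑ i, Mb i j • b' i := by
      rw [h3]
      refine Finset.sum_congr rfl fun i _ => ?_
      rw [map_mul, hρb, Algebra.smul_def]
      congr 1
      exact hMb i j
    rw [h4, b'.repr_sum_self]
  have h5 : V.subtype Mv.det = algebraMap E F (Algebra.norm E (z : F)) := by
    rw [Algebra.norm_eq_matrix_det b, RingHom.map_det, RingHom.map_det]
    rfl
  refine ⟨by rw [← h5]; exact Subtype.property _, ?_⟩
  have h6 : (⟨algebraMap E F (Algebra.norm E (z : F)), by rw [← h5]; exact Subtype.property _⟩ :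
      V) = Mv.det := Subtype.ext h5.symm
  rw [h6, RingHom.map_det, Algebra.norm_eq_matrix_det b', hMb', RingHom.map_det]
  congr 1
  ext i j
  exact hMb i j

end Abstract

section Gauss

variable {K : Type*} [Field K] {A : ValuationSubring K}

theorem red_coord {n : ℕ} {S : Set (LaurentSeries K)}
    (hS : ∀ (c : K), ∀ x ∈ S, HahnSeries.C c * x ∈ S)
    (hatt : ∀ x ∈ S, x ≠ 0 → ∃ c : K, c ≠ 0 ∧ ∃ u, u ≠ 0 ∧ Red A (HahnSeries.C c * x) u)
    {κ : Set (LaurentSeries (kk A))} (hκ : ∀ x ∈ S, ∀ u, Red A x u → u ∈ κ)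
    (θ : Fin n → LaurentSeries K) (θb : Fin n → LaurentSeries (kk A))
    (hθ : ∀ i, Red A (θ i) (θb i))
    (hind : ∀ v : Fin n → LaurentSeries (kk A), (∀ i, v i ∈ κ) → ∑ i, v i * θb i = 0 →
      ∀ i, v i = 0)
    {c : Fin n → LaurentSeries K} (hc : ∀ i, c i ∈ S) {w : LaurentSeries (kk A)}
    (hy : Red A (∑ i, c i * θ i) w) : ∀ i, ∃ v, Red A (c i) v := by
  classical
  by_cases hall : ∀ i, c i = 0
  · intro i
    rw [hall i]
    exact ⟨0, Red.zero⟩
  push Not at hall
  have hex : ∀ i, ∃ d : K, d ≠ 0 ∧ (c i ≠ 0 → ∃ v, v ≠ 0 ∧ Red A (HahnSeries.C d * c i) v) := by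
    intro i
    by_cases hi : c i = 0
    · exact ⟨1, one_ne_zero, fun h => absurd hi h⟩
    · obtain ⟨d, hd, v, hv, hr⟩ := hatt _ (hc i) hi
      exact ⟨d, hd, fun _ => ⟨v, hv, hr⟩⟩
  choose d hd hdv using hex
  set s : Finset (Fin n) := Finset.univ.filter fun i => c i ≠ 0 with hs
  have hsne : s.Nonempty := by
    obtain ⟨i, hi⟩ := hall
    exact ⟨i, by simp [hs, hi]⟩
  obtain ⟨i₀, hi₀, hmin⟩ := Finset.exists_min_image s (fun i => A.valuation (d i)) hsne
  have hi₀' : c i₀ ≠ 0 := (Finset.mem_filter.mp hi₀).2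
  have hred : ∀ i, ∃ v, Red A (HahnSeries.C (d i₀) * c i) v := by
    intro i
    by_cases hi : c i = 0
    · refine ⟨0, ?_⟩
      rw [hi, mul_zero]
      exact Red.zero
    · obtain ⟨v, hv, hr⟩ := hdv i hi
      have hmem : d i₀ / d i ∈ A := by
        rw [← A.valuation_le_one_iff, map_div₀]
        have h1 := hmin i (by simp [hs, hi])
        have h2 : A.valuation (d i) ≠ 0 := by simpa using hd i
        exact div_le_one_of_le₀ h1 zero_le
      have h3 := (Red.C hmem).mul hr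
      rw [← mul_assoc, ← map_mul, div_mul_cancel₀ _ (hd i)] at h3
      exact ⟨_, h3⟩
  choose v hv using hred
  have hv₀ : v i₀ ≠ 0 := by
    obtain ⟨v', hv', hr⟩ := hdv i₀ hi₀'
    rw [(hv i₀).unique hr]
    exact hv'
  -- `d i₀` is a unit or not integral
  have hinv : (d i₀)⁻¹ ∈ A := by
    by_contra hcon
    have hdA : d i₀ ∈ A := by
      rcases A.mem_or_inv_mem (d i₀) with h | h
      · exact h
      · exact absurd h hcon
    have hres : IsLocalRing.residue A ⟨d i₀, hdA⟩ = 0 := by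
      rw [IsLocalRing.residue_eq_zero_iff, IsLocalRing.mem_maximalIdeal, mem_nonunits_iff]
      intro hu
      obtain ⟨b, hb⟩ := isUnit_iff_exists_inv.mp hu
      apply hcon
      rw [inv_eq_of_mul_eq_one_right (congrArg Subtype.val hb)]
      exact b.2
    have h1 : Red A (HahnSeries.C (d i₀) * ∑ i, c i * θ i) 0 := by
      have := (Red.C hdA).mul hy
      rwa [hres, map_zero, zero_mul] at this
    have h2 : Red A (HahnSeries.C (d i₀) * ∑ i, c i * θ i) (∑ i, v i * θb i) := by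
      rw [Finset.mul_sum]
      refine Red.sum _ fun i _ => ?_
      rw [← mul_assoc]
      exact (hv i).mul (hθ i)
    have h3 := h2.unique h1
    exact hv₀ (hind v (fun i => hκ _ (hS _ _ (hc i)) _ (hv i)) h3 i₀)
  intro i
  have h4 := (Red.C hinv).mul (hv i)
  rw [← mul_assoc, ← map_mul, inv_mul_cancel₀ (hd i₀), map_one, one_mul] at h4
  exact ⟨_, h4⟩

theorem residue_inv_eq_zero {e : K} (he : e ∉ A) (heinv : e⁻¹ ∈ A) :
    IsLocalRing.residue A ⟨e⁻¹, heinv⟩ = 0 := by
  have he0 : e ≠ 0 := by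
    rintro rfl
    exact he (zero_mem A)
  rw [IsLocalRing.residue_eq_zero_iff, IsLocalRing.mem_maximalIdeal, mem_nonunits_iff]
  intro hu
  obtain ⟨b, hb⟩ := isUnit_iff_exists_inv.mp hu
  apply he
  have h7 : e⁻¹ * (b : K) = 1 := congrArg Subtype.val hb
  have h8 : (b : K) = e := by
    field_simp at h7
    exact h7
  rw [← h8]
  exact b.2

/-- independence lifts -/
theorem indep_of_red {n : ℕ} {S : Set (LaurentSeries K)}
    (hS : ∀ (c : K), ∀ x ∈ S, HahnSeries.C c * x ∈ S)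
    (hatt : ∀ x ∈ S, x ≠ 0 → ∃ c : K, c ≠ 0 ∧ ∃ u, u ≠ 0 ∧ Red A (HahnSeries.C c * x) u)
    {κ : Set (LaurentSeries (kk A))} (hκ : ∀ x ∈ S, ∀ u, Red A x u → u ∈ κ)
    (θ : Fin n → LaurentSeries K) (θb : Fin n → LaurentSeries (kk A))
    (hθ : ∀ i, Red A (θ i) (θb i))
    (hind : ∀ v : Fin n → LaurentSeries (kk A), (∀ i, v i ∈ κ) → ∑ i, v i * θb i = 0 →
      ∀ i, v i = 0)
    {g : Fin n → LaurentSeries K} (hg : ∀ i, g i ∈ S) (hg' : ∑ i, g i * θ i = 0) :
    ∀ i, g i = 0 := by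
  by_contra hcon
  push Not at hcon
  obtain ⟨i₁, hi₁⟩ := hcon
  obtain ⟨d, hd, w, hw, hr⟩ := hatt _ (hg i₁) hi₁
  have key : ∀ e : K, ∀ i, ∃ v, Red A (HahnSeries.C e * g i) v := by
    intro e
    refine red_coord hS hatt hκ θ θb hθ hind (c := fun i => HahnSeries.C e * g i) (w := 0)
      (fun i => hS _ _ (hg i)) ?_
    have : ∑ i, (HahnSeries.C e * g i) * θ i = 0 := by
      simp only [mul_assoc]
      rw [← Finset.mul_sum, hg', mul_zero]
    rw [this]
    exact Red.zero
  by_cases htriv : ∀ e : K, e ∈ A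
  · choose v hv using key 1
    have hv' : ∀ i, Red A (g i) (v i) := fun i => by
      have := hv i
      rwa [map_one, one_mul] at this
    have h4 : Red A (∑ i, g i * θ i) (∑ i, v i * θb i) :=
      Red.sum _ fun i _ => (hv' i).mul (hθ i)
    rw [hg'] at h4
    have h5 := hind v (fun i => hκ _ (hg i) _ (hv' i)) (h4.unique Red.zero) i₁
    have h6 := (Red.C (htriv d)).mul (hv' i₁)
    rw [h5, mul_zero] at h6
    exact hw (hr.unique h6)
  · push Not at htriv
    obtain ⟨e, he⟩ := htriv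
    have he0 : e ≠ 0 := by
      rintro rfl
      exact he (zero_mem A)
    obtain ⟨v, hv⟩ := key (e * d) i₁
    have heinv : e⁻¹ ∈ A := (A.mem_or_inv_mem e).resolve_left he
    have h9 := (Red.C heinv).mul hv
    rw [residue_inv_eq_zero he heinv, map_zero, zero_mul, ← mul_assoc, ← map_mul, ← mul_assoc,
      inv_mul_cancel₀ he0, one_mul] at h9
    exact hw (hr.unique h9)

section Core

variable {E F κE κF : Type*} [Field E] [Field F] [Field κE] [Field κF] [Algebra E F]
  [Algebra κE κF] (jF : F →+* LaurentSeries K) (jκ : κF →+* LaurentSeries (kk A))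

theorem norm_red_core {n : ℕ} [Nonempty (Fin n)]
    (hS : ∀ (c : K) (e : E), ∃ e' : E,
      jF (algebraMap E F e') = HahnSeries.C c * jF (algebraMap E F e))
    (hatt : ∀ e : E, e ≠ 0 → ∃ c : K, c ≠ 0 ∧ ∃ u, u ≠ 0 ∧
      Red A (HahnSeries.C c * jF (algebraMap E F e)) u)
    (hκ₀ : ∀ (e : E) (u : LaurentSeries (kk A)), Red A (jF (algebraMap E F e)) u →
      ∃ w : κE, jκ (algebraMap κE κF w) = u)
    (hκ₁ : ∀ (x : F) (u : LaurentSeries (kk A)), Red A (jF x) u → ∃ w : κF, jκ w = u)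
    (hfin : Module.finrank E F = n) (hfin' : Module.finrank κE κF = n)
    (θ : Fin n → F) (θb : Fin n → κF) (hθ : ∀ i, Red A (jF (θ i)) (jκ (θb i)))
    (hli' : LinearIndependent κE θb)
    {z : F} {u : κF} (hzu : Red A (jF z) (jκ u)) :
    Red A (jF (algebraMap E F (Algebra.norm E z)))
      (jκ (algebraMap κE κF (Algebra.norm κE u))) := by
  classical
  let S : Set (LaurentSeries K) := Set.range fun e : E => jF (algebraMap E F e)
  let κ : Set (LaurentSeries (kk A)) := Set.range fun e : κE => jκ (algebraMap κE κF e)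
  have hS' : ∀ (c : K), ∀ x ∈ S, HahnSeries.C c * x ∈ S := by
    rintro c _ ⟨e, rfl⟩
    obtain ⟨e', he'⟩ := hS c e
    exact ⟨e', he'⟩
  have hatt' : ∀ x ∈ S, x ≠ 0 → ∃ c : K, c ≠ 0 ∧ ∃ u, u ≠ 0 ∧
      Red A (HahnSeries.C c * x) u := by
    rintro _ ⟨e, rfl⟩ hne
    apply hatt e
    rintro rfl
    exact hne (by simp)
  have hκ' : ∀ x ∈ S, ∀ u, Red A x u → u ∈ κ := by
    rintro _ ⟨e, rfl⟩ u hu
    exact hκ₀ e u hu
  have hind : ∀ v : Fin n → LaurentSeries (kk A), (∀ i, v i ∈ κ) →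
      ∑ i, v i * jκ (θb i) = 0 → ∀ i, v i = 0 := by
    intro v hv hsum i
    choose g hg using hv
    rw [Fintype.linearIndependent_iff] at hli'
    have h1 : jκ (∑ i, g i • θb i) = 0 := by
      rw [map_sum, ← hsum]
      refine Finset.sum_congr rfl fun i _ => ?_
      rw [Algebra.smul_def, map_mul]
      congr 1
      exact hg i
    have h2 := hli' g ((map_eq_zero jκ).1 h1) i
    rw [← hg i]
    change jκ (algebraMap κE κF (g i)) = 0
    rw [h2, map_zero, map_zero]
  have hli : LinearIndependent E θ := by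
    rw [Fintype.linearIndependent_iff]
    intro g hg i
    have h1 := indep_of_red hS' hatt' hκ' (fun i => jF (θ i)) (fun i => jκ (θb i)) hθ hind
      (g := fun i => jF (algebraMap E F (g i))) (fun i => ⟨g i, rfl⟩) (by
        have h2 := congrArg jF hg
        rw [map_sum, map_zero] at h2
        rw [← h2]
        refine Finset.sum_congr rfl fun i _ => ?_
        rw [Algebra.smul_def, map_mul]) i
    have h3 : jF (algebraMap E F (g i)) = 0 := h1
    rw [map_eq_zero, map_eq_zero] at h3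
    exact h3
  have hcard : Fintype.card (Fin n) = Module.finrank E F := by rw [Fintype.card_fin, hfin]
  have hcard' : Fintype.card (Fin n) = Module.finrank κE κF := by rw [Fintype.card_fin, hfin']
  have hb1 : ∃ b : Module.Basis (Fin n) E F, ∀ i, b i = θ i :=
    ⟨basisOfLinearIndependentOfCardEqFinrank hli hcard, fun i => by simp⟩
  have hb2 : ∃ b : Module.Basis (Fin n) κE κF, ∀ i, b i = θb i :=
    ⟨basisOfLinearIndependentOfCardEqFinrank hli' hcard', fun i => by simp⟩
  obtain ⟨b, hbθ⟩ := hb1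
  obtain ⟨b', hbθ'⟩ := hb2
  let V : Subring F := (VL A).comap jF
  have hinj : Function.Injective jκ := jκ.injective
  have hex : ∀ x : V, ∃ w : κF, jκ w = rho A ⟨jF x, x.2⟩ := fun x =>
    hκ₁ x _ (red_rho (⟨jF x, x.2⟩ : VL A))
  let e : κF ≃+* jκ.range := RingEquiv.ofBijective jκ.rangeRestrict
    ⟨fun x y h => hinj (congrArg Subtype.val h), jκ.rangeRestrict_surjective⟩
  let ρ0 : V →+* jκ.range := RingHom.codRestrict
    ((rho A).comp (jF.restrict V (VL A) fun _ hx => hx)) jκ.range (fun x => hex x)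
  let ρ : V →+* κF := e.symm.toRingHom.comp ρ0
  have hρ0 : ∀ x : V, jκ (ρ x) = rho A ⟨jF x, x.2⟩ := by
    intro x
    have h1 : e (ρ x) = ρ0 x := e.apply_symm_apply (ρ0 x)
    exact congrArg Subtype.val h1
  have hρ : ∀ (x : V) (u : κF), Red A (jF x) (jκ u) → ρ x = u := by
    intro x u h
    apply hinj
    rw [hρ0]
    exact rho_eq h
  have hρ' : ∀ (x : V), Red A (jF x) (jκ (ρ x)) := by
    intro x
    rw [hρ0]
    exact red_rho (⟨jF x, x.2⟩ : VL A)
  have hbV : ∀ i, b i ∈ V := fun i => by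
    rw [hbθ]
    exact ⟨_, hθ i⟩
  have hρb : ∀ i, ρ ⟨b i, hbV i⟩ = b' i := fun i => by
    rw [hbθ']
    apply hρ
    change Red A (jF (b i)) _
    rw [hbθ]
    exact hθ i
  have hcoord : ∀ y ∈ V, ∀ i, algebraMap E F (b.repr y i) ∈ V := by
    rintro y ⟨w, hw⟩ i
    refine red_coord hS' hatt' hκ' (fun i => jF (θ i)) (fun i => jκ (θb i)) hθ hind
      (c := fun i => jF (algebraMap E F (b.repr y i))) (w := w) (fun i => ⟨_, rfl⟩) ?_ i
    have h3 := congrArg jF (b.sum_repr y)
    rw [map_sum] at h3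
    have h4 : ∑ i, jF (algebraMap E F (b.repr y i)) * jF (θ i) = jF y := by
      rw [← h3]
      refine Finset.sum_congr rfl fun i _ => ?_
      rw [Algebra.smul_def, map_mul, hbθ]
    rw [h4]
    exact hw
  have hρE : ∀ (e : E) (h : algebraMap E F e ∈ V), ∃ eb : κE,
      ρ ⟨_, h⟩ = algebraMap κE κF eb := by
    intro e h
    obtain ⟨w, hw⟩ := hκ₀ e _ (hρ' ⟨_, h⟩)
    exact ⟨w, (hinj hw).symm⟩
  obtain ⟨h1, h2⟩ := norm_red_abs V ρ b b' hbV hρb hcoord hρE ⟨z, ⟨_, hzu⟩⟩
  have h5 := hρ' ⟨_, h1⟩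
  rw [h2, hρ ⟨z, ⟨_, hzu⟩⟩ u hzu] at h5
  exact h5

end Core

end Gauss

end Fermat.Agent.H11N
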