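import Fermat.Agent.H28.KernelAbs

/-!
# Places above a point of the special fibre; additive functions of the reduction
-/

set_option autoImplicit false
set_option linter.style.haveILetI false
set_option linter.unusedSectionVars false

noncomputable section

namespace Fermat.Agent.H11N

open Module IsLocalRing IsDedekindDomain AlgebraicCurve Fermat.Agent.H28

section Avoid

variable {O : Type*} [CommRing O] [IsDedekindDomain O]

theorem exists_avoid (P : HeightOneSpectrum O) (s : Finset (HeightOneSpectrum O)) :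
    ∃ a : O, a ≠ 0 ∧ a ∈ P.asIdeal ∧ mlt P (Ideal.span {a}) = 1 ∧
      ∀ w ∈ s, w ≠ P → a ∉ w.asIdeal := by
  classical
  obtain ⟨a, ha, hne⟩ : ∃ a ∈ P.asIdeal, ∀ i ∈ insert (P.asIdeal ^ 2)
      ((s.erase P).image fun w => w.asIdeal), a ∉ i := by
    by_contra hcon
    push Not at hcon
    have hsub : (P.asIdeal : Set O) ⊆ ⋃ i ∈ (↑(insert (P.asIdeal ^ 2)
        ((s.erase P).image fun w => w.asIdeal)) : Set (Ideal O)), ((id i : Ideal O) : Set O) := by
      intro a ha
      rw [Set.mem_iUnion₂]
      obtain ⟨i, hi, hai⟩ := hcon a ha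
      exact ⟨i, hi, hai⟩
    rw [Ideal.subset_union_prime (P.asIdeal ^ 2) (P.asIdeal ^ 2)] at hsub
    · obtain ⟨i, hi, hle⟩ := hsub
      rw [id] at hle
      rw [Finset.mem_insert] at hi
      rcases hi with rfl | hi
      · have h1 : P.asIdeal * ⊤ = P.asIdeal * P.asIdeal := by
          apply le_antisymm
          · rw [Ideal.mul_top, ← pow_two]; exact hle
          · exact Ideal.mul_mono_right le_top
        exact P.isPrime.ne_top (mul_left_cancel₀ (by simpa using P.ne_bot) h1).symm
      · obtain ⟨w, hw, rfl⟩ := Finset.mem_image.1 hi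
        exact (Finset.mem_erase.1 hw).1
          (HeightOneSpectrum.ext (P.isMaximal.eq_of_le w.isPrime.ne_top hle).symm)
    · intro i hi hne _
      rw [Finset.mem_insert] at hi
      rcases hi with h | h
      · exact absurd h hne
      · obtain ⟨w, -, rfl⟩ := Finset.mem_image.1 h
        exact w.isPrime
  have h2 : a ∉ P.asIdeal ^ 2 := hne _ (Finset.mem_insert_self _ _)
  have ha0 : a ≠ 0 := by
    rintro rfl
    exact h2 (zero_mem _)
  refine ⟨a, ha0, ha, ?_, fun w hw hwP => hne _ (Finset.mem_insert_of_mem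
    (Finset.mem_image_of_mem _ (Finset.mem_erase.2 ⟨hwP, hw⟩)))⟩
  have h3 : 1 ≤ mlt P (Ideal.span {a}) := (one_le_mlt_iff P (span_ne_bot ha0)).2
    ((Ideal.span_singleton_le_iff_mem _).2 ha)
  by_contra hne1
  apply h2
  have h4 := (pow_dvd_pow P.asIdeal (show 2 ≤ mlt P (Ideal.span {a}) by omega)).trans
    (pow_multiplicity_dvd P.asIdeal (Ideal.span {a}))
  exact (Ideal.dvd_span_singleton).1 h4

end Avoid

section Theta

variable {L : Type*} [Field L] {A : ValuationSubring L} {O Ob F : Type*}
  [CommRing O] [CommRing Ob] [IsDedekindDomain O] [IsDedekindDomain Ob] [Algebra L O]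
  [Algebra (ResidueField A) Ob]
  [Field F] [Algebra O F] [IsFractionRing O F] [Algebra L F] [IsScalarTower L O F]
variable (S : RedSys A O Ob)

/-- the reduction of the center is everything or a prime -/
theorem bar_ctr_cases (hrat : AllRat L O) (P : Place L F) :
    S.bar (ctr O P) = ⊤ ∨ ∃ w : HeightOneSpectrum Ob, S.bar (ctr O P) = w.asIdeal ∧
      InChart O P ∧ S.Good (ctr O P) := by
  by_cases h : InChart O P
  · by_cases hg : S.Good (ctr O P)
    · right
      have h1 := S.isRat_bar (isRat_ctr hrat h) hg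
      have h2 := h1.isMaximal
      exact ⟨⟨S.bar (ctr O P), h2.isPrime, S.bar_ne_bot (ctr_ne_bot P)⟩, rfl, h, hg⟩
    · exact Or.inl (S.bar_eq_top_of_not_good hg)
  · left
    rw [ctr_of_not h, S.bar_top]

open Classical in
theorem mlt_bar_ctr {v w : HeightOneSpectrum Ob} {P : Place L F}
    (h : S.bar (ctr O P) = w.asIdeal) : mlt v (S.bar (ctr O P)) = if v = w then 1 else 0 := by
  rw [h]
  split_ifs with hvw
  · rw [hvw, mlt_self]
  · exact mlt_eq_zero_of_ne fun h' => hvw h'.symm

/-- places above a point of the special fibre -/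
theorem exists_place_over (hrat : AllRat L O) (w : HeightOneSpectrum Ob) :
    ∃ P : Place L F, InChart O P ∧ S.Good (ctr O P) ∧ S.bar (ctr O P) = w.asIdeal := by
  classical
  obtain ⟨b, hb, hb0⟩ := Submodule.exists_mem_ne_zero_of_ne_bot w.ne_bot
  obtain ⟨a, rfl⟩ := S.surj b
  have ha0 : (a : O) ≠ 0 := by
    intro h
    apply hb0
    have : a = 0 := Subtype.ext h
    rw [this, map_zero]
  have hI : Ideal.span {(a : O)} ≠ ⊥ := span_ne_bot ha0
  set I := Ideal.span {(a : O)} with hIdef
  have hp : ∀ P ∈ UniqueFactorizationMonoid.normalizedFactors I, Prime P := fun P hP =>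
    UniqueFactorizationMonoid.prime_of_normalized_factor P hP
  have h1 := S.bar_prod (UniqueFactorizationMonoid.normalizedFactors I)
    (fun P hP => hrat P ((Ideal.isPrime_of_prime (hp P hP)).isMaximal (hp P hP).ne_zero)
      (hp P hP).ne_zero)
    (fun P hP => (hp P hP).ne_zero)
  rw [Ideal.prod_normalizedFactors_eq_self hI, hIdef, S.bar_span_singleton hb0] at h1
  have h2 : ((UniqueFactorizationMonoid.normalizedFactors I).map S.bar).prod ≤ w.asIdeal := by
    rw [← h1, Ideal.span_singleton_le_iff_mem]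
    exact hb
  rw [Ideal.IsPrime.multiset_prod_map_le _ w.isPrime] at h2
  obtain ⟨p, hpm, hpw⟩ := h2
  have hpp := hp p hpm
  let v₀ : HeightOneSpectrum O := ⟨p, Ideal.isPrime_of_prime hpp, by simpa using hpp.ne_zero⟩
  have hch : InChart O (H18.placeOfPrime L F v₀) := inChart_placeOfPrime v₀
  have hctr : ctr O (H18.placeOfPrime L F v₀) = p := by
    rw [ctr_of hch, center_placeOfPrime]
  refine ⟨H18.placeOfPrime L F v₀, hch, ?_, ?_⟩
  · rw [hctr]
    by_contra hg
    rw [S.bar_eq_top_of_not_good hg, top_le_iff] at hpw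
    exact w.isPrime.ne_top hpw
  · rw [hctr]
    rcases bar_ctr_cases S hrat (H18.placeOfPrime L F v₀) with h | ⟨w', h, -⟩
    · rw [hctr] at h
      rw [h, top_le_iff] at hpw
      exact absurd hpw w.isPrime.ne_top
    · rw [hctr] at h
      rw [h] at hpw ⊢
      exact w'.isMaximal.eq_of_le w.isPrime.ne_top hpw

/-- additive functions on divisors which only depend on the reduction vanish on divisors with
trivial reduction -/
theorem sum_eq_zero_of_theta (hrat : AllRat L O) (τ : Ideal Ob → ℤ) (hτ : τ ⊤ = 0)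
    {E : Divisor L F} (hE : ∀ v, S.theta L F v E = 0) :
    (E.sum fun P n => n * τ (S.bar (ctr O P))) = 0 := by
  classical
  rw [Finsupp.sum, ← Finset.sum_fiberwise_of_maps_to (s := E.support)
    (t := E.support.image fun P => S.bar (ctr O P)) (g := fun P => S.bar (ctr O P))
    (fun P hP => Finset.mem_image_of_mem _ hP)]
  apply Finset.sum_eq_zero
  intro J hJ
  obtain ⟨P₀, -, rfl⟩ := Finset.mem_image.1 hJ
  rcases bar_ctr_cases S hrat P₀ with h | ⟨w, h, -⟩
  · apply Finset.sum_eq_zero
    intro P hP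
    rw [(Finset.mem_filter.1 hP).2, h, hτ, mul_zero]
  · have h1 : ∑ P ∈ E.support with S.bar (ctr O P) = S.bar (ctr O P₀),
        E P * τ (S.bar (ctr O P)) =
        (∑ P ∈ E.support with S.bar (ctr O P) = S.bar (ctr O P₀), E P) *
          τ (S.bar (ctr O P₀)) := by
      rw [Finset.sum_mul]
      refine Finset.sum_congr rfl fun P hP => ?_
      rw [(Finset.mem_filter.1 hP).2]
    rw [h1]
    have h2 := hE w
    rw [S.theta_apply, Finsupp.sum] at h2
    have h3 : ∑ P ∈ E.support, E P * (S.mu w (ctr O P) : ℤ) =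
        ∑ P ∈ E.support with S.bar (ctr O P) = S.bar (ctr O P₀), E P := by
      rw [Finset.sum_filter]
      refine Finset.sum_congr rfl fun P _ => ?_
      rcases bar_ctr_cases S hrat P with h' | ⟨w', h', -⟩
      · rw [RedSys.mu, h', mlt_top, Nat.cast_zero, mul_zero, if_neg]
        rw [h]
        exact fun h0 => w.isPrime.ne_top h0.symm
      · rw [RedSys.mu, mlt_bar_ctr S h', h', h]
        by_cases hw : w = w'
        · subst hw
          rw [if_pos rfl, if_pos rfl, Nat.cast_one, mul_one]
        · rw [if_neg hw, if_neg (fun h0 => hw (HeightOneSpectrum.ext h0.symm)), Nat.cast_zero,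
            mul_zero]
    rw [h3] at h2
    rw [h2, zero_mul]

theorem hom_eq_sum (φ : Divisor L F →+ ℤ) (E : Divisor L F) :
    φ E = E.sum fun P n => n * φ (Finsupp.single P 1) := by
  classical
  conv_lhs => rw [← Finsupp.sum_single E]
  rw [Finsupp.sum, map_sum]
  refine Finset.sum_congr rfl fun P _ => ?_
  have h3 : (Finsupp.single P (E P) : Divisor L F) = (E P) • Finsupp.single P 1 := by
    rw [Finsupp.smul_single, smul_eq_mul, mul_one]
  rw [h3, map_zsmul, smul_eq_mul]

/-- an additive function on divisors, which depends only on the reduction of the place, vanishes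
on divisors with trivial reduction -/
theorem hom_eq_zero_of_theta (hrat : AllRat L O) (φ : Divisor L F →+ ℤ)
    (h0 : ∀ P : Place L F, S.bar (ctr O P) = ⊤ → φ (Finsupp.single P 1) = 0)
    (h1 : ∀ P P' : Place L F, S.bar (ctr O P) = S.bar (ctr O P') →
      φ (Finsupp.single P 1) = φ (Finsupp.single P' 1))
    {E : Divisor L F} (hE : ∀ v, S.theta L F v E = 0) : φ E = 0 := by
  classical
  let τ : Ideal Ob → ℤ := fun J => if h : ∃ P : Place L F, S.bar (ctr O P) = J ∧ J ≠ ⊤ then
    φ (Finsupp.single h.choose 1) else 0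
  have hτ : ∀ P : Place L F, φ (Finsupp.single P 1) = τ (S.bar (ctr O P)) := by
    intro P
    by_cases h : S.bar (ctr O P) = ⊤
    · rw [h0 P h]
      have : ¬ ∃ P' : Place L F, S.bar (ctr O P') = S.bar (ctr O P) ∧ S.bar (ctr O P) ≠ ⊤ :=
        fun ⟨_, _, h'⟩ => h' h
      have h3 : τ (S.bar (ctr O P)) = 0 := dif_neg this
      exact h3.symm
    · have h2 : ∃ P' : Place L F, S.bar (ctr O P') = S.bar (ctr O P) ∧ S.bar (ctr O P) ≠ ⊤ :=
        ⟨P, rfl, h⟩
      have h3 : τ (S.bar (ctr O P)) = φ (Finsupp.single h2.choose 1) := dif_pos h2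
      rw [h3]
      exact (h1 _ _ h2.choose_spec.1).symm
  have htop : τ ⊤ = 0 := dif_neg fun ⟨_, _, h'⟩ => h' rfl
  rw [hom_eq_sum φ E, ← sum_eq_zero_of_theta S hrat τ htop hE]
  refine Finsupp.sum_congr fun P _ => ?_
  rw [hτ P]

end Theta

end Fermat.Agent.H11N
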