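import Fermat.Agent.H11N.Occ
import Fermat.Agent.H28.ModPlace

/-!
# The reduction `J₀(M)(ℚ̄) → J₀(M)(k)` and its compatibility with the Hecke operators
-/

set_option autoImplicit false
set_option linter.style.haveILetI false
set_option linter.unusedSectionVars false
set_option maxSynthPendingDepth 3
set_option synthInstance.maxHeartbeats 400000

noncomputable section

attribute [-instance] HahnSeries.instModule HahnSeries.instSMul HahnSeries.instDistribMulAction
  HahnSeries.instSMulZeroClass

namespace Fermat.Agent.H11N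

open H29 in
attribute [local instance 10000] instLS instIF instIF2

open ModularCurve AlgebraicCurve Fermat.Agent.Igusa Fermat.Agent.Q

local notation "kk" => IsLocalRing.ResidueField
local notation "Qb" => AlgebraicClosure ℚ

attribute [local instance] H12.isAlgClosed_kk

variable {M : ℕ} [NeZero M] {A : ValuationSubring Qb} (C : H28.TwoCharts (H28.modRed M A))

/-- the reduction map on classes of divisors -/
def redJ : JZero M →+ JZeroC (kk A) M :=
  reductionPic0Along C.redPl (H28.isPlaceReduction_redPl C) (H28.principalGenerated C)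

theorem redJ_mk (D : Divisor.degZero (K := Qb) (F := modularFunctionFieldBar M)) :
    redJ C (Pic0.mk D) =
      Pic0.mk (reductionDegZeroAlong C.redPl (H28.isPlaceReduction_redPl C).1 D) := rfl

theorem redJ_surjective : Function.Surjective (redJ C) := by
  intro d
  obtain ⟨D, rfl⟩ := Pic0.mk_surjective d
  choose s hs using C.redPl_surjective
  have h1 : Finsupp.mapDomain C.redPl (Finsupp.mapDomain s (D : Divisor (kk A)
      (modularFunctionFieldFullC (kk A) M))) = D := by
    rw [← Finsupp.mapDomain_comp, show C.redPl ∘ s = id from funext hs, Finsupp.mapDomain_id]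
  have h2 : Finsupp.mapDomain s (D : Divisor (kk A) (modularFunctionFieldFullC (kk A) M)) ∈
      Divisor.degZero (K := Qb) (F := modularFunctionFieldBar M) := by
    rw [Divisor.mem_degZero]
    have h3 := degree_mapDomain_of_deg_eq (H28.isPlaceReduction_redPl C).1
      (Finsupp.mapDomain s (D : Divisor (kk A) (modularFunctionFieldFullC (kk A) M)))
    rw [h1] at h3
    rw [← h3]
    exact D.2
  refine ⟨Pic0.mk ⟨_, h2⟩, ?_⟩
  rw [redJ_mk]
  congr 1
  exact Subtype.ext h1

/-- the involution on the special fibre -/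
theorem wBar {r : ℕ} (hr : r.Prime) (hA : A.LiesOverPrime r) {l : ℕ} [hl : Fact l.Prime]
    (hlM : Nat.Coprime l M) (hk : ((M * l : ℕ) : kk A) ≠ 0) : H12.WBar A M l hlM := by
  obtain ⟨wb, h1, -, h2, -⟩ := H09.exists_wBar (K := Qb) hr hA hlM hk
  refine ⟨wb, h1, fun x => ?_⟩
  have h3 : Q.incl (kk A) M l x =
      ⟨(x : LaurentSeries (kk A)), full_degeneracyC_le (kk A) (dvd_mul_right M l) x.2⟩ :=
    Subtype.ext (Q.coe_incl (kk A) M l x)
  rw [h3]
  exact h2 _ x.2 _

/-- the Hecke operator on the special fibre -/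
def TC (M l : ℕ) [NeZero M] [Fact l.Prime]
    (hFI : FundamentalIdentityAlong (kk A) (H12.betaC (kk A) M l) (H12.integral_betaC (kk A) M l))
    (hk : ((M * l : ℕ) : kk A) ≠ 0) : JZeroC (kk A) M →+ JZeroC (kk A) M :=
  Pic0.correspondence (H12.betaC (kk A) M l) (Q.incl (kk A) M l) (H12.integral_betaC (kk A) M l)
    (H12.integral_alphaC (kk A) M l) hFI (H12.finite_alphaC (kk A) M l) (H12.nf_alphaC hk)

theorem comm_div {r : ℕ} (hr : r.Prime) (hA : A.LiesOverPrime r) {l : ℕ} [hl : Fact l.Prime]
    (hlM : Nat.Coprime l M) (hk : ((M * l : ℕ) : kk A) ≠ 0)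
    (E : Divisor Qb (modularFunctionFieldBar M)) :
    (Finsupp.mapDomain C.redPl (Divisor.correspondence (heckeBetaBar Qb M l)
      (heckeAlphaBar Qb M l) (H05.heckeBetaBarIntegral Qb M l) (H05.heckeAlphaBarIntegral Qb M l) E) :
      Divisor (kk A) (modularFunctionFieldFullC (kk A) M)) =
      Divisor.correspondence (H12.betaC (kk A) M l) (Q.incl (kk A) M l)
        (H12.integral_betaC (kk A) M l) (H12.integral_alphaC (kk A) M l)
        (Finsupp.mapDomain C.redPl E) := by
  have hM : (M : kk A) ≠ 0 := natCast_ne_zero_of_dvd (dvd_mul_right M l) hk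
  exact (H12.goodCorr_hecke hr hA hk (wBar hr hA hlM hk)).comm hr hA hM
    (H28.isPlaceReduction_redPl C) (H28.principalGenerated C) E

theorem redJ_eq_mk {E : Divisor.degZero (K := Qb) (F := modularFunctionFieldBar M)}
    {D : Divisor.degZero (K := kk A) (F := modularFunctionFieldFullC (kk A) M)}
    (h : Finsupp.mapDomain C.redPl (E : Divisor Qb (modularFunctionFieldBar M)) =
      (D : Divisor (kk A) (modularFunctionFieldFullC (kk A) M))) :
    redJ C (Pic0.mk E) = Pic0.mk D := by
  rw [redJ_mk]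
  congr 1
  exact Subtype.ext h

/-- **The reduction commutes with the Hecke operators.** -/
theorem redJ_hecke {r : ℕ} (hr : r.Prime) (hA : A.LiesOverPrime r) {l : ℕ} [hl : Fact l.Prime]
    (hlM : Nat.Coprime l M) (hk : ((M * l : ℕ) : kk A) ≠ 0)
    (hFI : FundamentalIdentityAlong (kk A) (H12.betaC (kk A) M l)
      (H12.integral_betaC (kk A) M l)) (y : JZero M) :
    redJ C (heckeOperatorBar M ⟨l, hl.out⟩ y) = TC M l hFI hk (redJ C y) := by
  obtain ⟨E, rfl⟩ := Pic0.mk_surjective y
  obtain ⟨E', h1, h2⟩ := H12.heckeOperatorBar_mk hl.out E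
  rw [h1, redJ_mk C E, TC, Pic0.correspondence_mk]
  apply redJ_eq_mk
  rw [Pic0.coe_degZeroCorrespondence, coe_reductionDegZeroAlong, h2]
  exact comm_div C hr hA hlM hk _

theorem kum_TC {l : ℕ} [hl : Fact l.Prime]
    (hk : ((M * l : ℕ) : kk A) ≠ 0)
    (hFI : FundamentalIdentityAlong (kk A) (H12.betaC (kk A) M l)
      (H12.integral_betaC (kk A) M l)) {m : ℕ} {d : JZeroC (kk A) M}
    {u : modularFunctionFieldFullC (kk A) M} (h : H05.Kum m d u) :
    H05.Kum m (TC M l hFI hk d) (nmC (kk A) M l u) :=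
  H05.Kum.correspondence (H12.betaC (kk A) M l) (Q.incl (kk A) M l)
    (H12.integral_betaC (kk A) M l) (H12.integral_alphaC (kk A) M l) hFI
    (H12.finite_alphaC (kk A) M l) (H12.nf_alphaC hk) h

/-- The relation between points `x` of `J₀(M r)` and `y` of `J₀(M)`: the reduction of the
Kummer function of `x` is a Kummer function of the reduction of `y`. -/
def Occ (m r : ℕ) [Fact r.Prime] (x : JZero (M * r)) (y : JZero M) : Prop :=
  ∃ u : modularFunctionFieldFullC (kk A) M, RedK A M r m x u ∧ H05.Kum m (redJ C y) u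

namespace Occ

variable {C} {m r : ℕ} [hr : Fact r.Prime] {x x' : JZero (M * r)} {y y' : JZero M}

theorem add (h : Occ C m r x y) (h' : Occ C m r x' y') : Occ C m r (x + x') (y + y') := by
  obtain ⟨u, h1, h2⟩ := h
  obtain ⟨u', h1', h2'⟩ := h'
  refine ⟨u * u', h1.mul h1', ?_⟩
  rw [map_add]
  exact h2.mul h2'

theorem neg (h : Occ C m r x y) : Occ C m r (-x) (-y) := by
  obtain ⟨u, h1, h2⟩ := h
  refine ⟨u⁻¹, h1.inv, ?_⟩
  rw [map_neg]
  exact h2.inv

theorem zero : Occ C m r (0 : JZero (M * r)) (0 : JZero M) := by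
  refine ⟨1, RedK.one, ?_⟩
  rw [map_zero]
  exact H05.kum_zero_one m

theorem zsmul (h : Occ C m r x y) (n : ℤ) : Occ C m r (n • x) (n • y) := by
  induction n using Int.induction_on with
  | zero => rw [zero_smul, zero_smul]; exact zero
  | succ n ih => rw [add_smul, add_smul, one_smul, one_smul]; exact ih.add h
  | pred n ih =>
    rw [sub_smul, sub_smul, one_smul, one_smul, sub_eq_add_neg, sub_eq_add_neg]
    exact ih.add h.neg

theorem hecke (hA : A.LiesOverPrime r) (hrM : Nat.Coprime r M) {l : ℕ} [hl : Fact l.Prime]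
    (hlN : ¬ l ∣ M * r) (h : Occ C m r x y) :
    Occ C m r (heckeOperatorBar (M * r) ⟨l, hl.out⟩ x) (heckeOperatorBar M ⟨l, hl.out⟩ y) := by
  have hlM : Nat.Coprime l M := by
    rw [Nat.Prime.coprime_iff_not_dvd hl.out]
    exact fun h => hlN (h.trans (Dvd.intro r rfl))
  have hlr : Nat.Coprime r l := by
    rw [Nat.Prime.coprime_iff_not_dvd hr.out]
    intro h
    rw [Nat.prime_dvd_prime_iff_eq hr.out hl.out] at h
    exact hlN (h ▸ Dvd.intro_left M rfl)
  have hk : ((M * l : ℕ) : kk A) ≠ 0 :=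
    natCast_residue_ne_zero hr.out hA (Nat.Coprime.mul_right hrM hlr)
  have hFI := H12.fi_betaC (wBar hr.out hA hlM hk) hk
  obtain ⟨u, h1, h2⟩ := h
  refine ⟨nmC (kk A) M l u, h1.hecke hA hrM hlN, ?_⟩
  rw [redJ_hecke C hr.out hA hlM hk hFI]
  exact kum_TC hk hFI h2

end Occ

end Fermat.Agent.H11N
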